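import Mathlib

set_option autoImplicit false

namespace Fermat.Agent.ES

open Module

noncomputable section

variable {X : Type*} [Fintype X] [DecidableEq X]

/-- the permutation operator on functions, `(pOp σ m) x = m (σ⁻¹ x)`. -/
def pOp (σ : Equiv.Perm X) : (X → ℂ) →ₗ[ℂ] (X → ℂ) := LinearMap.funLeft ℂ ℂ σ.symm

omit [Fintype X] [DecidableEq X] in
@[simp] theorem pOp_apply (σ : Equiv.Perm X) (m : X → ℂ) (x : X) : pOp σ m x = m (σ.symm x) := rfl

omit [Fintype X] [DecidableEq X] in
theorem pOp_one (m : X → ℂ) : pOp (1 : Equiv.Perm X) m = m := rfl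

omit [Fintype X] [DecidableEq X] in
theorem pOp_mul (σ τ : Equiv.Perm X) (m : X → ℂ) : pOp (σ * τ) m = pOp σ (pOp τ m) := rfl

omit [Fintype X] [DecidableEq X] in
theorem pOp_inv_pOp (σ : Equiv.Perm X) (m : X → ℂ) : pOp σ⁻¹ (pOp σ m) = m := by
  rw [← pOp_mul, inv_mul_cancel, pOp_one]

omit [Fintype X] [DecidableEq X] in
theorem pOp_pOp_inv (σ : Equiv.Perm X) (m : X → ℂ) : pOp σ (pOp σ⁻¹ m) = m := by
  rw [← pOp_mul, mul_inv_cancel, pOp_one]

omit [Fintype X] in
theorem pOp_single (σ : Equiv.Perm X) (x : X) (c : ℂ) :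
    pOp σ (Pi.single x c) = Pi.single (σ x) c := by
  funext y
  rw [pOp_apply]
  by_cases h : y = σ x
  · subst h
    simp
  · rw [Pi.single_eq_of_ne h, Pi.single_eq_of_ne]
    intro h'
    exact h (by rw [← h', Equiv.apply_symm_apply])

/-- trace of a permutation operator = number of fixed points. -/
theorem trace_pOp (σ : Equiv.Perm X) :
    LinearMap.trace ℂ (X → ℂ) (pOp σ) = ((Finset.univ.filter fun x => σ x = x).card : ℂ) := by
  rw [LinearMap.trace_eq_matrix_trace ℂ (Pi.basisFun ℂ X), Matrix.trace]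
  simp only [Matrix.diag_apply, LinearMap.toMatrix_apply, Pi.basisFun_apply, Pi.basisFun_repr]
  rw [Finset.card_filter, Nat.cast_sum]
  refine Finset.sum_congr rfl fun x _ => ?_
  rw [pOp_single]
  by_cases h : σ x = x
  · simp [h]
  · rw [if_neg h, Pi.single_eq_of_ne (Ne.symm h)]
    simp

/-- anti-invariants of an involution. -/
def antiInv (s : Equiv.Perm X) : Submodule ℂ (X → ℂ) :=
  LinearMap.ker (LinearMap.id + pOp s)

omit [Fintype X] [DecidableEq X] in
theorem mem_antiInv (s : Equiv.Perm X) (m : X → ℂ) : m ∈ antiInv s ↔ m + pOp s m = 0 := by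
  rw [antiInv, LinearMap.mem_ker]; rfl

/-- the kernel of `1 + u + u²`. -/
def cubicKer (u : Equiv.Perm X) : Submodule ℂ (X → ℂ) :=
  LinearMap.ker (LinearMap.id + pOp u + pOp u ∘ₗ pOp u)

omit [Fintype X] [DecidableEq X] in
theorem mem_cubicKer (u : Equiv.Perm X) (m : X → ℂ) :
    m ∈ cubicKer u ↔ m + pOp u m + pOp u (pOp u m) = 0 := by
  rw [cubicKer, LinearMap.mem_ker]; rfl

/-- dimension of the anti-invariants of an involution. -/
theorem two_mul_finrank_antiInv (s : Equiv.Perm X) (hs : s * s = 1) :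
    2 * finrank ℂ (antiInv s) + (Finset.univ.filter fun x => s x = x).card = Fintype.card X := by
  have hss : ∀ m : X → ℂ, pOp s (pOp s m) = m := fun m => by rw [← pOp_mul, hs, pOp_one]
  set e : (X → ℂ) →ₗ[ℂ] (X → ℂ) := (2 : ℂ)⁻¹ • (LinearMap.id - pOp s) with he
  have hproj : LinearMap.IsProj (antiInv s) e := by
    refine ⟨fun m => ?_, fun m hm => ?_⟩
    · rw [mem_antiInv, he]
      simp only [LinearMap.smul_apply, LinearMap.sub_apply, LinearMap.id_apply, map_smul, map_sub,
        hss]
      rw [← smul_add]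
      simp
    · rw [mem_antiInv] at hm
      have h1 : pOp s m = -m := eq_neg_of_add_eq_zero_right hm
      rw [he]
      simp only [LinearMap.smul_apply, LinearMap.sub_apply, LinearMap.id_apply, h1, sub_neg_eq_add]
      rw [← two_smul ℂ m, smul_smul]
      simp
  have htr := hproj.trace
  rw [he, map_smul, map_sub, trace_pOp, LinearMap.trace_id, Module.finrank_pi, smul_eq_mul] at htr
  have h2 : (2 : ℂ) * (finrank ℂ (antiInv s) : ℂ) +
      ((Finset.univ.filter fun x => s x = x).card : ℂ) = (Fintype.card X : ℂ) := by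
    rw [← htr]
    ring
  exact_mod_cast h2

/-- dimension of the kernel of `1 + u + u²` for a permutation of order dividing 3. -/
theorem three_mul_finrank_cubicKer (u : Equiv.Perm X) (hu : u * u * u = 1) :
    3 * finrank ℂ (cubicKer u) + 2 * (Finset.univ.filter fun x => u x = x).card =
      2 * Fintype.card X := by
  have huuu : ∀ m : X → ℂ, pOp u (pOp u (pOp u m)) = m := fun m => by
    rw [← pOp_mul, ← pOp_mul, hu, pOp_one]
  set e : (X → ℂ) →ₗ[ℂ] (X → ℂ) :=
    LinearMap.id - (3 : ℂ)⁻¹ • (LinearMap.id + pOp u + pOp (u * u)) with he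
  have hproj : LinearMap.IsProj (cubicKer u) e := by
    refine ⟨fun m => ?_, fun m hm => ?_⟩
    · rw [mem_cubicKer, he]
      simp only [LinearMap.smul_apply, LinearMap.sub_apply, LinearMap.add_apply,
        LinearMap.id_apply, map_smul, map_sub, map_add, pOp_mul, huuu]
      module
    · rw [mem_cubicKer] at hm
      rw [he]
      simp only [LinearMap.smul_apply, LinearMap.sub_apply, LinearMap.add_apply,
        LinearMap.id_apply, pOp_mul, hm, smul_zero, sub_zero]
  have hfix : (Finset.univ.filter fun x => (u * u) x = x) = Finset.univ.filter fun x => u x = x := by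
    ext x
    rw [Finset.mem_filter, Finset.mem_filter]
    refine and_congr_right fun _ => ?_
    rw [Equiv.Perm.mul_apply]
    constructor
    · intro h
      have h3 : u (u (u x)) = x := by
        have := congrArg (fun σ : Equiv.Perm X => σ x) hu
        simpa [Equiv.Perm.mul_apply] using this
      rw [h] at h3
      exact h3
    · intro h
      rw [h, h]
  have htr := hproj.trace
  rw [he, map_sub, map_smul, map_add, map_add, trace_pOp, trace_pOp, hfix, LinearMap.trace_id,
    Module.finrank_pi, smul_eq_mul] at htr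
  have h2 : (3 : ℂ) * (finrank ℂ (cubicKer u) : ℂ) +
      2 * ((Finset.univ.filter fun x => u x = x).card : ℂ) = 2 * (Fintype.card X : ℂ) := by
    rw [← htr]
    ring
  exact_mod_cast h2

/-- invariants of a permutation. -/
def invSub (t : Equiv.Perm X) : Submodule ℂ (X → ℂ) :=
  LinearMap.ker (pOp t - LinearMap.id)

omit [Fintype X] [DecidableEq X] in
theorem mem_invSub (t : Equiv.Perm X) (m : X → ℂ) : m ∈ invSub t ↔ pOp t m = m := by
  rw [invSub, LinearMap.mem_ker, LinearMap.sub_apply, LinearMap.id_apply, sub_eq_zero]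

/-- averaging over the cyclic group generated by `t`. -/
def tAvg (t : Equiv.Perm X) : (X → ℂ) →ₗ[ℂ] (X → ℂ) :=
  ((orderOf t : ℂ))⁻¹ • ∑ j ∈ Finset.range (orderOf t), pOp (t ^ j)

omit [Fintype X] [DecidableEq X] in
theorem tAvg_apply (t : Equiv.Perm X) (m : X → ℂ) :
    tAvg t m = ((orderOf t : ℂ))⁻¹ • ∑ j ∈ Finset.range (orderOf t), pOp (t ^ j) m := by
  rw [tAvg, LinearMap.smul_apply, LinearMap.sum_apply]

omit [Fintype X] [DecidableEq X] in
theorem tAvg_sum_shift (t : Equiv.Perm X) (m : X → ℂ) :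
    ∑ j ∈ Finset.range (orderOf t), pOp (t ^ (j + 1)) m =
      ∑ j ∈ Finset.range (orderOf t), pOp (t ^ j) m := by
  have h1 := Finset.sum_range_succ' (fun j => pOp (t ^ j) m) (orderOf t)
  have h2 := Finset.sum_range_succ (fun j => pOp (t ^ j) m) (orderOf t)
  rw [h1] at h2
  simp only [pow_orderOf_eq_one, pow_zero] at h2
  exact add_right_cancel h2

omit [Fintype X] [DecidableEq X] in
theorem tAvg_pOp (t : Equiv.Perm X) (m : X → ℂ) : tAvg t (pOp t m) = tAvg t m := by
  rw [tAvg_apply, tAvg_apply]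
  congr 1
  rw [← tAvg_sum_shift t m]
  refine Finset.sum_congr rfl fun j _ => ?_
  rw [pow_succ, pOp_mul]

omit [Fintype X] [DecidableEq X] in
theorem pOp_tAvg (t : Equiv.Perm X) (m : X → ℂ) : pOp t (tAvg t m) = tAvg t m := by
  rw [tAvg_apply, map_smul, map_sum]
  congr 1
  rw [← tAvg_sum_shift t m]
  refine Finset.sum_congr rfl fun j _ => ?_
  rw [pow_succ', pOp_mul]

omit [DecidableEq X] in
theorem tAvg_of_mem_invSub (t : Equiv.Perm X) {m : X → ℂ} (hm : m ∈ invSub t) :
    tAvg t m = m := by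
  rw [mem_invSub] at hm
  have hj : ∀ j : ℕ, pOp (t ^ j) m = m := by
    intro j
    induction j with
    | zero => rw [pow_zero, pOp_one]
    | succ j ih => rw [pow_succ, pOp_mul, hm, ih]
  rw [tAvg_apply, Finset.sum_congr rfl fun j _ => hj j, Finset.sum_const, Finset.card_range,
    ← Nat.cast_smul_eq_nsmul ℂ, smul_smul, inv_mul_cancel₀, one_smul]
  exact_mod_cast (orderOf_pos t).ne'

omit [Fintype X] [DecidableEq X] in
/-- a function invariant under `s` and `t` is invariant under the group they generate. -/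
theorem pOp_eq_of_mem_closure {s t : Equiv.Perm X} {m : X → ℂ} (hs : pOp s m = m)
    (ht : pOp t m = m) {g : Equiv.Perm X}
    (hg : g ∈ Subgroup.closure ({s, t} : Set (Equiv.Perm X))) : pOp g m = m := by
  induction hg using Subgroup.closure_induction with
  | mem x hx =>
    rcases hx with rfl | rfl
    · exact hs
    · exact ht
  | one => exact pOp_one m
  | mul x y _ _ hx hy => rw [pOp_mul, hy, hx]
  | inv x _ hx =>
    have := pOp_inv_pOp x m
    rw [hx] at this
    exact this

omit [Fintype X] [DecidableEq X] in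
/-- `g m - m` lies in `antiInv s ⊔ range (t - 1)` for `g` in the group generated by `s, t`. -/
theorem pOp_sub_mem_of_mem_closure {s t : Equiv.Perm X} (hs : s * s = 1) {g : Equiv.Perm X}
    (hg : g ∈ Subgroup.closure ({s, t} : Set (Equiv.Perm X))) (m : X → ℂ) :
    pOp g m - m ∈ antiInv s ⊔ LinearMap.range (pOp t - LinearMap.id) := by
  induction hg using Subgroup.closure_induction generalizing m with
  | mem x hx =>
    rcases hx with rfl | rfl
    · refine Submodule.mem_sup_left ?_
      rw [mem_antiInv, map_sub, ← pOp_mul, hs, pOp_one]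
      abel
    · exact Submodule.mem_sup_right ⟨m, rfl⟩
  | one => rw [pOp_one, sub_self]; exact Submodule.zero_mem _
  | mul x y _ _ hx hy =>
    have : pOp (x * y) m - m = (pOp x (pOp y m) - pOp y m) + (pOp y m - m) := by
      rw [pOp_mul]; abel
    rw [this]
    exact Submodule.add_mem _ (hx _) (hy _)
  | inv x _ hx =>
    have : pOp x⁻¹ m - m = -(pOp x (pOp x⁻¹ m) - pOp x⁻¹ m) := by
      rw [pOp_pOp_inv]; abel
    rw [this]
    exact Submodule.neg_mem _ (hx _)

omit [Fintype X] [DecidableEq X] in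
theorem pOp_zpow_eq {t : Equiv.Perm X} {m : X → ℂ} (ht : pOp t m = m) (k : ℤ) :
    pOp (t ^ k) m = m :=
  pOp_eq_of_mem_closure ht ht
    (Subgroup.zpow_mem _ (Subgroup.subset_closure (Set.mem_insert _ _)) k)

omit [DecidableEq X] in
/-- the `t`-invariant functions are the functions on the orbit space. -/
theorem finrank_invSub_eq (t : Equiv.Perm X) (r : Setoid X)
    (hr : ∀ x y, r x y ↔ ∃ k : ℤ, (t ^ k) x = y) :
    finrank ℂ (invSub t) = Nat.card (Quotient r) := by
  classical
  have : Fintype (Quotient r) := Fintype.ofFinite _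
  set Φ : (Quotient r → ℂ) →ₗ[ℂ] (X → ℂ) := LinearMap.funLeft ℂ ℂ (Quotient.mk r) with hΦ
  have hinj : Function.Injective Φ :=
    LinearMap.funLeft_injective_of_surjective ℂ ℂ _ Quotient.mk_surjective
  have hrange : LinearMap.range Φ = invSub t := by
    ext m
    rw [mem_invSub]
    constructor
    · rintro ⟨f, rfl⟩
      funext x
      rw [pOp_apply]
      show f (Quotient.mk r (t.symm x)) = f (Quotient.mk r x)
      congr 1
      apply Quotient.sound
      exact (hr _ _).mpr ⟨1, by simp⟩
    · intro hm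
      have hconst : ∀ x y, r x y → m x = m y := by
        intro x y hxy
        obtain ⟨k, rfl⟩ := (hr x y).mp hxy
        have h1 := congrFun (pOp_zpow_eq hm k) ((t ^ k) x)
        rw [pOp_apply, Equiv.symm_apply_apply] at h1
        exact h1
      exact ⟨Quotient.lift m hconst, rfl⟩
  rw [← hrange, LinearMap.finrank_range_of_inj hinj, Module.finrank_fintype_fun_eq_card,
    Nat.card_eq_fintype_card]

theorem finrank_span_singleton_le_one {M : Type*} [AddCommGroup M] [Module ℂ M] (v : M) :
    finrank ℂ (Submodule.span ℂ ({v} : Set M)) ≤ 1 := by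
  have := finrank_span_finset_le_card (R := ℂ) ({v} : Finset M)
  rw [Set.finrank, Finset.coe_singleton, Finset.card_singleton] at this
  exact this

/-- the abstract dimension estimate behind `dim H¹_par ≤ 2g`. -/
theorem parab_main [Nonempty X] (s t : Equiv.Perm X)
    (hs : s * s = 1) (hu : (s * t) * (s * t) * (s * t) = 1)
    (htrans : ∀ x y : X, ∃ g ∈ Subgroup.closure ({s, t} : Set (Equiv.Perm X)), g x = y)
    {H : Type*} [AddCommGroup H] [Module ℂ H] (ζS ζU : H →ₗ[ℂ] (X → ℂ))
    (h1 : ∀ φ, ζS φ ∈ antiInv s)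
    (h2 : ∀ φ, ζU φ ∈ cubicKer (s * t))
    (h3 : ∀ φ, tAvg t (pOp s⁻¹ (ζU φ - ζS φ)) = 0)
    (h4 : ∀ φ (m : X → ℂ), ζS φ = pOp s m - m → ζU φ = pOp (s * t) m - m → φ = 0) :
    Module.Finite ℂ H ∧
      finrank ℂ H + Fintype.card X + finrank ℂ (invSub t) ≤
        finrank ℂ (antiInv s) + finrank ℂ (cubicKer (s * t)) + 2 := by
  have hss : ∀ m : X → ℂ, pOp s (pOp s m) = m := fun m => by rw [← pOp_mul, hs, pOp_one]
  have hsinv : s⁻¹ = s := inv_eq_of_mul_eq_one_left hs
  have huuu : ∀ m : X → ℂ, pOp (s * t) (pOp (s * t) (pOp (s * t) m)) = m := fun m => by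
    rw [← pOp_mul, ← pOp_mul, hu, pOp_one]
  -- finiteness
  have hfin : Module.Finite ℂ H := by
    refine Module.Finite.of_injective (ζS.prod ζU) ?_
    rw [← LinearMap.ker_eq_bot, LinearMap.ker_eq_bot']
    intro φ hφ
    have e1 : ζS φ = 0 := congrArg Prod.fst hφ
    have e2 : ζU φ = 0 := congrArg Prod.snd hφ
    exact h4 φ 0 (by rw [e1, map_zero, sub_zero]) (by rw [e2, map_zero, sub_zero])
  refine ⟨hfin, ?_⟩
  -- the map Θ
  have hmem1 : ∀ c : H × (X → ℂ), (ζS.coprod (pOp s - LinearMap.id)) c ∈ antiInv s := by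
    rintro ⟨φ, m⟩
    rw [LinearMap.coprod_apply]
    refine Submodule.add_mem _ (h1 φ) ?_
    rw [mem_antiInv, LinearMap.sub_apply, LinearMap.id_apply, map_sub, hss]
    abel
  have hmem2 : ∀ c : H × (X → ℂ),
      (ζU.coprod (pOp (s * t) - LinearMap.id)) c ∈ cubicKer (s * t) := by
    rintro ⟨φ, m⟩
    rw [LinearMap.coprod_apply]
    refine Submodule.add_mem _ (h2 φ) ?_
    rw [mem_cubicKer]
    simp only [LinearMap.sub_apply, LinearMap.id_apply, map_sub, huuu]
    abel
  set Θ : H × (X → ℂ) →ₗ[ℂ] (antiInv s) × (cubicKer (s * t)) :=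
    (LinearMap.codRestrict (antiInv s) (ζS.coprod (pOp s - LinearMap.id)) hmem1).prod
      (LinearMap.codRestrict (cubicKer (s * t)) (ζU.coprod (pOp (s * t) - LinearMap.id)) hmem2)
    with hΘ
  set L : (antiInv s) × (cubicKer (s * t)) →ₗ[ℂ] (X → ℂ) :=
    (tAvg t ∘ₗ pOp s⁻¹) ∘ₗ
      ((cubicKer (s * t)).subtype ∘ₗ LinearMap.snd ℂ _ _ -
        (antiInv s).subtype ∘ₗ LinearMap.fst ℂ _ _) with hL
  have hL_apply : ∀ a b, L (a, b) = tAvg t (pOp s⁻¹ ((b : X → ℂ) - (a : X → ℂ))) := by
    intro a b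
    rfl
  -- kernel of Θ
  have hker : finrank ℂ (LinearMap.ker Θ) ≤ 1 := by
    have hle : LinearMap.ker Θ ≤ Submodule.span ℂ {((0 : H), (fun _ => (1 : ℂ) : X → ℂ))} := by
      rintro ⟨φ, m⟩ hφm
      rw [LinearMap.mem_ker] at hφm
      have e1' : ζS φ + (pOp s m - m) = 0 := congrArg (fun p => (p.1 : X → ℂ)) hφm
      have e2' : ζU φ + (pOp (s * t) m - m) = 0 := congrArg (fun p => (p.2 : X → ℂ)) hφm
      have hφ0 : φ = 0 := by
        refine h4 φ (-m) ?_ ?_
        · rw [map_neg]
          rw [eq_neg_of_add_eq_zero_left e1']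
          abel
        · rw [map_neg]
          rw [eq_neg_of_add_eq_zero_left e2']
          abel
      subst hφ0
      rw [map_zero, zero_add, sub_eq_zero] at e1' e2'
      have ht' : pOp t m = m := by
        have : t = s⁻¹ * (s * t) := by group
        rw [this, pOp_mul, e2', hsinv, e1']
      obtain ⟨x₀⟩ := ‹Nonempty X›
      have hconst : m = (m x₀) • (fun _ => (1 : ℂ) : X → ℂ) := by
        funext y
        obtain ⟨g, hg, hgy⟩ := htrans x₀ y
        have hinv := pOp_eq_of_mem_closure e1' ht' (inv_mem hg)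
        have h5 := congrFun hinv x₀
        rw [pOp_apply] at h5
        have h6 : (g⁻¹).symm x₀ = y := by
          rw [← hgy]
          rfl
        rw [h6] at h5
        simp [h5]
      rw [Submodule.mem_span_singleton]
      refine ⟨m x₀, ?_⟩
      rw [Prod.smul_mk, smul_zero, ← hconst]
    exact (Submodule.finrank_mono hle).trans (finrank_span_singleton_le_one _)
  -- range of Θ lies in the kernel of L
  have hrange : LinearMap.range Θ ≤ LinearMap.ker L := by
    rintro _ ⟨⟨φ, m⟩, rfl⟩
    rw [LinearMap.mem_ker]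
    change tAvg t (pOp s⁻¹ ((ζU φ + (pOp (s * t) m - m)) - (ζS φ + (pOp s m - m)))) = 0
    have : ζU φ + (pOp (s * t) m - m) - (ζS φ + (pOp s m - m)) =
        (ζU φ - ζS φ) + (pOp (s * t) m - pOp s m) := by abel
    rw [this, map_add, map_add, h3 φ, zero_add, map_sub, pOp_mul, pOp_inv_pOp, hsinv, hss,
      map_sub, tAvg_pOp, sub_self]
  -- rank-nullity for Θ
  have hΘrn := LinearMap.finrank_range_add_finrank_ker Θ
  rw [Module.finrank_prod, Module.finrank_pi] at hΘrn
  have hLrn := LinearMap.finrank_range_add_finrank_ker L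
  rw [Module.finrank_prod] at hLrn
  have hrange' : finrank ℂ (LinearMap.range Θ) ≤ finrank ℂ (LinearMap.ker L) :=
    Submodule.finrank_mono hrange
  -- lower bound for the rank of L
  have hrankL : finrank ℂ (invSub t) ≤ finrank ℂ (LinearMap.range L) + 1 := by
    have hle : invSub t ≤ LinearMap.range L ⊔ Submodule.span ℂ {(fun _ => (1 : ℂ) : X → ℂ)} := by
      intro n hn
      obtain ⟨x₀⟩ := ‹Nonempty X›
      -- decompose `n = n₀ + c • 1` with `∑ n₀ = 0`
      set c : ℂ := (∑ y, n y) / (Fintype.card X : ℂ) with hc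
      set n₀ : X → ℂ := n - c • (fun _ => (1 : ℂ)) with hn₀
      have hcard : (Fintype.card X : ℂ) ≠ 0 := by
        exact_mod_cast Fintype.card_ne_zero
      have hsum : ∑ y, n₀ y = 0 := by
        simp only [hn₀, Pi.sub_apply, Pi.smul_apply, smul_eq_mul, mul_one, Finset.sum_sub_distrib,
          Finset.sum_const, Finset.card_univ, nsmul_eq_mul]
        rw [hc]
        field_simp
        ring
      -- `n₀ ∈ antiInv s ⊔ range (t - 1)`
      have hn₀mem : n₀ ∈ antiInv s ⊔ LinearMap.range (pOp t - LinearMap.id) := by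
        have hdecomp : n₀ = ∑ y, n₀ y • ((Pi.single y (1 : ℂ) : X → ℂ) - Pi.single x₀ 1) := by
          simp only [smul_sub, Finset.sum_sub_distrib, ← Finset.sum_smul, hsum, zero_smul,
            sub_zero]
          funext z
          simp [Finset.sum_apply, Pi.single_apply]
        rw [hdecomp]
        refine Submodule.sum_mem _ fun y _ => Submodule.smul_mem _ _ ?_
        obtain ⟨g, hg, hgy⟩ := htrans x₀ y
        have := pOp_sub_mem_of_mem_closure hs hg (Pi.single x₀ (1 : ℂ))
        rwa [pOp_single, hgy] at this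
      obtain ⟨a, ha, r, ⟨m', rfl⟩, har⟩ := Submodule.mem_sup.mp hn₀mem
      have hones : (fun _ => (1 : ℂ) : X → ℂ) ∈ invSub t := by
        rw [mem_invSub]; rfl
      have hn_eq : n = tAvg t a + c • (fun _ => (1 : ℂ) : X → ℂ) := by
        have h7 : n = n₀ + c • (fun _ => (1 : ℂ) : X → ℂ) := by rw [hn₀]; abel
        have h8 : tAvg t n = n := tAvg_of_mem_invSub t hn
        have h9 : tAvg t (n₀ + c • (fun _ => (1 : ℂ) : X → ℂ)) =
            tAvg t a + c • (fun _ => (1 : ℂ) : X → ℂ) := by
          rw [map_add, map_smul, tAvg_of_mem_invSub t hones, ← har, map_add,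
            LinearMap.sub_apply, LinearMap.id_apply, map_sub, tAvg_pOp, sub_self, add_zero]
        rw [← h7] at h9
        rw [← h8, h9]
      rw [hn_eq]
      refine Submodule.add_mem _ (Submodule.mem_sup_left ?_)
        (Submodule.mem_sup_right (Submodule.smul_mem _ _ (Submodule.mem_span_singleton_self _)))
      refine ⟨(⟨a, ha⟩, 0), ?_⟩
      rw [hL_apply]
      have ha' : pOp s a = -a := eq_neg_of_add_eq_zero_right ((mem_antiInv s a).mp ha)
      rw [hsinv]
      simp only [ZeroMemClass.coe_zero, zero_sub, map_neg, ha', neg_neg]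
    calc finrank ℂ (invSub t)
        ≤ finrank ℂ (LinearMap.range L ⊔ Submodule.span ℂ {(fun _ => (1 : ℂ) : X → ℂ)} :
            Submodule ℂ (X → ℂ)) := Submodule.finrank_mono hle
      _ ≤ finrank ℂ (LinearMap.range L) +
            finrank ℂ (Submodule.span ℂ {(fun _ => (1 : ℂ) : X → ℂ)}) :=
          Submodule.finrank_add_le_finrank_add_finrank _ _
      _ ≤ finrank ℂ (LinearMap.range L) + 1 :=
          Nat.add_le_add_left (finrank_span_singleton_le_one _) _
  omega

end

end Fermat.Agent.ES
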