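import Mathlib
import Fermat.Agent.ES.ParabolicLA

set_option autoImplicit false

namespace Fermat.Agent.ES

noncomputable section

variable {G : Type*} [Group G] (Γ : Subgroup G)

theorem coc_out_inv_mul_mem (h : G) :
    (Quotient.out (QuotientGroup.mk h : G ⧸ Γ))⁻¹ * h ∈ Γ := by
  rw [← QuotientGroup.eq]
  exact QuotientGroup.out_eq' _

/-- `ψ_φ(h) = φ(out(hΓ)⁻¹ h)`: an extension of `φ` to `G` with `ψ(hγ) = ψ(h) + φ(γ)`. -/
def cocPsi (φ : Additive Γ →+ ℂ) (h : G) : ℂ :=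
  φ (Additive.ofMul ⟨(Quotient.out (QuotientGroup.mk h : G ⧸ Γ))⁻¹ * h, coc_out_inv_mul_mem Γ h⟩)

theorem coc_phi_congr (φ : Additive Γ →+ ℂ) {a b : G} (ha : a ∈ Γ) (hb : b ∈ Γ) (h : a = b) :
    φ (Additive.ofMul ⟨a, ha⟩) = φ (Additive.ofMul ⟨b, hb⟩) := by
  subst h
  rfl

theorem coc_phi_mul (φ : Additive Γ →+ ℂ) {a b : G} (ha : a ∈ Γ) (hb : b ∈ Γ) :
    φ (Additive.ofMul ⟨a * b, Γ.mul_mem ha hb⟩) =
      φ (Additive.ofMul ⟨a, ha⟩) + φ (Additive.ofMul ⟨b, hb⟩) :=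
  map_add φ (Additive.ofMul ⟨a, ha⟩) (Additive.ofMul ⟨b, hb⟩)

theorem cocPsi_mul (φ : Additive Γ →+ ℂ) (h : G) (γ : Γ) :
    cocPsi Γ φ (h * γ) = cocPsi Γ φ h + φ (Additive.ofMul γ) := by
  have e : (Quotient.out (QuotientGroup.mk (h * γ) : G ⧸ Γ))⁻¹ * (h * γ) =
      (Quotient.out (QuotientGroup.mk h : G ⧸ Γ))⁻¹ * h * γ := by
    rw [QuotientGroup.mk_mul_of_mem h γ.2, mul_assoc]
  rw [cocPsi, cocPsi, coc_phi_congr Γ φ _ (Γ.mul_mem (coc_out_inv_mul_mem Γ h) γ.2) e,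
    coc_phi_mul]

theorem cocPsi_out (φ : Additive Γ →+ ℂ) (x : G ⧸ Γ) : cocPsi Γ φ (Quotient.out x) = 0 := by
  have e : (Quotient.out (QuotientGroup.mk (Quotient.out x) : G ⧸ Γ))⁻¹ * Quotient.out x = 1 := by
    rw [QuotientGroup.out_eq', inv_mul_cancel]
  rw [cocPsi, coc_phi_congr Γ φ _ Γ.one_mem e]
  exact map_zero φ

/-- the cocycle attached to `φ`: `z_φ(g)(hΓ) = ψ(g⁻¹h) - ψ(h)`. -/
def cocZ (φ : Additive Γ →+ ℂ) (g : G) : (G ⧸ Γ) → ℂ :=
  fun x => cocPsi Γ φ (g⁻¹ * Quotient.out x)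

theorem cocZ_mk (φ : Additive Γ →+ ℂ) (g h : G) :
    cocZ Γ φ g (QuotientGroup.mk h) = cocPsi Γ φ (g⁻¹ * h) - cocPsi Γ φ h := by
  have hγ := coc_out_inv_mul_mem Γ h
  have h1 := cocPsi_mul Γ φ (Quotient.out (QuotientGroup.mk h : G ⧸ Γ)) ⟨_, hγ⟩
  have h2 := cocPsi_mul Γ φ (g⁻¹ * Quotient.out (QuotientGroup.mk h : G ⧸ Γ)) ⟨_, hγ⟩
  simp only [mul_inv_cancel_left] at h1
  rw [mul_assoc] at h2
  simp only [mul_inv_cancel_left] at h2
  rw [h1, h2, cocPsi_out, cocZ]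
  ring

theorem cocZ_one (φ : Additive Γ →+ ℂ) : cocZ Γ φ 1 = 0 := by
  funext x
  rw [cocZ, inv_one, one_mul, cocPsi_out]
  rfl

/-- the cocycle identity. -/
theorem cocZ_mul (φ : Additive Γ →+ ℂ) (g₁ g₂ : G) :
    cocZ Γ φ (g₁ * g₂) = cocZ Γ φ g₁ + pOp (MulAction.toPerm g₁) (cocZ Γ φ g₂) := by
  funext x
  induction x using QuotientGroup.induction_on with
  | H h =>
    rw [Pi.add_apply, pOp_apply, MulAction.toPerm_symm_apply, MulAction.Quotient.smul_mk,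
      smul_eq_mul, cocZ_mk, cocZ_mk, cocZ_mk, mul_inv_rev, mul_assoc]
    ring

theorem toPerm_pow (g : G) (n : ℕ) :
    (MulAction.toPerm g : Equiv.Perm (G ⧸ Γ)) ^ n = MulAction.toPerm (g ^ n) :=
  (map_pow (MulAction.toPermHom G (G ⧸ Γ)) g n).symm

theorem cocZ_pow (φ : Additive Γ →+ ℂ) (g : G) (n : ℕ) :
    cocZ Γ φ (g ^ n) =
      ∑ j ∈ Finset.range n, pOp ((MulAction.toPerm g : Equiv.Perm (G ⧸ Γ)) ^ j) (cocZ Γ φ g) := by
  induction n with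
  | zero => rw [pow_zero, cocZ_one, Finset.range_zero, Finset.sum_empty]
  | succ n ih => rw [pow_succ, cocZ_mul, ih, Finset.sum_range_succ, toPerm_pow]

/-- the cocycle vanishes at elements acting trivially all of whose conjugates are killed
by `φ`. -/
theorem cocZ_eq_zero_of_fix (φ : Additive Γ →+ ℂ) (g : G)
    (hfix : ∀ x : G ⧸ Γ, g • x = x)
    (hφ : ∀ (h : G) (hm : h⁻¹ * (g⁻¹ * h) ∈ Γ), φ (Additive.ofMul ⟨_, hm⟩) = 0) :
    cocZ Γ φ g = 0 := by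
  funext x
  induction x using QuotientGroup.induction_on with
  | H h =>
    have hm : h⁻¹ * (g⁻¹ * h) ∈ Γ := by
      rw [← QuotientGroup.eq]
      have := hfix (QuotientGroup.mk (g⁻¹ * h))
      rw [MulAction.Quotient.smul_mk, smul_eq_mul, mul_inv_cancel_left] at this
      exact this
    have h1 := cocPsi_mul Γ φ h ⟨_, hm⟩
    simp only [mul_inv_cancel_left] at h1
    rw [cocZ_mk, h1, hφ h hm]
    simp

/-- a cocycle which is a coboundary on a generating set is a coboundary. -/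
theorem cocZ_eq_coboundary_of_mem_closure (φ : Additive Γ →+ ℂ) (m : G ⧸ Γ → ℂ) (A : Set G)
    (hA : ∀ g ∈ A, cocZ Γ φ g = pOp (MulAction.toPerm g) m - m) {g : G}
    (hg : g ∈ Subgroup.closure A) : cocZ Γ φ g = pOp (MulAction.toPerm g) m - m := by
  induction hg using Subgroup.closure_induction with
  | mem x hx => exact hA x hx
  | one =>
    rw [cocZ_one]
    have : (MulAction.toPerm (1 : G) : Equiv.Perm (G ⧸ Γ)) = 1 :=
      map_one (MulAction.toPermHom G (G ⧸ Γ))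
    rw [this, pOp_one, sub_self]
  | mul x y _ _ hx hy =>
    have : (MulAction.toPerm (x * y) : Equiv.Perm (G ⧸ Γ)) = MulAction.toPerm x * MulAction.toPerm y :=
      map_mul (MulAction.toPermHom G (G ⧸ Γ)) x y
    rw [cocZ_mul, hx, hy, this, pOp_mul, map_sub]
    abel
  | inv x _ hx =>
    have h1 := cocZ_mul Γ φ x⁻¹ x
    rw [inv_mul_cancel, cocZ_one, hx, map_sub] at h1
    have : (MulAction.toPerm (x⁻¹) : Equiv.Perm (G ⧸ Γ)) = (MulAction.toPerm x)⁻¹ :=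
      map_inv (MulAction.toPermHom G (G ⧸ Γ)) x
    rw [this] at h1 ⊢
    rw [pOp_inv_pOp] at h1
    have h2 : cocZ Γ φ x⁻¹ = -(m - pOp (MulAction.toPerm x)⁻¹ m) :=
      eq_neg_of_add_eq_zero_left h1.symm
    rw [h2]
    abel

/-- a cocycle `z_φ` which is a coboundary has `φ = 0`. -/
theorem eq_zero_of_cocZ_eq_coboundary (φ : Additive Γ →+ ℂ) (m : G ⧸ Γ → ℂ)
    (hall : ∀ g : G, cocZ Γ φ g = pOp (MulAction.toPerm g) m - m) : φ = 0 := by
  have key : ∀ γ : Γ, φ (Additive.ofMul γ) = 0 := by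
    intro γ
    have h1 := congrFun (hall (γ : G)⁻¹) (QuotientGroup.mk 1)
    rw [cocZ_mk, inv_inv, mul_one] at h1
    have h2 := cocPsi_mul Γ φ 1 γ
    rw [one_mul] at h2
    rw [h2, add_sub_cancel_left, Pi.sub_apply, pOp_apply, MulAction.toPerm_symm_apply, inv_inv,
      MulAction.Quotient.smul_mk, smul_eq_mul, mul_one] at h1
    rw [h1, sub_eq_zero]
    congr 1
    rw [QuotientGroup.eq, mul_one]
    exact Γ.inv_mem γ.2
  ext γ
  exact key (Additive.toMul γ)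

/-- the cocycle as a linear map in `φ`. -/
def cocZL (g : G) : (Additive Γ →+ ℂ) →ₗ[ℂ] ((G ⧸ Γ) → ℂ) where
  toFun φ := cocZ Γ φ g
  map_add' φ φ' := by
    funext x
    rfl
  map_smul' c φ := by
    funext x
    rfl

@[simp] theorem cocZL_apply (g : G) (φ : Additive Γ →+ ℂ) : cocZL Γ g φ = cocZ Γ φ g := rfl

end

end Fermat.Agent.ES
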