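import Fermat.Agent.ES.Defs
import Fermat.Prelude.Thm_ModularForm_sturm_bound_Gamma0

/-!
# ES / module (C): the constant-term map

`finrank_cuspForm_ge`: `dim M₂(Γ₀(N)) + 1 ≤ dim S₂(Γ₀(N)) + #cusps`, where the number of cusps is
the number of orbits of `T` on the coset space `X N`.

The constant-term map `F ↦ (lim_{i∞} cj F x)_x` has kernel the cusp forms, and its image consists
of `T`-invariant vectors with vanishing sum (the trace of `F` is a level one form of weight `2`,
hence zero).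
-/

set_option autoImplicit false

namespace Fermat.Agent.ES

open UpperHalfPlane hiding I
open Complex Filter CongruenceSubgroup ModularForm SlashInvariantForm
open scoped MatrixGroups ModularForm Topology Manifold

noncomputable section

/-! ### Finite-dimensionality (Sturm bound) -/

theorem ct_one_mem_strictPeriods (N : ℕ) :
    (1 : ℝ) ∈ (Gamma0 N : Subgroup (GL (Fin 2) ℝ)).strictPeriods := by
  simp

theorem ct_finite_modularForm (N : ℕ) [NeZero N] (k : ℤ) :
    Module.Finite ℂ (ModularForm (Gamma0 N) k) := by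
  classical
  have h1 := ct_one_mem_strictPeriods N
  let L : ModularForm (Gamma0 N) k →ₗ[ℂ]
      (Fin ((k * (Gamma0 N).index).toNat / 12 + 1) → ℂ) :=
    { toFun := fun f n => (qExpansion 1 f).coeff n
      map_add' := fun f g => by
        funext n
        have := ModularForm.qExpansion_add one_pos h1 f g
        simp only [Pi.add_apply]
        rw [show (⇑(f + g) : ℍ → ℂ) = ⇑f + ⇑g from rfl, this, map_add]
      map_smul' := fun c f => by
        funext n
        have := ModularForm.qExpansion_smul one_pos h1 c f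
        simp only [Pi.smul_apply, RingHom.id_apply]
        rw [show (⇑(c • f) : ℍ → ℂ) = c • ⇑f from rfl, this, map_smul] }
  have hinj : Function.Injective L := by
    rw [← LinearMap.ker_eq_bot, LinearMap.ker_eq_bot']
    intro f hf
    apply ModularForm.sturm_bound_Gamma0 N f
    intro n hn
    exact congrFun hf ⟨n, Nat.lt_succ_of_le hn⟩
  exact Module.Finite.of_injective L hinj


/-! ### Conjugates have limits at `i∞` -/

/-- A periodic holomorphic function bounded at `i∞` tends to its value at `i∞`. -/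
theorem ct_tendsto_valueAtInfty {F : ℍ → ℂ} {h : ℝ} (hh : 0 < h)
    (hper : Function.Periodic (F ∘ ofComplex) h) (hhol : MDiff F) (hbdd : IsBoundedAtImInfty F) :
    Tendsto F atImInfty (𝓝 (valueAtInfty F)) := by
  have han := analyticAt_cuspFunction_zero hh hper hhol hbdd
  have h0 := cuspFunction_apply_zero hh han hper
  have : (cuspFunction h F ∘ fun τ : ℍ ↦ Function.Periodic.qParam h τ : ℍ → ℂ) = F := by
    funext τ
    simpa using eq_cuspFunction τ hh.ne' hper
  rw [← h0]
  simpa [this] using han.continuousAt.tendsto.comp (qParam_tendsto_atImInfty hh)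

/-- Slashing by `T ^ n` is translation by `n`. -/
theorem ct_slash_T_zpow (k : ℤ) (F : ℍ → ℂ) (n : ℤ) (τ : ℍ) :
    (F ∣[k] (ModularGroup.T ^ n)) τ = F ((n : ℝ) +ᵥ τ) := by
  rw [SL_slash_apply, modular_T_zpow_smul]
  have : denom (ModularGroup.T ^ n : SL(2, ℤ)) τ = 1 := by
    rw [ModularGroup.denom_apply, ModularGroup.coe_T_zpow]
    simp
  rw [this]
  simp

theorem ct_slash_T_pow_level {N : ℕ} {k : ℤ} {f : ℍ → ℂ} (hf : ∀ γ ∈ Gamma0 N, f ∣[k] γ = f)
    (g : SL(2, ℤ)) : (f ∣[k] g) ∣[k] (ModularGroup.T ^ (N : ℤ)) = f ∣[k] g := by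
  have hT : ModularGroup.T ^ (N : ℤ) ∈ CongruenceSubgroup.Gamma N := by
    simpa using ModularGroup_T_pow_mem_Gamma N N dvd_rfl
  have hconj : g * ModularGroup.T ^ (N : ℤ) * g⁻¹ ∈ Gamma0 N :=
    Gamma0_mem.mpr (Gamma_mem.mp
      (Subgroup.Normal.conj_mem (CongruenceSubgroup.Gamma_normal (N := N)) _ hT g)).2.2.1
  rw [← SlashAction.slash_mul]
  have e : g * ModularGroup.T ^ (N : ℤ) = (g * ModularGroup.T ^ (N : ℤ) * g⁻¹) * g := by group
  rw [e, SlashAction.slash_mul, hf _ hconj]

theorem ct_periodic {N : ℕ} {k : ℤ} {f : ℍ → ℂ} (hf : ∀ γ ∈ Gamma0 N, f ∣[k] γ = f)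
    (g : SL(2, ℤ)) : Function.Periodic ((f ∣[k] g) ∘ ofComplex) ((N : ℝ) : ℂ) := by
  intro w
  by_cases hw : 0 < w.im
  · have hw1 : 0 < (w + ((N : ℝ) : ℂ)).im := by simpa using hw
    rw [Function.comp_apply, Function.comp_apply, ofComplex_apply_of_im_pos hw1,
      ofComplex_apply_of_im_pos hw]
    have h := congrFun (ct_slash_T_pow_level hf g) ⟨w, hw⟩
    rw [ct_slash_T_zpow] at h
    have e : (⟨w + ((N : ℝ) : ℂ), hw1⟩ : ℍ) = (((N : ℤ) : ℝ)) +ᵥ (⟨w, hw⟩ : ℍ) := by
      ext
      simp [add_comm]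
    rw [e, h]
  · have hw' : w.im ≤ 0 := not_lt.mp hw
    have hw1 : (w + ((N : ℝ) : ℂ)).im ≤ 0 := by simpa using hw'
    rw [Function.comp_apply, Function.comp_apply, ofComplex_apply_of_im_nonpos hw1,
      ofComplex_apply_of_im_nonpos hw']

theorem ct_slash_Gamma0 {N : ℕ} {k : ℤ} (F : ModularForm (Gamma0 N) k) (γ : SL(2, ℤ))
    (hγ : γ ∈ Gamma0 N) : (F : ℍ → ℂ) ∣[k] γ = F := by
  rw [SL_slash]
  exact SlashInvariantFormClass.slash_action_eq F _ (Subgroup.mem_map_of_mem _ hγ)

/-- Every `SL(2,ℤ)`-translate of a modular form on `Γ₀(N)` has a limit at `i∞`. -/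
theorem ct_tendsto_slash {N : ℕ} [NeZero N] {k : ℤ} (F : ModularForm (Gamma0 N) k)
    (g : SL(2, ℤ)) :
    Tendsto ((F : ℍ → ℂ) ∣[k] g) atImInfty (𝓝 (valueAtInfty ((F : ℍ → ℂ) ∣[k] g))) := by
  have hN : (0 : ℝ) < N := by exact_mod_cast Nat.pos_of_ne_zero (NeZero.ne N)
  exact ct_tendsto_valueAtInfty hN (ct_periodic (ct_slash_Gamma0 F) g) (F.holo'.slash k g)
    (ModularFormClass.bdd_at_infty_slash F g)

theorem ct_exists_rep {N : ℕ} (x : X N) :
    ∃ γ : SL(2, ℤ), x = (QuotientGroup.mk (toSL γ) : X N) := by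
  induction x using QuotientGroup.induction_on with
  | H h =>
    obtain ⟨γ, rfl⟩ := toSL.surjective h
    exact ⟨γ, rfl⟩

theorem ct_tendsto_cj {N : ℕ} [NeZero N] {k : ℤ} (F : ModularForm (Gamma0 N) k) (x : X N) :
    Tendsto (cj F x) atImInfty (𝓝 (valueAtInfty (cj F x))) := by
  obtain ⟨γ, rfl⟩ := ct_exists_rep x
  rw [cj_toSL]
  exact ct_tendsto_slash F γ⁻¹

/-! ### Abstract linear algebra: invariant functions with sum zero -/

/-- A space of `t`-invariant functions with vanishing sum on a finite `G`-set has dimension at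
most `#orbits(t) - 1`. -/
theorem ct_finrank_invariant_sum_zero {G : Type*} [Group G] {Y : Type*} [MulAction G Y]
    [Fintype Y] [Nonempty Y] (t : G) (W : Submodule ℂ (Y → ℂ))
    (hW : ∀ v ∈ W, (∀ y, v (t • y) = v y) ∧ ∑ y, v y = 0) :
    Module.finrank ℂ W + 1 ≤ Nat.card (MulAction.orbitRel.Quotient (Subgroup.zpowers t) Y) := by
  classical
  have : Fintype (MulAction.orbitRel.Quotient (Subgroup.zpowers t) Y) := Fintype.ofFinite _
  -- invariance under the whole cyclic group
  have hinv : ∀ v ∈ W, ∀ g ∈ Subgroup.zpowers t, ∀ y, v (g • y) = v y := by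
    intro v hv
    let S : Subgroup G :=
      { carrier := {g | ∀ y, v (g • y) = v y}
        one_mem' := fun y => by rw [one_smul]
        mul_mem' := fun {a b} ha hb y => by rw [mul_smul, ha, hb]
        inv_mem' := fun {a} ha y => by
          have := ha (a⁻¹ • y)
          rw [smul_inv_smul] at this
          exact this.symm }
    have hle : Subgroup.zpowers t ≤ S := (Subgroup.zpowers_le).mpr (hW v hv).1
    exact fun g hg => hle hg
  -- values are determined on a set of representatives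
  have hrep : ∀ v ∈ W, ∀ y : Y,
      v y = v (Quotient.out (Quotient.mk'' y : MulAction.orbitRel.Quotient (Subgroup.zpowers t) Y)) := by
    intro v hv y
    have h1 : (MulAction.orbitRel (Subgroup.zpowers t) Y).r
        (Quotient.out (Quotient.mk'' y : MulAction.orbitRel.Quotient (Subgroup.zpowers t) Y)) y :=
      Quotient.exact (Quotient.out_eq _)
    obtain ⟨g, hg⟩ := h1
    rw [← hg]
    exact (hinv v hv g.1 g.2 y).symm
  let R : W →ₗ[ℂ] (MulAction.orbitRel.Quotient (Subgroup.zpowers t) Y → ℂ) :=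
    (LinearMap.funLeft ℂ ℂ (Quotient.out)).comp W.subtype
  have hRapp : ∀ (v : W) q, R v q = (v : Y → ℂ) (Quotient.out q) := fun v q => rfl
  have hRinj : Function.Injective R := by
    rw [← LinearMap.ker_eq_bot, LinearMap.ker_eq_bot']
    intro v hv
    ext y
    rw [hrep v.1 v.2 y, ← hRapp, hv]
    rfl
  have hne : LinearMap.range R ≠ ⊤ := by
    intro htop
    have h1 : (fun _ => (1 : ℂ)) ∈ LinearMap.range R := by rw [htop]; trivial
    obtain ⟨v, hv⟩ := h1
    have hv1 : ∀ y, (v : Y → ℂ) y = 1 := by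
      intro y
      rw [hrep v.1 v.2 y, ← hRapp, hv]
    have hsum := (hW v.1 v.2).2
    simp only [hv1, Finset.sum_const, Finset.card_univ, nsmul_eq_mul, mul_one] at hsum
    have : (Fintype.card Y : ℂ) ≠ 0 := Nat.cast_ne_zero.mpr Fintype.card_ne_zero
    exact this hsum
  have hlt := Submodule.finrank_lt hne
  rw [LinearMap.finrank_range_of_inj hRinj, Module.finrank_fintype_fun_eq_card] at hlt
  rw [Nat.card_eq_fintype_card]
  omega

/-! ### The constant-term map -/

theorem ct_tendsto_slash_T_zpow {F : ℍ → ℂ} {l : ℂ} (k : ℤ) (n : ℤ)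
    (hF : Tendsto F atImInfty (𝓝 l)) :
    Tendsto (F ∣[k] (ModularGroup.T ^ n)) atImInfty (𝓝 l) := by
  have h1 : Tendsto (fun τ : ℍ => (n : ℝ) +ᵥ τ) atImInfty atImInfty := by
    rw [atImInfty, tendsto_comap_iff]
    have : (UpperHalfPlane.im ∘ fun τ : ℍ => (n : ℝ) +ᵥ τ) = UpperHalfPlane.im := by
      funext τ
      simp
    rw [this]
    exact tendsto_comap
  refine (hF.comp h1).congr fun τ => ?_
  rw [ct_slash_T_zpow]
  rfl

/-- The constant-term map: the values at `i∞` of all conjugates. -/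
def ctMap (N : ℕ) [NeZero N] (k : ℤ) : ModularForm (Gamma0 N) k →ₗ[ℂ] (X N → ℂ) where
  toFun F x := valueAtInfty (cj F x)
  map_add' F G := by
    funext x
    obtain ⟨γ, rfl⟩ := ct_exists_rep x
    have h := (ct_tendsto_slash F γ⁻¹).add (ct_tendsto_slash G γ⁻¹)
    change valueAtInfty (cj (F + G) (QuotientGroup.mk (toSL γ) : X N))
      = valueAtInfty (cj F (QuotientGroup.mk (toSL γ) : X N))
        + valueAtInfty (cj G (QuotientGroup.mk (toSL γ) : X N))
    rw [cj_toSL, cj_toSL, cj_toSL]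
    have e : ((F + G : ModularForm (Gamma0 N) k) : ℍ → ℂ) ∣[k] γ⁻¹
        = (F : ℍ → ℂ) ∣[k] γ⁻¹ + (G : ℍ → ℂ) ∣[k] γ⁻¹ := SlashAction.add_slash _ _ _ _
    rw [e]
    exact h.limUnder_eq
  map_smul' c F := by
    funext x
    obtain ⟨γ, rfl⟩ := ct_exists_rep x
    have h := (ct_tendsto_slash F γ⁻¹).const_smul c
    change valueAtInfty (cj (c • F) (QuotientGroup.mk (toSL γ) : X N))
      = c • valueAtInfty (cj F (QuotientGroup.mk (toSL γ) : X N))
    rw [cj_toSL, cj_toSL]
    have e : ((c • F : ModularForm (Gamma0 N) k) : ℍ → ℂ) ∣[k] γ⁻¹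
        = c • ((F : ℍ → ℂ) ∣[k] γ⁻¹) := ModularForm.SL_smul_slash _ _ _ _
    rw [e]
    exact h.limUnder_eq

theorem ctMap_apply (N : ℕ) [NeZero N] (k : ℤ) (F : ModularForm (Gamma0 N) k) (x : X N) :
    ctMap N k F x = valueAtInfty (cj F x) := rfl

/-- The kernel of the constant-term map consists of cusp forms. -/
theorem ct_isCuspForm {N : ℕ} [NeZero N] {k : ℤ} (F : ModularForm (Gamma0 N) k)
    (h : ctMap N k F = 0) :
    F ∈ ModularForm.cuspFormSubmodule (Gamma0 N : Subgroup (GL (Fin 2) ℝ)) k := by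
  rw [ModularForm.mem_cuspFormSubmodule_iff, ModularForm.isCuspForm_iff]
  intro c hc
  rw [Subgroup.IsArithmetic.isCusp_iff_isCusp_SL2Z] at hc
  rw [OnePoint.isZeroAt_iff_forall_SL2Z hc]
  intro γ _
  have h1 := ct_tendsto_cj F (QuotientGroup.mk (toSL γ⁻¹) : X N)
  have h2 : valueAtInfty (cj F (QuotientGroup.mk (toSL γ⁻¹) : X N)) = 0 := congrFun h _
  rw [h2, cj_toSL, inv_inv] at h1
  exact h1

/-- The constant terms are invariant under `T`. -/
theorem ctMap_T_smul {N : ℕ} [NeZero N] {k : ℤ} (F : ModularForm (Gamma0 N) k) (x : X N) :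
    ctMap N k F (ModularGroup.T • x) = ctMap N k F x := by
  have h1 := ct_tendsto_slash_T_zpow k (-1) (ct_tendsto_cj F x)
  rw [cj_slash] at h1
  have e : ((ModularGroup.T ^ (-1 : ℤ))⁻¹ : SL(2, ℤ)) = ModularGroup.T := by
    rw [zpow_neg_one, inv_inv]
  rw [e] at h1
  exact h1.limUnder_eq

/-- The sum of all conjugates of a weight `2` form is a level one form of weight `2`, hence `0`. -/
theorem ct_sum_cj_eq_zero {N : ℕ} [NeZero N] (F : ModularForm (Gamma0 N) 2) :
    ∑ x : X N, cj F x = 0 := by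
  have h0 : ModularForm.trace 𝒮ℒ F = 0 :=
    rank_zero_iff_forall_zero.mp levelOne_weight_two_rank_zero _
  have h1 := congrArg (fun G : ModularForm 𝒮ℒ 2 => (G : ℍ → ℂ)) h0
  simp only [ModularForm.coe_trace] at h1
  exact h1

theorem ctMap_sum_eq_zero {N : ℕ} [NeZero N] (F : ModularForm (Gamma0 N) 2) :
    ∑ x, ctMap N 2 F x = 0 := by
  have h1 : Tendsto (fun τ => ∑ x : X N, cj F x τ) atImInfty (𝓝 (∑ x, ctMap N 2 F x)) :=
    tendsto_finsetSum _ fun x _ => ct_tendsto_cj F x
  have h2 : (fun τ => ∑ x : X N, cj F x τ) = fun _ => 0 := by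
    funext τ
    have := congrFun (ct_sum_cj_eq_zero F) τ
    rwa [Finset.sum_apply] at this
  rw [h2] at h1
  exact tendsto_nhds_unique h1 tendsto_const_nhds

/-- **(C)**: `dim M₂(Γ₀(N)) + 1 ≤ dim S₂(Γ₀(N)) + #cusps`. -/
theorem finrank_cuspForm_ge (N : ℕ) [NeZero N] :
    Module.finrank ℂ (ModularForm (Gamma0 N) 2) + 1 ≤
      Module.finrank ℂ (CuspForm (Gamma0 N) 2) +
        Nat.card (MulAction.orbitRel.Quotient (Subgroup.zpowers ModularGroup.T) (X N)) := by
  classical
  have := ct_finite_modularForm N 2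
  have hrn := LinearMap.finrank_range_add_finrank_ker (ctMap N 2)
  have hker : Module.finrank ℂ (LinearMap.ker (ctMap N 2))
      ≤ Module.finrank ℂ (CuspForm (Gamma0 N) 2) := by
    rw [(CuspForm.equivCuspFormSubmodule (Gamma0 N : Subgroup (GL (Fin 2) ℝ)) 2).finrank_eq]
    exact Submodule.finrank_mono fun F hF => ct_isCuspForm F hF
  have : Nonempty (X N) := ⟨x0 N⟩
  have hrange : Module.finrank ℂ (LinearMap.range (ctMap N 2)) + 1
      ≤ Nat.card (MulAction.orbitRel.Quotient (Subgroup.zpowers ModularGroup.T) (X N)) := by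
    refine ct_finrank_invariant_sum_zero ModularGroup.T (LinearMap.range (ctMap N 2)) ?_
    rintro _ ⟨F, rfl⟩
    exact ⟨fun x => ctMap_T_smul F x, ctMap_sum_eq_zero F⟩
  omega

end

end Fermat.Agent.ES
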