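import Mathlib

set_option autoImplicit false

namespace Fermat.Agent.ES

/-- the weight function of the counting argument, on half-weights `j = k/2`. -/
theorem counting_pointwise (j : ℕ) :
    ((if j % 2 = 0 then (-1 / 2 : ℚ) else 0) + (if j % 3 = 0 then (1 / 2 : ℚ) else 0)
      + (if j % 3 = 1 then (7 / 6 : ℚ) else 0) + (if j % 3 = 2 then (5 / 6 : ℚ) else 0)
      - (j : ℚ) / 6) ≤ (if j = 1 then (1 : ℚ) else 0) := by
  obtain ⟨m, r, hr, rfl⟩ : ∃ m r : ℕ, r < 6 ∧ j = 6 * m + r :=
    ⟨j / 6, j % 6, Nat.mod_lt _ (by norm_num), (Nat.div_add_mod j 6).symm⟩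
  have h2 : (6 * m + r) % 2 = r % 2 := by omega
  have h3 : (6 * m + r) % 3 = r % 3 := by omega
  rw [h2, h3]
  rcases Nat.eq_zero_or_pos m with rfl | hm
  · interval_cases r <;> norm_num
  · have hm1 : (1 : ℚ) ≤ m := by exact_mod_cast hm
    have hne : ¬ (6 * m + r = 1) := by omega
    rw [if_neg hne]
    push_cast
    interval_cases r <;> norm_num <;> linarith

/-- **Counting lemma.** Weights `k i = 2 * j i` of a homogeneous basis, with the residue class
counts forced by the elliptic points and the total weight forced by the cusps: then there are at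
least `μ/12 − ν₂/4 − ν₃/3 + c/2` basis elements of weight `2`. -/
theorem counting {ι : Type*} [Fintype ι] [DecidableEq ι] (j : ι → ℕ) (μ ν₂ ν₃ c : ℚ)
    (h4 : (2 : ℚ) * (Finset.univ.filter fun i => j i % 2 = 0).card = μ + ν₂)
    (h60 : (3 : ℚ) * (Finset.univ.filter fun i => j i % 3 = 0).card = μ + 2 * ν₃)
    (h62 : (3 : ℚ) * (Finset.univ.filter fun i => j i % 3 = 1).card = μ - ν₃)
    (h64 : (3 : ℚ) * (Finset.univ.filter fun i => j i % 3 = 2).card = μ - ν₃)
    (hK : (∑ i, (j i : ℚ)) = 3 * (μ - c)) :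
    μ / 12 - ν₂ / 4 - ν₃ / 3 + c / 2 ≤ ((Finset.univ.filter fun i => j i = 1).card : ℚ) := by
  have key := Finset.sum_le_sum fun i (_ : i ∈ (Finset.univ : Finset ι)) =>
    counting_pointwise (j i)
  simp only [Finset.sum_add_distrib, Finset.sum_sub_distrib, ← Finset.sum_div] at key
  rw [hK] at key
  simp only [Finset.sum_ite, Finset.sum_const_zero, add_zero, Finset.sum_const, nsmul_eq_mul,
    mul_one] at key
  linarith

end Fermat.Agent.ES
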