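import Mathlib

/-!
# Project ES, L5: the abstract cusp computation

An interface-free statement: for a finite `G`-set `X`, an element `t : G` and a square family of
holomorphic functions `φ i x` on `ℍ`, bounded at `i∞`, on which translation by one acts through
`t⁻¹` on the index `x`, and which is nondegenerate at the cusp, the determinant `W` satisfies
`W(τ)² · exp(-2πi(|X| - #orbits)τ) → L ≠ 0`.
-/

set_option autoImplicit false
set_option linter.unusedSectionVars false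

namespace Fermat.Agent.ES.L5

open UpperHalfPlane hiding I
open Complex Filter Function Asymptotics
open scoped Topology Manifold Real

noncomputable section

/-! ### Part A: one periodic function -/

theorem periodic_comp_ofComplex_of_vadd {g : ℍ → ℂ} (hper : ∀ τ : ℍ, g ((1 : ℝ) +ᵥ τ) = g τ) :
    Periodic (g ∘ ofComplex) ((1 : ℝ) : ℂ) := by
  intro w
  by_cases hw : 0 < im w
  · have hw' : 0 < im (w + ((1 : ℝ) : ℂ)) := by simpa using hw
    simp only [comp_apply, ofComplex_apply_of_im_pos hw', ofComplex_apply_of_im_pos hw]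
    rw [← hper ⟨w, hw⟩]
    congr 1
    ext
    simp [add_comm]
  · have hw0 : im w ≤ 0 := not_lt.mp hw
    have hw' : im (w + ((1 : ℝ) : ℂ)) ≤ 0 := by simpa using hw0
    simp only [comp_apply]
    rw [ofComplex_apply_of_im_nonpos hw', ofComplex_apply_of_im_nonpos hw0]

/-- the `q`-parameter on `ℍ` -/
def qq (τ : ℍ) : ℂ := Complex.exp (2 * π * I * τ)

theorem qq_eq (τ : ℍ) : qq τ = Function.Periodic.qParam 1 τ := by
  simp [qq, Function.Periodic.qParam]

theorem norm_qq (τ : ℍ) : ‖qq τ‖ = Real.exp (-2 * π * τ.im) := by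
  rw [qq_eq, Function.Periodic.norm_qParam]
  simp

theorem qq_ne_zero (τ : ℍ) : qq τ ≠ 0 := Complex.exp_ne_zero _

theorem qq_vadd (τ : ℍ) : qq ((1 : ℝ) +ᵥ τ) = qq τ := by
  unfold qq
  rw [UpperHalfPlane.coe_vadd]
  have : 2 * π * I * (((1 : ℝ) : ℂ) + τ) = 2 * π * I * τ + 2 * π * I := by push_cast; ring
  rw [this, Complex.exp_add, Complex.exp_two_pi_mul_I, mul_one]

theorem mdiff_cexp_mul (a : ℂ) : MDiff (fun τ : ℍ => Complex.exp (a * τ)) := by
  intro τ
  rw [UpperHalfPlane.mdifferentiableAt_iff]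
  have h1 : DifferentiableAt ℂ (fun z : ℂ => Complex.exp (a * z)) (τ : ℂ) := by fun_prop
  refine h1.congr_of_eventuallyEq ?_
  filter_upwards [(Complex.continuous_im.isOpen_preimage _ isOpen_Ioi).mem_nhds τ.im_pos] with z hz
  simp only [comp_apply]
  rw [ofComplex_apply_of_im_pos hz]

theorem mdiff_qq : MDiff qq := mdiff_cexp_mul (2 * π * I)

theorem mdiff_fun_sum {ι : Type*} (t : Finset ι) {F : ι → ℍ → ℂ} (hF : ∀ i ∈ t, MDiff (F i)) :
    MDiff (fun τ => ∑ i ∈ t, F i τ) := by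
  classical
  induction t using Finset.induction_on with
  | empty => simpa using (mdifferentiable_const (c := (0 : ℂ)))
  | insert a s ha ih =>
    simp only [Finset.sum_insert ha]
    exact (hF a (Finset.mem_insert_self a s)).add
      (ih fun i hi => hF i (Finset.mem_insert_of_mem hi))

/-- a `1`-periodic holomorphic function which is `o(1/q)` at `i∞` is bounded at `i∞`. -/
theorem bounded_of_mul_qq_tendsto_zero {g : ℍ → ℂ} (hper : ∀ τ : ℍ, g ((1 : ℝ) +ᵥ τ) = g τ)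
    (hol : MDiff g) (h0 : Tendsto (fun τ : ℍ => g τ * qq τ) atImInfty (𝓝 0)) :
    IsBoundedAtImInfty g := by
  set G : ℍ → ℂ := fun τ => g τ * qq τ with hG
  have hGper : ∀ τ : ℍ, G ((1 : ℝ) +ᵥ τ) = G τ := fun τ => by
    simp only [hG, hper τ, qq_vadd]
  have hGhol : MDiff G := hol.mul mdiff_qq
  have hGzero : IsZeroAtImInfty G := h0
  have hdecay := hGzero.exp_decay_atImInfty one_pos (periodic_comp_ofComplex_of_vadd hGper)
    hGhol hGzero.isBoundedAtImInfty
  rw [isBigO_iff] at hdecay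
  obtain ⟨C, hC⟩ := hdecay
  rw [IsBoundedAtImInfty, BoundedAtFilter, isBigO_iff]
  refine ⟨C, ?_⟩
  filter_upwards [hC] with τ hτ
  simp only [hG, norm_mul, norm_qq, Real.norm_eq_abs, div_one, Real.abs_exp] at hτ
  have hpos : 0 < Real.exp (-2 * π * τ.im) := Real.exp_pos _
  simpa using le_of_mul_le_mul_right hτ hpos

theorem tendsto_of_periodic {g : ℍ → ℂ} (hper : ∀ τ : ℍ, g ((1 : ℝ) +ᵥ τ) = g τ)
    (hol : MDiff g) (hb : IsBoundedAtImInfty g) :
    ∃ b : ℂ, Tendsto g atImInfty (𝓝 b) := by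
  have hper' := periodic_comp_ofComplex_of_vadd hper
  have ha := analyticAt_cuspFunction_zero one_pos hper' hol hb
  refine ⟨cuspFunction 1 g 0, ?_⟩
  have h2 := ha.continuousAt.tendsto.comp (qParam_tendsto_atImInfty one_pos)
  refine h2.congr fun τ => ?_
  simpa using eq_cuspFunction τ one_ne_zero hper'


theorem norm_cexp_mul_I_mul (a : ℝ) (τ : ℍ) :
    ‖Complex.exp ((a : ℂ) * I * τ)‖ = Real.exp (-a * τ.im) := by
  rw [Complex.norm_exp]
  congr 1
  simp [Complex.mul_re, Complex.mul_im]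

theorem tendsto_cexp_mul_I_mul {a : ℝ} (ha : 0 < a) :
    Tendsto (fun τ : ℍ => Complex.exp ((a : ℂ) * I * τ)) atImInfty (𝓝 0) := by
  rw [tendsto_zero_iff_norm_tendsto_zero]
  simp only [norm_cexp_mul_I_mul]
  have h1 : Tendsto (fun τ : ℍ => τ.im) atImInfty atTop := tendsto_comap
  have h2 : Tendsto (fun τ : ℍ => -a * τ.im) atImInfty atBot :=
    h1.const_mul_atTop_of_neg (by linarith)
  exact Real.tendsto_exp_atBot.comp h2

/-- **Lemma B.** A holomorphic function on `ℍ`, bounded at `i∞`, which is multiplied by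
`exp(2πiθ)` under `τ ↦ τ + 1` with `0 ≤ θ < 1`: after removing the factor `exp(2πiθτ)` it has a
limit at `i∞`, and if this limit is `0` the function decays like `exp(-2π Im τ)`. -/
theorem twisted_periodic {ψ : ℍ → ℂ} {θ : ℝ} (hθ0 : 0 ≤ θ) (hθ1 : θ < 1) (hol : MDiff ψ)
    (hb : IsBoundedAtImInfty ψ)
    (htw : ∀ τ : ℍ, ψ ((1 : ℝ) +ᵥ τ) = Complex.exp (2 * π * I * θ) * ψ τ) :
    (∃ b : ℂ, Tendsto (fun τ : ℍ => Complex.exp (-(2 * π * I * θ) * τ) * ψ τ) atImInfty (𝓝 b)) ∧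
    (Tendsto (fun τ : ℍ => Complex.exp (-(2 * π * I * θ) * τ) * ψ τ) atImInfty (𝓝 0) →
      ψ =O[atImInfty] fun τ : ℍ => Real.exp (-2 * π * τ.im)) := by
  set β : ℍ → ℂ := fun τ => Complex.exp (-(2 * π * I * θ) * τ) * ψ τ with hβ
  have hβper : ∀ τ : ℍ, β ((1 : ℝ) +ᵥ τ) = β τ := fun τ => by
    simp only [hβ, htw τ]
    rw [UpperHalfPlane.coe_vadd, ← mul_assoc, ← Complex.exp_add]
    congr 2
    push_cast
    ring
  have hβhol : MDiff β := (mdiff_cexp_mul _).mul hol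
  have hβq : Tendsto (fun τ : ℍ => β τ * qq τ) atImInfty (𝓝 0) := by
    have h1 : ∀ τ : ℍ, β τ * qq τ = ψ τ * Complex.exp (((2 * π * (1 - θ) : ℝ) : ℂ) * I * τ) := by
      intro τ
      simp only [hβ, qq]
      rw [mul_comm (Complex.exp _) (ψ τ), mul_assoc, ← Complex.exp_add]
      congr 2
      push_cast
      ring
    simp only [h1]
    have h2 := tendsto_cexp_mul_I_mul (a := 2 * π * (1 - θ)) (by
      have := Real.pi_pos
      have : 0 < 1 - θ := by linarith
      positivity)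
    have h3 : (fun τ : ℍ => Complex.exp (((2 * π * (1 - θ) : ℝ) : ℂ) * I * τ)) =o[atImInfty]
        (fun _ : ℍ => (1 : ℝ)) := (isLittleO_one_iff ℝ).mpr h2
    have h4 := IsBigO.mul_isLittleO (show ψ =O[atImInfty] (fun _ : ℍ => (1 : ℝ)) from hb) h3
    simp only [mul_one] at h4
    exact (isLittleO_one_iff ℝ).mp h4
  have hβb : IsBoundedAtImInfty β := bounded_of_mul_qq_tendsto_zero hβper hβhol hβq
  refine ⟨tendsto_of_periodic hβper hβhol hβb, fun h0 => ?_⟩
  have hzero : IsZeroAtImInfty β := h0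
  have hdecay := hzero.exp_decay_atImInfty one_pos (periodic_comp_ofComplex_of_vadd hβper)
    hβhol hβb
  have hψβ : ψ =O[atImInfty] β := by
    refine IsBigO.of_bound 1 (Eventually.of_forall fun τ => ?_)
    have h5 : ψ τ = Complex.exp (((2 * π * θ : ℝ) : ℂ) * I * τ) * β τ := by
      simp only [hβ]
      rw [← mul_assoc, ← Complex.exp_add]
      have : ((2 * π * θ : ℝ) : ℂ) * I * τ + -(2 * π * I * θ) * τ = 0 := by push_cast; ring
      rw [this, Complex.exp_zero, one_mul]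
    rw [h5, norm_mul, norm_cexp_mul_I_mul, one_mul]
    have h6 : Real.exp (-(2 * π * θ) * τ.im) ≤ 1 := by
      rw [Real.exp_le_one_iff]
      have := Real.pi_pos
      have := τ.im_pos
      have : 0 ≤ 2 * π * θ * τ.im := by positivity
      linarith
    exact mul_le_of_le_one_left (norm_nonneg _) h6
  refine (hψβ.trans hdecay).congr_right fun τ => ?_
  simp

/-! ### Part B: the discrete Fourier transform on one orbit -/

section dft

variable {n : ℕ} [NeZero n]

theorem sum_stdAddChar_mul (a : ZMod n) :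
    ∑ r : ZMod n, (ZMod.stdAddChar (r * a) : ℂ) = if a = 0 then (n : ℂ) else 0 := by
  rw [AddChar.sum_mulShift a (ZMod.isPrimitive_stdAddChar n)]
  split_ifs <;> simp [ZMod.card]

variable (n) in
/-- the Fourier matrix -/
def dblock : Matrix (ZMod n) (ZMod n) ℂ := Matrix.of fun s r => (ZMod.stdAddChar (s * r) : ℂ)

variable (n) in
/-- the inverse Fourier matrix -/
def dblockInv : Matrix (ZMod n) (ZMod n) ℂ :=
  Matrix.of fun r s => (n : ℂ)⁻¹ * (ZMod.stdAddChar (-(r * s)) : ℂ)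

theorem dblock_mul_inv : dblock n * dblockInv n = 1 := by
  ext s s'
  simp only [Matrix.mul_apply, dblock, dblockInv, Matrix.of_apply]
  have h1 : ∀ r : ZMod n, (ZMod.stdAddChar (s * r) : ℂ) *
      ((n : ℂ)⁻¹ * ZMod.stdAddChar (-(r * s'))) = (n : ℂ)⁻¹ * ZMod.stdAddChar (r * (s - s')) := by
    intro r
    rw [show r * (s - s') = s * r + -(r * s') by ring, AddChar.map_add_eq_mul]
    ring
  simp_rw [h1]
  rw [← Finset.mul_sum, sum_stdAddChar_mul, Matrix.one_apply]
  have hn : (n : ℂ) ≠ 0 := Nat.cast_ne_zero.mpr (NeZero.ne n)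
  by_cases h : s = s'
  · subst h
    simp [hn]
  · simp [h, sub_eq_zero]

theorem sum_val_zmod : ∑ r : ZMod n, (r.val : ℂ) = (n : ℂ) * ((n : ℂ) - 1) / 2 := by
  obtain ⟨m, rfl⟩ : ∃ m, n = m + 1 := Nat.exists_eq_succ_of_ne_zero (NeZero.ne n)
  have h1 : ∑ r : ZMod (m + 1), (r.val : ℂ) = ∑ r : Fin (m + 1), ((r : ℕ) : ℂ) := rfl
  rw [h1, Fin.sum_univ_eq_sum_range (fun i => (i : ℂ)) (m + 1)]
  have h2 : ∀ k : ℕ, ∑ i ∈ Finset.range (k + 1), (i : ℂ) = ((k : ℂ) + 1) * k / 2 := by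
    intro k
    induction k with
    | zero => simp
    | succ k ih =>
      rw [Finset.sum_range_succ, ih]
      push_cast
      ring
  rw [h2]
  push_cast
  ring

theorem stdAddChar_eq_cexp (r : ZMod n) :
    (ZMod.stdAddChar r : ℂ) = Complex.exp (2 * π * I * ((r.val : ℝ) / (n : ℝ) : ℝ)) := by
  rw [ZMod.stdAddChar_apply, ZMod.toCircle_apply]
  congr 1
  push_cast
  ring

end dft


/-! ### Part C: the generic computation on `Σ ω, ZMod (h ω)` -/

section generic

variable {Ω : Type*} [Fintype Ω] [DecidableEq Ω] (h : Ω → ℕ) [∀ ω, NeZero (h ω)]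

/-- the exponents -/
def theta (y : Σ ω : Ω, ZMod (h ω)) : ℝ := (y.2.val : ℝ) / (h y.1 : ℝ)

theorem theta_nonneg (y : Σ ω : Ω, ZMod (h ω)) : 0 ≤ theta h y := by
  unfold theta
  positivity

theorem theta_lt_one (y : Σ ω : Ω, ZMod (h ω)) : theta h y < 1 := by
  unfold theta
  have hpos : (0 : ℝ) < (h y.1 : ℝ) := by exact_mod_cast NeZero.pos (h y.1)
  rw [div_lt_one hpos]
  exact_mod_cast ZMod.val_lt y.2

theorem sum_theta : ∑ y : Σ ω : Ω, ZMod (h ω), (theta h y : ℂ) =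
    ((Fintype.card (Σ ω : Ω, ZMod (h ω)) : ℂ) - Fintype.card Ω) / 2 := by
  rw [Fintype.sum_sigma]
  have h1 : ∀ ω : Ω, ∑ r : ZMod (h ω), (theta h ⟨ω, r⟩ : ℂ) = ((h ω : ℂ) - 1) / 2 := by
    intro ω
    have hn : (h ω : ℂ) ≠ 0 := Nat.cast_ne_zero.mpr (NeZero.ne _)
    simp only [theta]
    push_cast
    rw [← Finset.sum_div, sum_val_zmod]
    field_simp
  simp_rw [h1]
  rw [Fintype.card_sigma]
  simp only [ZMod.card]
  rw [← Finset.sum_div, Finset.sum_sub_distrib]
  simp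

/-- the Fourier transform along each block -/
def dftFun (g : (Σ ω : Ω, ZMod (h ω)) → ℍ → ℂ) (y : Σ ω : Ω, ZMod (h ω)) (τ : ℍ) : ℂ :=
  ∑ s : ZMod (h y.1), (ZMod.stdAddChar (s * y.2) : ℂ) * g ⟨y.1, s⟩ τ

theorem dftFun_eq_sum (g : (Σ ω : Ω, ZMod (h ω)) → ℍ → ℂ) (y : Σ ω : Ω, ZMod (h ω)) (τ : ℍ) :
    dftFun h g y τ =
      ∑ y' : Σ ω : Ω, ZMod (h ω), g y' τ * Matrix.blockDiagonal' (fun ω => dblock (h ω)) y' y := by
  obtain ⟨ω, r⟩ := y
  rw [Fintype.sum_sigma, Finset.sum_eq_single ω]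
  · simp only [dftFun, Matrix.blockDiagonal'_apply_eq, dblock, Matrix.of_apply]
    exact Finset.sum_congr rfl fun s _ => mul_comm _ _
  · intro ω' _ hne
    exact Finset.sum_eq_zero fun s _ => by
      rw [Matrix.blockDiagonal'_apply_ne _ _ _ hne, mul_zero]
  · intro hω
    exact absurd (Finset.mem_univ ω) hω

theorem blockDiagonal_dblock_mul_inv :
    Matrix.blockDiagonal' (fun ω : Ω => dblock (h ω)) *
      Matrix.blockDiagonal' (fun ω : Ω => dblockInv (h ω)) = 1 := by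
  rw [← Matrix.blockDiagonal'_mul]
  have : (fun ω : Ω => dblock (h ω) * dblockInv (h ω)) = 1 := funext fun ω => dblock_mul_inv
  rw [this, Matrix.blockDiagonal'_one]

theorem sum_dftFun_inv (g : (Σ ω : Ω, ZMod (h ω)) → ℍ → ℂ) (y' : Σ ω : Ω, ZMod (h ω)) (τ : ℍ) :
    ∑ y : Σ ω : Ω, ZMod (h ω),
      dftFun h g y τ * Matrix.blockDiagonal' (fun ω => dblockInv (h ω)) y y' = g y' τ := by
  simp_rw [dftFun_eq_sum, Finset.sum_mul]
  rw [Finset.sum_comm]
  simp_rw [mul_assoc, ← Finset.mul_sum]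
  have h1 : ∀ y'' : Σ ω : Ω, ZMod (h ω), ∑ y : Σ ω : Ω, ZMod (h ω),
      Matrix.blockDiagonal' (fun ω => dblock (h ω)) y'' y *
        Matrix.blockDiagonal' (fun ω => dblockInv (h ω)) y y' =
      (1 : Matrix (Σ ω : Ω, ZMod (h ω)) (Σ ω : Ω, ZMod (h ω)) ℂ) y'' y' := by
    intro y''
    rw [← blockDiagonal_dblock_mul_inv h, Matrix.mul_apply]
  simp_rw [h1, Matrix.one_apply]
  simp

theorem dftFun_mat (f : (Σ ω : Ω, ZMod (h ω)) → (Σ ω : Ω, ZMod (h ω)) → ℍ → ℂ) (τ : ℍ) :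
    (Matrix.of fun i y => dftFun h (f i) y τ) =
      (Matrix.of fun i y => f i y τ) * Matrix.blockDiagonal' (fun ω => dblock (h ω)) := by
  ext i y
  rw [Matrix.mul_apply, Matrix.of_apply, dftFun_eq_sum]
  rfl

theorem dftFun_linear {ι : Type*} (t : Finset ι) (c : ι → ℂ)
    (f : ι → (Σ ω : Ω, ZMod (h ω)) → ℍ → ℂ) (y : Σ ω : Ω, ZMod (h ω)) (τ : ℍ) :
    dftFun h (fun y' τ' => ∑ i ∈ t, c i * f i y' τ') y τ = ∑ i ∈ t, c i * dftFun h (f i) y τ := by
  simp only [dftFun, Finset.mul_sum]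
  rw [Finset.sum_comm]
  refine Finset.sum_congr rfl fun i _ => Finset.sum_congr rfl fun s _ => ?_
  ring

theorem mdiff_dftFun {g : (Σ ω : Ω, ZMod (h ω)) → ℍ → ℂ} (hg : ∀ y, MDiff (g y))
    (y : Σ ω : Ω, ZMod (h ω)) : MDiff (dftFun h g y) := by
  have h1 : dftFun h g y =
      ∑ s : ZMod (h y.1), (fun τ => (ZMod.stdAddChar (s * y.2) : ℂ) * g ⟨y.1, s⟩ τ) := by
    funext τ
    simp [dftFun, Finset.sum_apply]
  rw [h1]
  refine MDifferentiable.sum fun s _ => ?_
  exact (mdifferentiable_const (c := (ZMod.stdAddChar (s * y.2) : ℂ))).mul (hg _)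

theorem bdd_dftFun {g : (Σ ω : Ω, ZMod (h ω)) → ℍ → ℂ} (hg : ∀ y, IsBoundedAtImInfty (g y))
    (y : Σ ω : Ω, ZMod (h ω)) : IsBoundedAtImInfty (dftFun h g y) := by
  have h1 : (fun τ => ∑ s : ZMod (h y.1), (ZMod.stdAddChar (s * y.2) : ℂ) * g ⟨y.1, s⟩ τ)
      =O[atImInfty] (1 : ℍ → ℝ) :=
    IsBigO.fun_sum fun s _ => IsBigO.const_mul_left (hg ⟨y.1, s⟩) _
  exact h1

theorem twist_dftFun {g : (Σ ω : Ω, ZMod (h ω)) → ℍ → ℂ}
    (hg : ∀ (ω : Ω) (s : ZMod (h ω)) (τ : ℍ), g ⟨ω, s⟩ ((1 : ℝ) +ᵥ τ) = g ⟨ω, s - 1⟩ τ)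
    (y : Σ ω : Ω, ZMod (h ω)) (τ : ℍ) :
    dftFun h g y ((1 : ℝ) +ᵥ τ) = Complex.exp (2 * π * I * theta h y) * dftFun h g y τ := by
  obtain ⟨ω, r⟩ := y
  simp only [dftFun, hg]
  rw [Fintype.sum_equiv (Equiv.subRight (1 : ZMod (h ω)))
    (fun s => (ZMod.stdAddChar (s * r) : ℂ) * g ⟨ω, s - 1⟩ τ)
    (fun s => (ZMod.stdAddChar ((s + 1) * r) : ℂ) * g ⟨ω, s⟩ τ)
    (fun s => by simp [Equiv.subRight])]
  rw [Finset.mul_sum]
  refine Finset.sum_congr rfl fun s _ => ?_
  rw [show (s + 1) * r = r + s * r by ring, AddChar.map_add_eq_mul, stdAddChar_eq_cexp r]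
  simp only [theta]
  ring


/-- The generic cusp computation, for families indexed by `Σ ω, ZMod (h ω)` on which
`τ ↦ τ + 1` acts by the shift `s ↦ s - 1` inside each block. -/
theorem generic_cusp (f : (Σ ω : Ω, ZMod (h ω)) → (Σ ω : Ω, ZMod (h ω)) → ℍ → ℂ)
    (hol : ∀ i y, MDiff (f i y)) (hb : ∀ i y, IsBoundedAtImInfty (f i y))
    (htr : ∀ i (ω : Ω) (s : ZMod (h ω)) (τ : ℍ), f i ⟨ω, s⟩ ((1 : ℝ) +ᵥ τ) = f i ⟨ω, s - 1⟩ τ)
    (hnd : ∀ c : (Σ ω : Ω, ZMod (h ω)) → ℂ,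
      (∀ y, (fun τ : ℍ => ∑ i, c i * f i y τ) =O[atImInfty]
        fun τ : ℍ => Real.exp (-2 * π * τ.im)) → c = 0) :
    ∃ L : ℂ, L ≠ 0 ∧ Tendsto (fun τ : ℍ => (Matrix.of fun i y => f i y τ).det ^ 2 *
      Complex.exp (-(2 * π * I * ((Fintype.card (Σ ω : Ω, ZMod (h ω)) : ℂ) - Fintype.card Ω)) * τ))
      atImInfty (𝓝 L) := by
  classical
  -- limits of the normalised Fourier components
  have hB1 : ∀ i y, ∃ b : ℂ, Tendsto (fun τ : ℍ =>
      Complex.exp (-(2 * π * I * theta h y) * τ) * dftFun h (f i) y τ) atImInfty (𝓝 b) :=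
    fun i y => (twisted_periodic (theta_nonneg h y) (theta_lt_one h y) (mdiff_dftFun h (hol i) y)
      (bdd_dftFun h (hb i) y) (twist_dftFun h (htr i) y)).1
  choose ℓ hℓ using hB1
  set D : Matrix (Σ ω : Ω, ZMod (h ω)) (Σ ω : Ω, ZMod (h ω)) ℂ :=
    Matrix.blockDiagonal' (fun ω => dblock (h ω)) with hD
  set Dinv : Matrix (Σ ω : Ω, ZMod (h ω)) (Σ ω : Ω, ZMod (h ω)) ℂ :=
    Matrix.blockDiagonal' (fun ω => dblockInv (h ω)) with hDinv
  have hDD : D * Dinv = 1 := blockDiagonal_dblock_mul_inv h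
  have hdetD : D.det ≠ 0 := by
    intro h0
    have := congrArg Matrix.det hDD
    rw [Matrix.det_mul, h0, zero_mul, Matrix.det_one] at this
    exact zero_ne_one this
  set κ : ℂ := ((Fintype.card (Σ ω : Ω, ZMod (h ω)) : ℂ) - Fintype.card Ω) with hκ
  -- the determinant of the normalised Fourier matrix
  have hdet : ∀ τ : ℍ, (Matrix.of fun i y =>
      Complex.exp (-(2 * π * I * theta h y) * τ) * dftFun h (f i) y τ).det =
      Complex.exp (-(2 * π * I * (κ / 2)) * τ) * ((Matrix.of fun i y => f i y τ).det * D.det) := by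
    intro τ
    refine (Matrix.det_mul_row (fun y => Complex.exp (-(2 * π * I * theta h y) * τ))
      (Matrix.of fun i y => dftFun h (f i) y τ)).trans ?_
    rw [dftFun_mat, Matrix.det_mul, ← Complex.exp_sum]
    congr 2
    rw [← Finset.sum_mul, Finset.sum_neg_distrib, ← Finset.mul_sum, sum_theta]
  have hlim : Tendsto (fun τ : ℍ => (Matrix.of fun i y =>
      Complex.exp (-(2 * π * I * theta h y) * τ) * dftFun h (f i) y τ).det) atImInfty
      (𝓝 (Matrix.of ℓ).det) := by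
    have h1 : Tendsto (fun τ : ℍ => (Matrix.of fun i y =>
        Complex.exp (-(2 * π * I * theta h y) * τ) * dftFun h (f i) y τ :
          Matrix (Σ ω : Ω, ZMod (h ω)) (Σ ω : Ω, ZMod (h ω)) ℂ)) atImInfty (𝓝 (Matrix.of ℓ)) := by
      refine tendsto_pi_nhds.mpr fun i => tendsto_pi_nhds.mpr fun y => ?_
      exact hℓ i y
    exact ((continuous_id.matrix_det).tendsto (Matrix.of ℓ)).comp h1
  -- nondegeneracy
  have hne : (Matrix.of ℓ).det ≠ 0 := by
    intro h0
    obtain ⟨c, hc0, hc⟩ := Matrix.exists_vecMul_eq_zero_iff.mpr h0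
    apply hc0
    apply hnd
    -- the combination
    set g : (Σ ω : Ω, ZMod (h ω)) → ℍ → ℂ := fun y τ => ∑ i, c i * f i y τ with hg
    have hghol : ∀ y, MDiff (g y) := fun y =>
      mdiff_fun_sum _ fun i _ => (mdifferentiable_const (c := c i)).mul (hol i y)
    have hgb : ∀ y, IsBoundedAtImInfty (g y) := by
      intro y
      have h1 : (fun τ => ∑ i, c i * f i y τ) =O[atImInfty] (1 : ℍ → ℝ) :=
        IsBigO.fun_sum fun i _ => IsBigO.const_mul_left (hb i y) _
      exact h1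
    have hgtr : ∀ (ω : Ω) (s : ZMod (h ω)) (τ : ℍ), g ⟨ω, s⟩ ((1 : ℝ) +ᵥ τ) = g ⟨ω, s - 1⟩ τ := by
      intro ω s τ
      simp only [hg, htr]
    have hgdft : ∀ y τ, dftFun h g y τ = ∑ i, c i * dftFun h (f i) y τ :=
      fun y τ => dftFun_linear h Finset.univ c f y τ
    have hdecay : ∀ y, dftFun h g y =O[atImInfty] fun τ : ℍ => Real.exp (-2 * π * τ.im) := by
      intro y
      refine (twisted_periodic (theta_nonneg h y) (theta_lt_one h y) (mdiff_dftFun h hghol y)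
        (bdd_dftFun h hgb y) (twist_dftFun h hgtr y)).2 ?_
      have h1 : ∀ τ : ℍ, Complex.exp (-(2 * π * I * theta h y) * τ) * dftFun h g y τ =
          ∑ i, c i * (Complex.exp (-(2 * π * I * theta h y) * τ) * dftFun h (f i) y τ) := by
        intro τ
        rw [hgdft, Finset.mul_sum]
        exact Finset.sum_congr rfl fun i _ => by ring
      simp only [h1]
      have h2 : Tendsto (fun τ : ℍ => ∑ i, c i *
          (Complex.exp (-(2 * π * I * theta h y) * τ) * dftFun h (f i) y τ)) atImInfty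
          (𝓝 (∑ i, c i * ℓ i y)) :=
        tendsto_finsetSum _ fun i _ => (hℓ i y).const_mul (c i)
      have h3 : ∑ i, c i * ℓ i y = 0 := by
        have := congrFun hc y
        simpa [Matrix.vecMul, dotProduct] using this
      rwa [h3] at h2
    intro y'
    have h4 : (fun τ : ℍ => ∑ i, c i * f i y' τ) =
        fun τ : ℍ => ∑ y, Dinv y y' * dftFun h g y τ := by
      funext τ
      rw [← show g y' τ = ∑ i, c i * f i y' τ from rfl, ← sum_dftFun_inv h g y' τ]
      exact Finset.sum_congr rfl fun y _ => mul_comm _ _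
    rw [h4]
    exact IsBigO.fun_sum fun y _ => IsBigO.const_mul_left (hdecay y) _
  -- conclusion
  refine ⟨((Matrix.of ℓ).det / D.det) ^ 2, pow_ne_zero _ (div_ne_zero hne hdetD), ?_⟩
  have hfin : ∀ τ : ℍ, (Matrix.of fun i y => f i y τ).det ^ 2 *
      Complex.exp (-(2 * π * I * κ) * τ) =
      ((Matrix.of fun i y =>
        Complex.exp (-(2 * π * I * theta h y) * τ) * dftFun h (f i) y τ).det / D.det) ^ 2 := by
    intro τ
    rw [hdet τ]
    have h5 : Complex.exp (-(2 * π * I * κ) * τ) =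
        Complex.exp (-(2 * π * I * (κ / 2)) * τ) ^ 2 := by
      rw [← Complex.exp_nat_mul]
      congr 1
      push_cast
      ring
    rw [h5]
    field_simp
  simp only [hfin]
  exact (hlim.div_const _).pow 2

end generic

/-! ### Part D: a finite `G`-set and an element `t : G` -/

section action

open MulAction Subgroup

variable {G : Type*} [Group G] {X : Type*} [MulAction G X] [Finite X] (t : G)

/-- Partition of `X` into the orbits of `t`, each identified with `ZMod (period)`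
(compare Mathlib's `Subgroup.quotientEquivSigmaZMod` for coset spaces). -/
def orbEquiv :
    X ≃ Σ q : orbitRel.Quotient (zpowers t) X, ZMod (minimalPeriod (t • ·) q.out) :=
  (selfEquivSigmaOrbits (zpowers t) X).trans
    (Equiv.sigmaCongrRight fun q => orbitZPowersEquiv t q.out)

theorem orbEquiv_symm_apply (q : orbitRel.Quotient (zpowers t) X)
    (k : ZMod (minimalPeriod (t • ·) q.out)) :
    (orbEquiv t).symm ⟨q, k⟩ = t ^ (ZMod.cast k : ℤ) • q.out := rfl

theorem orbEquiv_apply (q : orbitRel.Quotient (zpowers t) X) (k : ℤ) :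
    orbEquiv t (t ^ k • q.out) = ⟨q, k⟩ := by
  rw [← Equiv.eq_symm_apply, orbEquiv_symm_apply, ZMod.coe_intCast, zpow_smul_mod_minimalPeriod]

theorem inv_smul_orbEquiv_symm (q : orbitRel.Quotient (zpowers t) X)
    (k : ZMod (minimalPeriod (t • ·) q.out)) :
    t⁻¹ • (orbEquiv t).symm ⟨q, k⟩ = (orbEquiv t).symm ⟨q, k - 1⟩ := by
  rw [Equiv.eq_symm_apply, orbEquiv_symm_apply, ← zpow_neg_one, ← mul_smul, ← zpow_add,
    orbEquiv_apply]
  congr 1
  push_cast
  ring

/-- **The abstract cusp theorem.** -/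
theorem cusp_core [Fintype X] [DecidableEq X] {ι : Type*} [Fintype ι] (e : ι ≃ X)
    (φ : ι → X → ℍ → ℂ)
    (hol : ∀ i x, MDiff (φ i x)) (hb : ∀ i x, IsBoundedAtImInfty (φ i x))
    (htr : ∀ i x (τ : ℍ), φ i x ((1 : ℝ) +ᵥ τ) = φ i (t⁻¹ • x) τ)
    (hnd : ∀ c : ι → ℂ, (∀ x, (fun τ : ℍ => ∑ i, c i * φ i x τ) =O[atImInfty]
      fun τ : ℍ => Real.exp (-2 * π * τ.im)) → c = 0) :
    ∃ L : ℂ, L ≠ 0 ∧ Tendsto (fun τ : ℍ =>
      ((Matrix.of fun i x => φ i x τ).submatrix e.symm id).det ^ 2 *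
      Complex.exp (-(2 * π * I * ((Fintype.card X : ℂ) -
        Nat.card (orbitRel.Quotient (zpowers t) X))) * τ)) atImInfty (𝓝 L) := by
  classical
  let _ : Fintype (orbitRel.Quotient (zpowers t) X) := Fintype.ofFinite _
  set ε := orbEquiv (X := X) t with hε
  obtain ⟨L, hL, hlim⟩ := generic_cusp
    (fun q : orbitRel.Quotient (zpowers t) X => minimalPeriod (t • ·) q.out)
    (fun y' y => φ (e.symm (ε.symm y')) (ε.symm y))
    (fun _ _ => hol _ _) (fun _ _ => hb _ _)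
    (fun i ω s τ => by
      rw [htr, hε, inv_smul_orbEquiv_symm])
    (fun c hc => by
      have h1 := hnd (fun i => c (ε (e i))) (fun x => by
        have h2 := hc (ε x)
        refine h2.congr_left fun τ => ?_
        rw [← Equiv.sum_comp (e.trans ε)]
        simp)
      funext y'
      have := congrFun h1 (e.symm (ε.symm y'))
      simpa using this)
  refine ⟨L, hL, ?_⟩
  refine hlim.congr fun τ => ?_
  congr 2
  · rw [← Matrix.det_submatrix_equiv_self ε.symm]
    rfl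
  · rw [Fintype.card_congr ε.symm, Nat.card_eq_fintype_card]

end action

end

end Fermat.Agent.ES.L5
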