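import Mathlib
import Fermat.Agent.S23.Sym

set_option autoImplicit false

/-!
Shared definitions of PROJECT ES.  Everything about coset conjugates is Mathlib's
`SlashInvariantForm.quotientFunc` on `X N = 𝒮ℒ ⧸ Γ₀(N)` (see also `Fermat.Agent.S23.Sym`:
`mdiff_quotientFunc`, `bdd_quotientFunc`, `zero_quotientFunc`, `es`, `es_modularForm`,
`es_cuspForm`, `ptr`, `ptr_modularForm`, `slash_mul_pow`).
-/

namespace Fermat.Agent.ES

open UpperHalfPlane hiding I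
open Complex Filter ModularForm ModularFormClass SlashInvariantForm
open scoped MatrixGroups ModularForm Topology Manifold

noncomputable section

/-- The coset space `SL(2,ℤ) / Γ₀(N)`, in the form used by Mathlib's `quotientFunc`. -/
abbrev X (N : ℕ) : Type := Fermat.Agent.S23.Q0 N

/-- `SL(2, ℤ) ≃* 𝒮ℒ`. -/
def toSL : SL(2, ℤ) ≃* (𝒮ℒ : Subgroup (GL (Fin 2) ℝ)) :=
  MonoidHom.ofInjective (f := Matrix.SpecialLinearGroup.mapGL ℝ)
    Matrix.SpecialLinearGroup.mapGL_injective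

@[simp] theorem coe_toSL (γ : SL(2, ℤ)) :
    ((toSL γ : 𝒮ℒ) : GL (Fin 2) ℝ) = Matrix.SpecialLinearGroup.mapGL ℝ γ := rfl

/-- `SL(2, ℤ)` acts on `X N` by left multiplication. -/
instance instMulActionX (N : ℕ) : MulAction SL(2, ℤ) (X N) :=
  MulAction.compHom (X N) (toSL : SL(2, ℤ) →* 𝒮ℒ)

theorem smul_X_def {N : ℕ} (γ : SL(2, ℤ)) (x : X N) : γ • x = (toSL γ : 𝒮ℒ) • x := rfl

theorem smul_X_mk {N : ℕ} (γ : SL(2, ℤ)) (h : 𝒮ℒ) :
    γ • (QuotientGroup.mk h : X N) = (QuotientGroup.mk (toSL γ * h) : X N) := rfl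

/-- The base point (trivial coset). -/
def x0 (N : ℕ) : X N := QuotientGroup.mk 1

section cj

variable {N : ℕ} {k : ℤ} {F : Type*} [FunLike F ℍ ℂ]
  [SlashInvariantFormClass F (CongruenceSubgroup.Gamma0 N : Subgroup (GL (Fin 2) ℝ)) k]

/-- Conjugates of a `Γ₀(N)`-invariant form, indexed by cosets (Mathlib's `quotientFunc`). -/
abbrev cj (f : F) (x : X N) : ℍ → ℂ := quotientFunc f x

theorem cj_mk (f : F) (h : 𝒮ℒ) :
    cj f (QuotientGroup.mk h : X N) = (f : ℍ → ℂ) ∣[k] (h : GL (Fin 2) ℝ)⁻¹ := rfl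

theorem cj_x0 (f : F) : cj f (x0 N) = (f : ℍ → ℂ) := by
  rw [x0, cj_mk]
  simp

theorem cj_toSL (f : F) (γ : SL(2, ℤ)) :
    cj f (QuotientGroup.mk (toSL γ) : X N) = (f : ℍ → ℂ) ∣[k] γ⁻¹ := by
  rw [cj_mk, coe_toSL, ← map_inv]
  rfl

/-- Slashing permutes the conjugates. -/
theorem cj_slash (f : F) (γ : SL(2, ℤ)) (x : X N) :
    cj f x ∣[k] γ = cj f (γ⁻¹ • x) := by
  have h := quotientFunc_smul f (h := (Matrix.SpecialLinearGroup.mapGL ℝ γ : GL (Fin 2) ℝ))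
    (ℋ := 𝒮ℒ) ⟨γ, rfl⟩ x
  rw [smul_X_def, map_inv]
  exact h

theorem cj_smul_apply (f : F) (γ : SL(2, ℤ)) (x : X N) (τ : ℍ) :
    cj f (γ • x) τ = (cj f x ∣[k] γ⁻¹) τ := by
  rw [cj_slash, inv_inv]

end cj

/-- The abstract coset space `SL(2,ℤ) ⧸ Γ₀(N)` is equivariantly the same as `X N`. -/
def xEquiv (N : ℕ) : SL(2, ℤ) ⧸ CongruenceSubgroup.Gamma0 N ≃ X N :=
  Quotient.congr toSL.toEquiv (by
    intro a b
    change (QuotientGroup.leftRel _) a b ↔ (QuotientGroup.leftRel _) (toSL a) (toSL b)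
    rw [QuotientGroup.leftRel_apply, QuotientGroup.leftRel_apply, Subgroup.mem_subgroupOf]
    have : (((toSL a)⁻¹ * toSL b : 𝒮ℒ) : GL (Fin 2) ℝ) =
        Matrix.SpecialLinearGroup.mapGL ℝ (a⁻¹ * b) := by
      simp [map_mul, map_inv]
    rw [this]
    constructor
    · intro h
      exact ⟨_, h, rfl⟩
    · rintro ⟨c, hc, hcab⟩
      rwa [← Matrix.SpecialLinearGroup.mapGL_injective hcab])

theorem xEquiv_mk (N : ℕ) (γ : SL(2, ℤ)) :
    xEquiv N (QuotientGroup.mk γ) = (QuotientGroup.mk (toSL γ) : X N) := rfl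

theorem xEquiv_smul (N : ℕ) (γ : SL(2, ℤ)) (x : SL(2, ℤ) ⧸ CongruenceSubgroup.Gamma0 N) :
    xEquiv N (γ • x) = γ • xEquiv N x := by
  induction x using QuotientGroup.induction_on with
  | H a =>
    change xEquiv N (QuotientGroup.mk (γ * a)) = γ • xEquiv N (QuotientGroup.mk a)
    rw [xEquiv_mk, xEquiv_mk, smul_X_mk, map_mul]

end

end Fermat.Agent.ES
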