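import Mathlib

set_option autoImplicit false

/-!
# GM1: graded modules over `ℂ[e4, e6]` with `(e4, e6)` a regular sequence are free

Abstract setting: `R` a commutative `ℂ`-algebra, `M k ⊆ R` (`k : ℤ`) subspaces, `e4 e6 : R`.
-/

namespace Fermat.Agent.ES.GM

variable {R : Type*} [CommRing R] [Algebra ℂ R]

/-- The span of the monomials `e4 ^ a * e6 ^ m` of weight `4 a + 6 m = w`. -/
def Amon (e4 e6 : R) (w : ℤ) : Submodule ℂ R :=
  Submodule.span ℂ {x | ∃ a m : ℕ, 4 * (a : ℤ) + 6 * (m : ℤ) = w ∧ x = e4 ^ a * e6 ^ m}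

section Amon

variable (e4 e6 : R)

lemma monomial_mem_Amon (a m : ℕ) : e4 ^ a * e6 ^ m ∈ Amon e4 e6 (4 * (a : ℤ) + 6 * (m : ℤ)) :=
  Submodule.subset_span ⟨a, m, rfl, rfl⟩

lemma Amon_neg {w : ℤ} (hw : w < 0) : Amon e4 e6 w = ⊥ := by
  rw [Amon, Submodule.span_eq_bot]
  rintro x ⟨a, m, h, -⟩
  omega

lemma one_mem_Amon_zero : (1 : R) ∈ Amon e4 e6 0 :=
  Submodule.subset_span ⟨0, 0, by simp, by simp⟩

lemma e4_mul_mem_Amon {w : ℤ} {g : R} (hg : g ∈ Amon e4 e6 w) :
    e4 * g ∈ Amon e4 e6 (w + 4) := by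
  induction hg using Submodule.span_induction with
  | mem x hx =>
    obtain ⟨a, m, h, rfl⟩ := hx
    refine Submodule.subset_span ⟨a + 1, m, by push_cast; omega, by ring⟩
  | zero => simp
  | add x y _ _ hx hy => rw [mul_add]; exact Submodule.add_mem _ hx hy
  | smul c x _ hx => rw [mul_smul_comm]; exact Submodule.smul_mem _ c hx

lemma e6_mul_mem_Amon {w : ℤ} {g : R} (hg : g ∈ Amon e4 e6 w) :
    e6 * g ∈ Amon e4 e6 (w + 6) := by
  induction hg using Submodule.span_induction with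
  | mem x hx =>
    obtain ⟨a, m, h, rfl⟩ := hx
    refine Submodule.subset_span ⟨a, m + 1, by push_cast; omega, by ring⟩
  | zero => simp
  | add x y _ _ hx hy => rw [mul_add]; exact Submodule.add_mem _ hx hy
  | smul c x _ hx => rw [mul_smul_comm]; exact Submodule.smul_mem _ c hx

/-- Splitting off the pure `e6`-part of an element of `Amon`. -/
lemma Amon_decomp {w : ℤ} {g : R} (hg : g ∈ Amon e4 e6 w) :
    ∃ g' ∈ Amon e4 e6 (w - 4), ∃ (c : ℂ) (m : ℕ), (c ≠ 0 → 6 * (m : ℤ) = w) ∧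
      g = e4 * g' + c • e6 ^ m := by
  induction hg using Submodule.span_induction with
  | mem x hx =>
    obtain ⟨a, m, h, rfl⟩ := hx
    rcases Nat.eq_zero_or_pos a with ha | ha
    · subst ha
      refine ⟨0, Submodule.zero_mem _, 1, m, fun _ => by simpa using h, by simp⟩
    · refine ⟨e4 ^ (a - 1) * e6 ^ m, Submodule.subset_span ⟨a - 1, m, by omega, rfl⟩, 0, 0,
        fun h0 => absurd rfl h0, ?_⟩
      rw [zero_smul, add_zero, ← mul_assoc, ← pow_succ', Nat.sub_add_cancel ha]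
  | zero => exact ⟨0, Submodule.zero_mem _, 0, 0, fun h0 => absurd rfl h0, by simp⟩
  | add x y _ _ hx hy =>
    obtain ⟨g₁, hg₁, c₁, m₁, h₁, rfl⟩ := hx
    obtain ⟨g₂, hg₂, c₂, m₂, h₂, rfl⟩ := hy
    by_cases hc₁ : c₁ = 0
    · refine ⟨g₁ + g₂, Submodule.add_mem _ hg₁ hg₂, c₂, m₂, h₂, ?_⟩
      rw [hc₁, zero_smul]
      ring
    · by_cases hc₂ : c₂ = 0
      · refine ⟨g₁ + g₂, Submodule.add_mem _ hg₁ hg₂, c₁, m₁, h₁, ?_⟩
        rw [hc₂, zero_smul]
        ring
      · have hm : m₁ = m₂ := by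
          have e₁ := h₁ hc₁
          have e₂ := h₂ hc₂
          omega
        subst hm
        refine ⟨g₁ + g₂, Submodule.add_mem _ hg₁ hg₂, c₁ + c₂, m₁, fun _ => h₁ hc₁, ?_⟩
        rw [add_smul]
        ring
  | smul a x _ hx =>
    obtain ⟨g₁, hg₁, c₁, m₁, h₁, rfl⟩ := hx
    refine ⟨a • g₁, Submodule.smul_mem _ a hg₁, a * c₁, m₁, fun h0 => h₁ (right_ne_zero_of_mul h0), ?_⟩
    rw [smul_add, mul_smul_comm, mul_smul]

end Amon

/-- The hypotheses on the graded pieces: `(e4, e6)` is a regular sequence. -/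
structure Hyp (M : ℤ → Submodule ℂ R) (e4 e6 : R) : Prop where
  neg : ∀ k : ℤ, k < 0 → M k = ⊥
  mul4 : ∀ (k : ℤ) (f : R), f ∈ M k → e4 * f ∈ M (k + 4)
  mul6 : ∀ (k : ℤ) (f : R), f ∈ M k → e6 * f ∈ M (k + 6)
  inj4 : ∀ (k : ℤ) (f : R), f ∈ M k → e4 * f = 0 → f = 0
  reg : ∀ (k : ℤ) (f g : R), f ∈ M k → g ∈ M (k + 2) → e6 * f = e4 * g →
    ∃ f' ∈ M (k - 4), f = e4 * f'

/-- The decomposable part in degree `k`. -/
def Ndec (M : ℤ → Submodule ℂ R) (e4 e6 : R) (k : ℤ) : Submodule ℂ R :=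
  (M (k - 4)).map (LinearMap.mulLeft ℂ e4) ⊔ (M (k - 6)).map (LinearMap.mulLeft ℂ e6)

/-- A homogeneous family lifting a basis of `M / (e4 M + e6 M)`. -/
structure IsBasisMod (M : ℤ → Submodule ℂ R) (e4 e6 : R) {ι : Type*} (b : ι → R)
    (kb : ι → ℤ) : Prop where
  mem : ∀ i, b i ∈ M (kb i)
  span : ∀ k : ℤ, M k ≤ Ndec M e4 e6 k ⊔ Submodule.span ℂ (b '' {i | kb i = k})
  indep : ∀ (k : ℤ) (s : Finset ι) (c : ι → ℂ), (∀ i ∈ s, kb i = k) →
    ∑ i ∈ s, c i • b i ∈ Ndec M e4 e6 k → ∀ i ∈ s, c i = 0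

section Main

variable {M : ℤ → Submodule ℂ R} {e4 e6 : R}

lemma mem_cast {k k' : ℤ} (h : k = k') {f : R} (hf : f ∈ M k) : f ∈ M k' := h ▸ hf

lemma mem_Ndec_of_e4 {k : ℤ} {f : R} (hf : f ∈ M (k - 4)) : e4 * f ∈ Ndec M e4 e6 k :=
  Submodule.mem_sup_left (Submodule.mem_map_of_mem (f := LinearMap.mulLeft ℂ e4) hf)

lemma mem_Ndec_of_e6 {k : ℤ} {f : R} (hf : f ∈ M (k - 6)) : e6 * f ∈ Ndec M e4 e6 k :=
  Submodule.mem_sup_right (Submodule.mem_map_of_mem (f := LinearMap.mulLeft ℂ e6) hf)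

lemma Hyp.pow4_mul_mem (H : Hyp M e4 e6) {k : ℤ} {f : R} (hf : f ∈ M k) (n : ℕ) :
    e4 ^ n * f ∈ M (k + 4 * (n : ℤ)) := by
  induction n with
  | zero => simpa using hf
  | succ n ih =>
    have h := H.mul4 _ _ ih
    rw [← mul_assoc, ← pow_succ'] at h
    exact mem_cast (by push_cast; ring) h

lemma Hyp.pow6_mul_mem (H : Hyp M e4 e6) {k : ℤ} {f : R} (hf : f ∈ M k) (n : ℕ) :
    e6 ^ n * f ∈ M (k + 6 * (n : ℤ)) := by
  induction n with
  | zero => simpa using hf
  | succ n ih =>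
    have h := H.mul6 _ _ ih
    rw [← mul_assoc, ← pow_succ'] at h
    exact mem_cast (by push_cast; ring) h

lemma Hyp.Amon_mul_mem (H : Hyp M e4 e6) {k w : ℤ} {g f : R} (hg : g ∈ Amon e4 e6 w)
    (hf : f ∈ M k) : g * f ∈ M (k + w) := by
  induction hg using Submodule.span_induction with
  | mem x hx =>
    obtain ⟨a, m, h, rfl⟩ := hx
    have h1 := H.pow4_mul_mem (H.pow6_mul_mem hf m) a
    rw [← mul_assoc] at h1
    exact mem_cast (by omega) h1
  | zero => simp
  | add x y _ _ hx hy => rw [add_mul]; exact Submodule.add_mem _ hx hy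
  | smul c x _ hx => rw [smul_mul_assoc]; exact Submodule.smul_mem _ c hx

variable {ι : Type*} {b : ι → R} {kb : ι → ℤ}

lemma IsBasisMod.kb_nonneg (H : Hyp M e4 e6) (B : IsBasisMod M e4 e6 b kb) (i : ι) :
    0 ≤ kb i := by
  by_contra hneg
  push Not at hneg
  have h0 : b i = 0 := by
    have h1 := B.mem i
    rw [H.neg _ hneg] at h1
    exact (Submodule.mem_bot ℂ).mp h1
  have h2 := B.indep (kb i) {i} (fun _ => 1) (by simp) (by simp [h0])
  exact one_ne_zero (h2 i (Finset.mem_singleton_self i))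

/-- Generation: every element of `M k` is an `A`-combination of the `b i`. -/
theorem IsBasisMod.gen (H : Hyp M e4 e6) (B : IsBasisMod M e4 e6 b kb) (k : ℤ) :
    M k ≤ ⨆ i, (Amon e4 e6 (k - kb i)).map (LinearMap.mulRight ℂ (b i)) := by
  suffices h : ∀ (n : ℕ) (k : ℤ), k < n →
      M k ≤ ⨆ i, (Amon e4 e6 (k - kb i)).map (LinearMap.mulRight ℂ (b i)) by
    exact h (k.toNat + 1) k (by omega)
  intro n
  induction n with
  | zero =>
    intro k hk
    rw [H.neg k (by simpa using hk)]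
    exact bot_le
  | succ n ih =>
    intro k hk
    refine (B.span k).trans (sup_le (sup_le ?_ ?_) ?_)
    · -- e4 * M (k - 4)
      rw [Submodule.map_le_iff_le_comap]
      refine (ih (k - 4) (by push_cast at hk; omega)).trans ?_
      refine iSup_le fun i => ?_
      rintro x ⟨g, hg, rfl⟩
      rw [Submodule.mem_comap]
      refine Submodule.mem_iSup_of_mem i ⟨e4 * g, ?_, ?_⟩
      · have := e4_mul_mem_Amon e4 e6 hg
        rwa [show k - 4 - kb i + 4 = k - kb i by ring] at this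
      · simp [mul_assoc]
    · rw [Submodule.map_le_iff_le_comap]
      refine (ih (k - 6) (by push_cast at hk; omega)).trans ?_
      refine iSup_le fun i => ?_
      rintro x ⟨g, hg, rfl⟩
      rw [Submodule.mem_comap]
      refine Submodule.mem_iSup_of_mem i ⟨e6 * g, ?_, ?_⟩
      · have := e6_mul_mem_Amon e4 e6 hg
        rwa [show k - 6 - kb i + 6 = k - kb i by ring] at this
      · simp [mul_assoc]
    · rw [Submodule.span_le]
      rintro x ⟨i, hi, rfl⟩
      refine Submodule.mem_iSup_of_mem i ⟨1, ?_, by simp⟩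
      have hi' : kb i = k := hi
      rw [hi', sub_self]
      exact one_mem_Amon_zero e4 e6

/-- One-variable uniqueness modulo `e4`. -/
theorem IsBasisMod.ov (H : Hyp M e4 e6) (B : IsBasisMod M e4 e6 b kb) (k : ℤ) (s : Finset ι)
    (c : ι → ℂ) (m : ι → ℕ) (hm : ∀ i ∈ s, kb i + 6 * (m i : ℤ) = k)
    (hsum : ∑ i ∈ s, c i • (e6 ^ m i * b i) ∈ (M (k - 4)).map (LinearMap.mulLeft ℂ e4)) :
    ∀ i ∈ s, c i = 0 := by
  suffices h : ∀ (n : ℕ) (k : ℤ), k < n → ∀ (s : Finset ι) (c : ι → ℂ) (m : ι → ℕ),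
      (∀ i ∈ s, kb i + 6 * (m i : ℤ) = k) →
      ∑ i ∈ s, c i • (e6 ^ m i * b i) ∈ (M (k - 4)).map (LinearMap.mulLeft ℂ e4) →
      ∀ i ∈ s, c i = 0 by
    exact h (k.toNat + 1) k (by omega) s c m hm hsum
  intro n
  induction n with
  | zero =>
    intro k hk s c m hm hsum i hi
    have h1 := B.kb_nonneg H i
    have h2 := hm i hi
    have h3 : k < 0 := by simpa using hk
    omega
  | succ n ih =>
    intro k hk s c m hm hsum
    classical
    have hsplit : ∑ i ∈ s, c i • (e6 ^ m i * b i) =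
        ∑ i ∈ s.filter (fun i => m i = 0), c i • b i +
          e6 * ∑ i ∈ s.filter (fun i => ¬ m i = 0), c i • (e6 ^ (m i - 1) * b i) := by
      rw [← Finset.sum_filter_add_sum_filter_not s (fun i => m i = 0)]
      congr 1
      · apply Finset.sum_congr rfl
        intro i hi
        rw [(Finset.mem_filter.mp hi).2]
        simp
      · rw [Finset.mul_sum]
        apply Finset.sum_congr rfl
        intro i hi
        have hmi : m i ≠ 0 := (Finset.mem_filter.mp hi).2
        rw [mul_smul_comm, ← mul_assoc, ← pow_succ', Nat.sub_add_cancel (Nat.pos_of_ne_zero hmi)]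
    have hwmem : ∑ i ∈ s.filter (fun i => ¬ m i = 0), c i • (e6 ^ (m i - 1) * b i) ∈ M (k - 6) := by
      apply Submodule.sum_mem
      intro i hi
      apply Submodule.smul_mem
      have h1 := H.pow6_mul_mem (B.mem i) (m i - 1)
      have h2 := hm i (Finset.mem_of_mem_filter i hi)
      have hmi : m i ≠ 0 := (Finset.mem_filter.mp hi).2
      exact mem_cast (by omega) h1
    obtain ⟨u, hu, hue⟩ := hsum
    have hue' : e4 * u = ∑ i ∈ s, c i • (e6 ^ m i * b i) := hue
    have h0 : ∑ i ∈ s.filter (fun i => m i = 0), c i • b i ∈ Ndec M e4 e6 k := by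
      have h1 : ∑ i ∈ s.filter (fun i => m i = 0), c i • b i =
          e4 * u - e6 * ∑ i ∈ s.filter (fun i => ¬ m i = 0), c i • (e6 ^ (m i - 1) * b i) := by
        rw [hue', hsplit]
        ring
      rw [h1]
      exact Submodule.sub_mem _ (mem_Ndec_of_e4 hu) (mem_Ndec_of_e6 hwmem)
    have hc0 := B.indep k (s.filter (fun i => m i = 0)) c (fun i hi => by
      have h1 := hm i (Finset.mem_of_mem_filter i hi)
      have h2 := (Finset.mem_filter.mp hi).2
      omega) h0
    have hsum0 : ∑ i ∈ s.filter (fun i => m i = 0), c i • b i = 0 :=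
      Finset.sum_eq_zero (fun i hi => by rw [hc0 i hi, zero_smul])
    have he : e6 * ∑ i ∈ s.filter (fun i => ¬ m i = 0), c i • (e6 ^ (m i - 1) * b i) = e4 * u := by
      rw [hue', hsplit, hsum0, zero_add]
    obtain ⟨w', hw', hww'⟩ := H.reg (k - 6) _ u hwmem (mem_cast (by ring) hu) he
    have hc1 := ih (k - 6) (by push_cast at hk; omega) (s.filter (fun i => ¬ m i = 0)) c
      (fun i => m i - 1) (fun i hi => by
        have h1 := hm i (Finset.mem_of_mem_filter i hi)
        have hmi : m i ≠ 0 := (Finset.mem_filter.mp hi).2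
        omega) ⟨w', hw', hww'.symm⟩
    intro i hi
    by_cases hmi : m i = 0
    · exact hc0 i (Finset.mem_filter.mpr ⟨hi, hmi⟩)
    · exact hc1 i (Finset.mem_filter.mpr ⟨hi, hmi⟩)

/-- Uniqueness: an `A`-linear relation between the `b i` is trivial. -/
theorem IsBasisMod.uniq (H : Hyp M e4 e6) (B : IsBasisMod M e4 e6 b kb) (k : ℤ) (s : Finset ι)
    (g : ι → R) (hg : ∀ i ∈ s, g i ∈ Amon e4 e6 (k - kb i)) (hsum : ∑ i ∈ s, g i * b i = 0) :
    ∀ i ∈ s, g i = 0 := by
  suffices h : ∀ (n : ℕ) (k : ℤ), k < n → ∀ (s : Finset ι) (g : ι → R),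
      (∀ i ∈ s, g i ∈ Amon e4 e6 (k - kb i)) → ∑ i ∈ s, g i * b i = 0 → ∀ i ∈ s, g i = 0 by
    exact h (k.toNat + 1) k (by omega) s g hg hsum
  intro n
  induction n with
  | zero =>
    intro k hk s g hg hsum i hi
    have h1 := hg i hi
    have h2 := B.kb_nonneg H i
    have h3 : k < 0 := by simpa using hk
    rw [Amon_neg e4 e6 (by omega)] at h1
    exact (Submodule.mem_bot ℂ).mp h1
  | succ n ih =>
    intro k hk s g hg hsum
    classical
    have hdec : ∀ i, ∃ (g' : R) (c : ℂ) (m : ℕ), i ∈ s →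
        (g' ∈ Amon e4 e6 (k - kb i - 4) ∧ (c ≠ 0 → 6 * (m : ℤ) = k - kb i) ∧
          g i = e4 * g' + c • e6 ^ m) := by
      intro i
      by_cases hi : i ∈ s
      · obtain ⟨g', hg', c, m, hcm, he⟩ := Amon_decomp e4 e6 (hg i hi)
        exact ⟨g', c, m, fun _ => ⟨hg', hcm, he⟩⟩
      · exact ⟨0, 0, 0, fun h => absurd h hi⟩
    choose g' c m hgcm using hdec
    have humem : ∑ i ∈ s, g' i * b i ∈ M (k - 4) := by
      apply Submodule.sum_mem
      intro i hi
      have h1 := H.Amon_mul_mem (hgcm i hi).1 (B.mem i)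
      exact mem_cast (by ring) h1
    have hsum' : ∑ i ∈ s, c i • (e6 ^ m i * b i) = e4 * (-∑ i ∈ s, g' i * b i) := by
      have h1 : ∑ i ∈ s, g i * b i =
          e4 * ∑ i ∈ s, g' i * b i + ∑ i ∈ s, c i • (e6 ^ m i * b i) := by
        rw [Finset.mul_sum, ← Finset.sum_add_distrib]
        apply Finset.sum_congr rfl
        intro i hi
        rw [(hgcm i hi).2.2, add_mul, smul_mul_assoc, mul_assoc]
      rw [hsum] at h1
      linear_combination -h1
    have hsum'' : ∑ i ∈ s.filter (fun i => c i ≠ 0), c i • (e6 ^ m i * b i) =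
        e4 * (-∑ i ∈ s, g' i * b i) := by
      rw [← hsum', Finset.sum_filter]
      apply Finset.sum_congr rfl
      intro i hi
      by_cases h : c i = 0 <;> simp [h]
    have hc := B.ov H k (s.filter (fun i => c i ≠ 0)) c m (fun i hi => by
      have h1 := (hgcm i (Finset.mem_of_mem_filter i hi)).2.1 (Finset.mem_filter.mp hi).2
      omega) ⟨-∑ i ∈ s, g' i * b i, Submodule.neg_mem _ humem, hsum''.symm⟩
    have hc0 : ∀ i ∈ s, c i = 0 := by
      intro i hi
      by_contra h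
      exact h (hc i (Finset.mem_filter.mpr ⟨hi, h⟩))
    have hu0 : e4 * ∑ i ∈ s, g' i * b i = 0 := by
      have h1 : ∑ i ∈ s, c i • (e6 ^ m i * b i) = 0 :=
        Finset.sum_eq_zero (fun i hi => by rw [hc0 i hi, zero_smul])
      rw [hsum'] at h1
      simpa using h1
    have hu00 : ∑ i ∈ s, g' i * b i = 0 := H.inj4 _ _ humem hu0
    have hg'0 := ih (k - 4) (by push_cast at hk; omega) s g' (fun i hi => by
      rw [show k - 4 - kb i = k - kb i - 4 by ring]
      exact (hgcm i hi).1) hu00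
    intro i hi
    rw [(hgcm i hi).2.2, hg'0 i hi, hc0 i hi]
    simp

end Main

section Exists

universe u

variable {R : Type u} [CommRing R] [Algebra ℂ R]

/-- Homogeneous lifts of bases of the indecomposable quotients exist. -/
theorem exists_isBasisMod (M : ℤ → Submodule ℂ R) (e4 e6 : R) :
    ∃ (ι : Type u) (b : ι → R) (kb : ι → ℤ), IsBasisMod M e4 e6 b kb := by
  classical
  let N' : ∀ k : ℤ, Submodule ℂ (M k) := fun k => (Ndec M e4 e6 k).comap (M k).subtype
  let bq : ∀ k : ℤ, Module.Basis (Module.Basis.ofVectorSpaceIndex ℂ (M k ⧸ N' k)) ℂ (M k ⧸ N' k) :=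
    fun k => Module.Basis.ofVectorSpace ℂ (M k ⧸ N' k)
  have hv : ∀ (k : ℤ) (j : Module.Basis.ofVectorSpaceIndex ℂ (M k ⧸ N' k)),
      ∃ v : M k, (N' k).mkQ v = bq k j := fun k j => (N' k).mkQ_surjective _
  choose v hv using hv
  refine ⟨Σ k : ℤ, Module.Basis.ofVectorSpaceIndex ℂ (M k ⧸ N' k), fun i => (v i.1 i.2 : R),
    fun i => i.1, ⟨fun i => (v i.1 i.2).2, ?_, ?_⟩⟩
  · intro k f hf
    obtain ⟨r, hr⟩ : ∃ r : Module.Basis.ofVectorSpaceIndex ℂ (M k ⧸ N' k) →₀ ℂ,
        ∑ j ∈ r.support, r j • bq k j = (N' k).mkQ ⟨f, hf⟩ := by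
      have hrepr := (bq k).linearCombination_repr ((N' k).mkQ ⟨f, hf⟩)
      rw [Finsupp.linearCombination_apply, Finsupp.sum] at hrepr
      exact ⟨_, hrepr⟩
    have h1 : (N' k).mkQ (⟨f, hf⟩ - ∑ j ∈ r.support, r j • v k j) = 0 := by
      rw [map_sub, map_sum, ← hr, sub_eq_zero]
      apply Finset.sum_congr rfl
      intro j _
      rw [map_smul, hv]
    have h2 : (⟨f, hf⟩ - ∑ j ∈ r.support, r j • v k j : M k) ∈ N' k :=
      (Submodule.Quotient.mk_eq_zero (N' k)).mp h1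
    have h3 : f - ∑ j ∈ r.support, r j • (v k j : R) ∈ Ndec M e4 e6 k := by
      have h4 : (M k).subtype (⟨f, hf⟩ - ∑ j ∈ r.support, r j • v k j) ∈ Ndec M e4 e6 k := h2
      simpa using h4
    have h5 : f = (f - ∑ j ∈ r.support, r j • (v k j : R)) +
        ∑ j ∈ r.support, r j • (v k j : R) := by ring
    rw [h5]
    refine Submodule.add_mem _ (Submodule.mem_sup_left h3) (Submodule.mem_sup_right ?_)
    refine Submodule.sum_mem _ fun j _ => Submodule.smul_mem _ _ (Submodule.subset_span ?_)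
    exact ⟨⟨k, j⟩, rfl, rfl⟩
  · intro k s c hs hsum
    let emb : Module.Basis.ofVectorSpaceIndex ℂ (M k ⧸ N' k) →
        Σ k : ℤ, Module.Basis.ofVectorSpaceIndex ℂ (M k ⧸ N' k) := fun j => ⟨k, j⟩
    have hemb : Function.Injective emb := by
      intro j₁ j₂ h
      simpa [emb] using h
    have hpre := Finset.sum_preimage emb s hemb.injOn
      (fun i : Σ k : ℤ, Module.Basis.ofVectorSpaceIndex ℂ (M k ⧸ N' k) => c i • (v i.1 i.2 : R))
      (by
        intro x hx hxr
        exfalso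
        apply hxr
        obtain ⟨k', j⟩ := x
        have hk' : k' = k := hs _ hx
        subst hk'
        exact ⟨j, rfl⟩)
    have h1 : (∑ j ∈ s.preimage emb hemb.injOn, c ⟨k, j⟩ • v k j : M k) ∈ N' k := by
      change (M k).subtype _ ∈ Ndec M e4 e6 k
      rw [map_sum]
      simp only [map_smul, Submodule.subtype_apply]
      rw [← hpre] at hsum
      exact hsum
    have h2 : ∑ j ∈ s.preimage emb hemb.injOn, c ⟨k, j⟩ • bq k j = 0 := by
      have h3 : (N' k).mkQ (∑ j ∈ s.preimage emb hemb.injOn, c ⟨k, j⟩ • v k j) = 0 :=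
        (Submodule.Quotient.mk_eq_zero (N' k)).mpr h1
      rw [map_sum] at h3
      rw [← h3]
      apply Finset.sum_congr rfl
      intro j _
      rw [map_smul, hv]
    have h4 := linearIndependent_iff'.mp (bq k).linearIndependent _ _ h2
    rintro ⟨k', j⟩ hi
    have hk' : k' = k := hs _ hi
    subst hk'
    exact h4 j (by simpa [emb] using hi)

end Exists

end Fermat.Agent.ES.GM
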