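import Mathlib
import Fermat.Agent.ES.Defs
import Fermat.Agent.ES.GM1
import Fermat.Agent.ES.J.Monomials
import Fermat.Agent.S23.Division
import Fermat.Agent.S23.Scale
import Fermat.Prelude.Thm_CongruenceSubgroup_one_mem_strictPeriods_Gamma0
import Fermat.Prelude.Thm_ModularForm_sturm_bound_Gamma0

set_option autoImplicit false

/-!
# Project ES, module (GM): `M_*(Γ₀(N))` is free of rank `|X N|` over `ℂ[E₄, E₆]`

* `LFun w`, `MFun N k`: level one forms / forms for `Γ₀(N)` as spaces of functions on `ℍ`.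
* `GMBasis N`: a homogeneous basis of `M_*(Γ₀(N))` over the level one forms, indexed by `X N`.
* `exists_gmBasis`: such a basis exists (regular sequence `E₄, E₆`; Sturm bound for the upper
  bound of the rank; Vandermonde argument with the conjugates of `Δ(Nτ)` for the lower bound).
-/

namespace Fermat.Agent.ES

open UpperHalfPlane hiding I
open ModularForm EisensteinSeries MatrixGroups CongruenceSubgroup
open scoped ModularForm Manifold Topology

noncomputable section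

/-- Level-one modular forms of weight `w`, as a space of functions on `ℍ`. -/
def LFun (w : ℤ) : Submodule ℂ (ℍ → ℂ) where
  carrier := {g | ∃ G : ModularForm 𝒮ℒ w, ⇑G = g}
  add_mem' := by
    rintro _ _ ⟨G₁, rfl⟩ ⟨G₂, rfl⟩
    exact ⟨G₁ + G₂, rfl⟩
  zero_mem' := ⟨0, rfl⟩
  smul_mem' := by
    rintro c _ ⟨G, rfl⟩
    exact ⟨c • G, rfl⟩

/-- Modular forms of weight `k` for `Γ₀(N)`, as a space of functions on `ℍ`. -/
def MFun (N : ℕ) (k : ℤ) : Submodule ℂ (ℍ → ℂ) where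
  carrier := {f | ∃ F : ModularForm (Gamma0 N) k, ⇑F = f}
  add_mem' := by
    rintro _ _ ⟨G₁, rfl⟩ ⟨G₂, rfl⟩
    exact ⟨G₁ + G₂, rfl⟩
  zero_mem' := ⟨0, rfl⟩
  smul_mem' := by
    rintro c _ ⟨G, rfl⟩
    exact ⟨c • G, rfl⟩

theorem mem_LFun {w : ℤ} {g : ℍ → ℂ} : g ∈ LFun w ↔ ∃ G : ModularForm 𝒮ℒ w, ⇑G = g := Iff.rfl

theorem mem_MFun {N : ℕ} {k : ℤ} {f : ℍ → ℂ} :
    f ∈ MFun N k ↔ ∃ F : ModularForm (Gamma0 N) k, ⇑F = f := Iff.rfl

/-- GM export: a homogeneous basis of `M_*(Γ₀(N))` over `M_*(SL(2,ℤ)) = ℂ[E₄, E₆]`,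
indexed by the coset space `X N`. -/
structure GMBasis (N : ℕ) [NeZero N] where
  wt : X N → ℕ
  F : ∀ x : X N, ModularForm (Gamma0 N) (wt x)
  exists_repr : ∀ (k : ℤ) (f : ℍ → ℂ), f ∈ MFun N k →
    ∃ g : X N → ℍ → ℂ, (∀ x, g x ∈ LFun (k - wt x)) ∧ f = ∑ x, g x * ⇑(F x)
  unique_repr : ∀ (k : ℤ) (g : X N → ℍ → ℂ), (∀ x, g x ∈ LFun (k - wt x)) →
    ∑ x, g x * ⇑(F x) = 0 → ∀ x, g x = 0

/-- level one times level `N` is level `N`. -/
theorem LFun_mul_mem_MFun {N : ℕ} {w k : ℤ} {g f : ℍ → ℂ} (hg : g ∈ LFun w)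
    (hf : f ∈ MFun N k) : g * f ∈ MFun N (w + k) := by
  obtain ⟨G, rfl⟩ := hg
  obtain ⟨F, rfl⟩ := hf
  have hle : (Gamma0 N : Subgroup (GL (Fin 2) ℝ)) ≤ 𝒮ℒ := Subgroup.map_le_range _ _
  exact ⟨(Fermat.Agent.S23.Scale.restrictLE hle G).mul F, rfl⟩

/-- level one times level one is level one. -/
theorem LFun_mul_mem {w₁ w₂ : ℤ} {g₁ g₂ : ℍ → ℂ} (h₁ : g₁ ∈ LFun w₁) (h₂ : g₂ ∈ LFun w₂) :
    g₁ * g₂ ∈ LFun (w₁ + w₂) := by
  obtain ⟨G₁, rfl⟩ := h₁
  obtain ⟨G₂, rfl⟩ := h₂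
  exact ⟨G₁.mul G₂, rfl⟩

namespace GM

/-- Translates of modular forms for arithmetic groups are bounded at `i∞`. -/
lemma bdd_slash {Γ : Subgroup (GL (Fin 2) ℝ)} [Γ.IsArithmetic] {k : ℤ} (F : ModularForm Γ k)
    (δ : SL(2, ℤ)) : IsBoundedAtImInfty ((⇑F : ℍ → ℂ) ∣[k] δ) := by
  have hc : IsCusp (Matrix.SpecialLinearGroup.mapGL ℝ δ • OnePoint.infty) Γ := by
    rw [Subgroup.IsArithmetic.isCusp_iff_isCusp_SL2Z, isCusp_SL2Z_iff']
    exact ⟨δ, rfl⟩
  exact ModularFormClass.bdd_at_cusps F hc _ rfl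

/-- Criterion for membership in `MFun`. -/
theorem mem_MFun_of {N : ℕ} [NeZero N] {k : ℤ} {f : ℍ → ℂ} (hol : MDiff f)
    (hinv : ∀ γ ∈ Gamma0 N, f ∣[k] γ = f)
    (hbdd : ∀ δ : SL(2, ℤ), IsBoundedAtImInfty (f ∣[k] δ)) : f ∈ MFun N k := by
  refine ⟨{ toFun := f
            slash_action_eq' := ?_
            holo' := hol
            bdd_at_cusps' := ?_ }, rfl⟩
  · rintro γ ⟨γ', hγ', rfl⟩
    exact hinv γ' hγ'
  · intro c hc
    rw [Subgroup.IsArithmetic.isCusp_iff_isCusp_SL2Z] at hc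
    rw [OnePoint.isBoundedAt_iff_forall_SL2Z hc]
    exact fun δ _ => hbdd δ

lemma MFun_mdiff {N : ℕ} {k : ℤ} {f : ℍ → ℂ} (hf : f ∈ MFun N k) : MDiff f := by
  obtain ⟨F, rfl⟩ := hf
  exact ModularFormClass.holo F

lemma MFun_slash {N : ℕ} {k : ℤ} {f : ℍ → ℂ} (hf : f ∈ MFun N k) {γ : SL(2, ℤ)}
    (hγ : γ ∈ Gamma0 N) : f ∣[k] γ = f := by
  obtain ⟨F, rfl⟩ := hf
  exact SlashInvariantFormClass.slash_action_eq F _ ⟨γ, hγ, rfl⟩

lemma MFun_bdd {N : ℕ} [NeZero N] {k : ℤ} {f : ℍ → ℂ} (hf : f ∈ MFun N k) (δ : SL(2, ℤ)) :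
    IsBoundedAtImInfty (f ∣[k] δ) := by
  obtain ⟨F, rfl⟩ := hf
  exact bdd_slash F δ

lemma LFun_mdiff {w : ℤ} {g : ℍ → ℂ} (hg : g ∈ LFun w) : MDiff g := by
  obtain ⟨G, rfl⟩ := hg
  exact ModularFormClass.holo G

lemma LFun_slash {w : ℤ} {g : ℍ → ℂ} (hg : g ∈ LFun w) (γ : SL(2, ℤ)) : g ∣[w] γ = g := by
  obtain ⟨G, rfl⟩ := hg
  exact SlashInvariantFormClass.slash_action_eq G _ ⟨γ, rfl⟩

lemma LFun_bdd {w : ℤ} {g : ℍ → ℂ} (hg : g ∈ LFun w) : IsBoundedAtImInfty g := by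
  have h := hg
  obtain ⟨G, rfl⟩ := hg
  have h1 := bdd_slash G 1
  rwa [LFun_slash h 1] at h1

lemma E4_fun_ne_zero : (⇑E₄ : ℍ → ℂ) ≠ 0 := by
  intro h
  have h1 := tendsto_E₄
  rw [h] at h1
  have h2 : Filter.Tendsto (0 : ℍ → ℂ) atImInfty (𝓝 0) := tendsto_const_nhds
  exact one_ne_zero (tendsto_nhds_unique h1 h2)

lemma E4_mem : (⇑E₄ : ℍ → ℂ) ∈ LFun 4 := ⟨E₄, rfl⟩

lemma E6_mem : (⇑E₆ : ℍ → ℂ) ∈ LFun 6 := ⟨E₆, rfl⟩

lemma E6_ne_zero_of_E4_eq_zero {z : ℍ} (h : E₄ z = 0) : E₆ z ≠ 0 := by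
  intro h6
  have h1 := discriminant_eq_E₄_cube_sub_E₆_sq z
  rw [h, h6] at h1
  exact discriminant_ne_zero z (by rw [h1]; norm_num)

lemma MFun_cast {N : ℕ} {k k' : ℤ} (h : k = k') {f : ℍ → ℂ} (hf : f ∈ MFun N k) :
    f ∈ MFun N k' := h ▸ hf

lemma LFun_cast {w w' : ℤ} (h : w = w') {f : ℍ → ℂ} (hf : f ∈ LFun w) : f ∈ LFun w' := h ▸ hf

lemma MFun_neg {N : ℕ} [NeZero N] {k : ℤ} (hk : k < 0) : MFun N k = ⊥ := by
  rw [eq_bot_iff]
  rintro _ ⟨F, rfl⟩
  rw [ModularForm.isZero_of_neg_weight hk F]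
  rfl

/-- Division by `E₄`: the regular sequence property. -/
theorem reg_E4_E6 {N : ℕ} [NeZero N] {k : ℤ} {f g : ℍ → ℂ} (hf : f ∈ MFun N k)
    (hg : g ∈ MFun N (k + 2)) (h : (⇑E₆ : ℍ → ℂ) * f = (⇑E₄ : ℍ → ℂ) * g) :
    ∃ f' ∈ MFun N (k - 4), f = (⇑E₄ : ℍ → ℂ) * f' := by
  classical
  let f' : ℍ → ℂ := fun z => if E₄ z ≠ 0 then f z / E₄ z else g z / E₆ z
  have hz : ∀ z, E₆ z * f z = E₄ z * g z := fun z => congrFun h z
  have ha : ∀ z, E₄ z * f' z = f z := by
    intro z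
    by_cases h4 : E₄ z ≠ 0
    · simp only [f', if_pos h4]
      field_simp
    · have h4' : E₄ z = 0 := not_not.mp h4
      have h6 := E6_ne_zero_of_E4_eq_zero h4'
      have h1 := hz z
      rw [h4', zero_mul] at h1
      rw [h4', zero_mul]
      exact ((mul_eq_zero.mp h1).resolve_left h6).symm
  have hb : ∀ z, E₆ z * f' z = g z := by
    intro z
    by_cases h4 : E₄ z ≠ 0
    · simp only [f', if_pos h4]
      have h1 := hz z
      field_simp
      linear_combination h1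
    · have h4' : E₄ z = 0 := not_not.mp h4
      have h6 := E6_ne_zero_of_E4_eq_zero h4'
      simp only [f', if_neg h4]
      field_simp
  have hfeq : f = (⇑E₄ : ℍ → ℂ) * f' := funext fun z => (ha z).symm
  have hE4 : MDiff (⇑E₄ : ℍ → ℂ) := ModularFormClass.holo E₄
  have hE6 : MDiff (⇑E₆ : ℍ → ℂ) := ModularFormClass.holo E₆
  have hfm := MFun_mdiff hf
  have hgm := MFun_mdiff hg
  have hf'm : MDiff f' := by
    intro τ
    rw [UpperHalfPlane.mdifferentiableAt_iff]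
    by_cases h4 : E₄ τ ≠ 0
    · have hd4 : DifferentiableAt ℂ ((⇑E₄ : ℍ → ℂ) ∘ ofComplex) τ :=
        UpperHalfPlane.mdifferentiableAt_iff.mp (hE4 τ)
      have hdf : DifferentiableAt ℂ (f ∘ ofComplex) τ :=
        UpperHalfPlane.mdifferentiableAt_iff.mp (hfm τ)
      have hne : ((⇑E₄ : ℍ → ℂ) ∘ ofComplex) τ ≠ 0 := by
        simpa [Function.comp_apply, ofComplex_apply] using h4
      have hev := hd4.continuousAt.eventually_ne hne
      refine (hdf.div hd4 hne).congr_of_eventuallyEq ?_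
      filter_upwards [hev] with w hw
      have h1 := ha (ofComplex w)
      simp only [Function.comp_apply, Pi.div_apply] at hw ⊢
      rw [← h1]
      field_simp
    · have h4' : E₄ τ = 0 := not_not.mp h4
      have h6 := E6_ne_zero_of_E4_eq_zero h4'
      have hd6 : DifferentiableAt ℂ ((⇑E₆ : ℍ → ℂ) ∘ ofComplex) τ :=
        UpperHalfPlane.mdifferentiableAt_iff.mp (hE6 τ)
      have hdg : DifferentiableAt ℂ (g ∘ ofComplex) τ :=
        UpperHalfPlane.mdifferentiableAt_iff.mp (hgm τ)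
      have hne : ((⇑E₆ : ℍ → ℂ) ∘ ofComplex) τ ≠ 0 := by
        simpa [Function.comp_apply, ofComplex_apply] using h6
      have hev := hd6.continuousAt.eventually_ne hne
      refine (hdg.div hd6 hne).congr_of_eventuallyEq ?_
      filter_upwards [hev] with w hw
      have h1 := hb (ofComplex w)
      simp only [Function.comp_apply, Pi.div_apply] at hw ⊢
      rw [← h1]
      field_simp
  have hslash : ∀ δ : SL(2, ℤ), (⇑E₄ : ℍ → ℂ) * (f' ∣[k - 4] δ) = f ∣[k] δ := by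
    intro δ
    have h1 := ModularForm.mul_slash_SL2 4 (k - 4) δ (⇑E₄ : ℍ → ℂ) f'
    rw [show (4 : ℤ) + (k - 4) = k by ring, ← hfeq, LFun_slash E4_mem] at h1
    exact h1.symm
  refine ⟨f', mem_MFun_of hf'm ?_ ?_, hfeq⟩
  · intro γ hγ
    have h1 := hslash γ
    rw [MFun_slash hf hγ] at h1
    have h2 : f' ∣[k - 4] γ - f' = 0 := by
      refine Fermat.Agent.S23.eq_zero_of_mul_eq_zero_mdiff
        (((hf'm.slash (k - 4) _)).sub hf'm) hE4 E4_fun_ne_zero ?_
      intro z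
      have h3 := congrFun h1 z
      have h4 := ha z
      simp only [Pi.mul_apply, Pi.sub_apply] at h3 ⊢
      linear_combination h3 - h4
    exact sub_eq_zero.mp h2
  · intro δ
    have h1 := hslash δ
    have h2 : IsBoundedAtImInfty (f ∣[k] δ) := MFun_bdd hf δ
    have h3 : Filter.Tendsto (fun z : ℍ => (E₄ z)⁻¹) atImInfty (𝓝 1) := by
      have := tendsto_E₄.inv₀ one_ne_zero
      simpa using this
    have h4 : (fun z : ℍ => (E₄ z)⁻¹) =O[atImInfty] (fun _ => (1 : ℝ)) := h3.isBigO_one ℝ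
    have h5 : ∀ᶠ z in atImInfty, E₄ z ≠ 0 := tendsto_E₄.eventually_ne one_ne_zero
    have h6 : (fun z : ℍ => (f ∣[k] δ) z * (E₄ z)⁻¹) =O[atImInfty] (fun _ => (1 : ℝ) * (1 : ℝ)) :=
      Asymptotics.IsBigO.mul h2 h4
    have h7 : (fun z : ℍ => (f ∣[k] δ) z * (E₄ z)⁻¹) =ᶠ[atImInfty] (f' ∣[k - 4] δ) := by
      filter_upwards [h5] with z hz
      have h8 := congrFun h1 z
      simp only [Pi.mul_apply] at h8
      rw [← h8]
      field_simp
    have h9 : (f' ∣[k - 4] δ) =O[atImInfty] (1 : ℍ → ℝ) :=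
      h6.congr' h7 (Filter.Eventually.of_forall fun _ => by simp)
    exact h9

/-- The graded pieces `MFun N k` satisfy the regular-sequence hypotheses of GM1. -/
theorem hyp_MFun (N : ℕ) [NeZero N] :
    GM.Hyp (MFun N) (⇑E₄ : ℍ → ℂ) (⇑E₆ : ℍ → ℂ) where
  neg := fun _ hk => MFun_neg hk
  mul4 := fun _ _ hf => MFun_cast (by ring) (LFun_mul_mem_MFun E4_mem hf)
  mul6 := fun _ _ hf => MFun_cast (by ring) (LFun_mul_mem_MFun E6_mem hf)
  inj4 := fun _ f hf h =>
    Fermat.Agent.S23.eq_zero_of_mul_eq_zero_mdiff (MFun_mdiff hf) (ModularFormClass.holo E₄)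
      E4_fun_ne_zero (fun z => by
        have h1 := congrFun h z
        simp only [Pi.mul_apply, Pi.zero_apply] at h1
        rw [mul_comm]
        exact h1)
  reg := fun _ _ _ hf hg h => reg_E4_E6 hf hg h

/-- Odd weight forms for `Γ₀(N)` vanish. -/
lemma MFun_odd {N : ℕ} {k : ℤ} (hk : Odd k) : MFun N k = ⊥ := by
  rw [eq_bot_iff]
  rintro _ ⟨F, rfl⟩
  rw [Submodule.mem_bot]
  have hmem : (-1 : GL (Fin 2) ℝ) ∈ (Gamma0 N : Subgroup (GL (Fin 2) ℝ)) := by
    refine ⟨-1, ?_, by ext; simp⟩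
    change (-1 : SL(2, ℤ)) ∈ Gamma0 N
    rw [Gamma0_mem]
    simp
  rw [ModularForm.eq_zero_of_neg_one_mem hmem hk F]
  rfl

lemma one_mem_LFun : (1 : ℍ → ℂ) ∈ LFun 0 := ⟨1, ModularForm.one_coe_eq_one⟩

lemma pow_mem_LFun {w : ℤ} {g : ℍ → ℂ} (hg : g ∈ LFun w) (n : ℕ) : g ^ n ∈ LFun (w * n) := by
  induction n with
  | zero => simpa using one_mem_LFun
  | succ n ih =>
    rw [pow_succ]
    exact LFun_cast (by push_cast; ring) (LFun_mul_mem ih hg)

lemma Amon_le_LFun (w : ℤ) : GM.Amon (⇑E₄ : ℍ → ℂ) (⇑E₆ : ℍ → ℂ) w ≤ LFun w := by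
  rw [GM.Amon, Submodule.span_le]
  rintro x ⟨a, m, h, rfl⟩
  exact LFun_cast (by omega) (LFun_mul_mem (pow_mem_LFun E4_mem a) (pow_mem_LFun E6_mem m))

/-- J1: level-one forms are polynomials in `E₄, E₆`. -/
lemma LFun_le_Amon (w : ℤ) : LFun w ≤ GM.Amon (⇑E₄ : ℍ → ℂ) (⇑E₆ : ℍ → ℂ) w := by
  rintro _ ⟨G, rfl⟩
  have h := levelOne_mem_monoSpan G
  have hle : monoSpan w ≤ GM.Amon (⇑E₄ : ℍ → ℂ) (⇑E₆ : ℍ → ℂ) w := by
    rw [monoSpan, Submodule.span_le]
    rintro x ⟨a, b, hab, rfl⟩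
    exact Submodule.subset_span ⟨a, b, hab, rfl⟩
  exact hle h

lemma LFun_eq_Amon (w : ℤ) : LFun w = GM.Amon (⇑E₄ : ℍ → ℂ) (⇑E₆ : ℍ → ℂ) w :=
  le_antisymm (LFun_le_Amon w) (Amon_le_LFun w)

/-- The coercion to functions, as a linear map. -/
def coeLin (Γ : Subgroup (GL (Fin 2) ℝ)) [Γ.HasDetOne] (k : ℤ) :
    ModularForm Γ k →ₗ[ℂ] (ℍ → ℂ) where
  toFun F := ⇑F
  map_add' _ _ := rfl
  map_smul' _ _ := rfl

lemma coeLin_injective (Γ : Subgroup (GL (Fin 2) ℝ)) [Γ.HasDetOne] (k : ℤ) :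
    Function.Injective (coeLin Γ k) := fun _ _ h => DFunLike.coe_injective h

lemma LFun_eq_range (w : ℤ) : LFun w = LinearMap.range (coeLin 𝒮ℒ w) := by
  ext g
  exact Iff.rfl

lemma finrank_LFun (w : ℤ) : Module.finrank ℂ (LFun w) = Module.finrank ℂ (ModularForm 𝒮ℒ w) := by
  rw [LFun_eq_range]
  exact LinearMap.finrank_range_of_inj (coeLin_injective _ _)

instance finiteDimensional_LFun (w : ℤ) : FiniteDimensional ℂ (LFun w) := by
  rw [LFun_eq_range]
  infer_instance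

lemma finrank_LFun_even {n : ℕ} (hn : Even n) :
    Module.finrank ℂ (LFun (n : ℤ)) = if n ≡ 2 [MOD 12] then n / 12 else n / 12 + 1 := by
  rw [finrank_LFun]
  exact Module.finrank_eq_of_rank_eq (dimension_level_one n hn)

lemma le_finrank_LFun {n : ℕ} (hn : Even n) : n / 12 ≤ Module.finrank ℂ (LFun (n : ℤ)) := by
  rw [finrank_LFun_even hn]
  split_ifs <;> omega

/-- The first `B + 1` `q`-expansion coefficients, as a linear map on `MFun N k`. -/
def qCoeffLin (N : ℕ) (k : ℤ) (B : ℕ) : MFun N k →ₗ[ℂ] (Fin (B + 1) → ℂ) where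
  toFun f := fun n => (qExpansion 1 (f : ℍ → ℂ)).coeff n
  map_add' := by
    rintro ⟨_, ⟨F, rfl⟩⟩ ⟨_, ⟨G, rfl⟩⟩
    funext n
    have h := Fermat.Agent.S23.qExp_add
      (Fermat.Agent.S23.PB.of_modularForm (one_mem_strictPeriods_Gamma0 N) F)
      (Fermat.Agent.S23.PB.of_modularForm (one_mem_strictPeriods_Gamma0 N) G)
    simp only [Submodule.coe_add, Pi.add_apply]
    rw [h, map_add]
  map_smul' := by
    rintro c ⟨_, ⟨F, rfl⟩⟩
    funext n
    have h := Fermat.Agent.S23.qExp_smul c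
      (Fermat.Agent.S23.PB.of_modularForm (one_mem_strictPeriods_Gamma0 N) F)
    simp only [Submodule.coe_smul, Pi.smul_apply, RingHom.id_apply]
    rw [h]
    simp

lemma qCoeffLin_injective (N : ℕ) [NeZero N] (k : ℤ) :
    Function.Injective (qCoeffLin N k ((k * ((Gamma0 N).index : ℤ)).toNat / 12)) := by
  rw [← LinearMap.ker_eq_bot, LinearMap.ker_eq_bot']
  rintro ⟨_, ⟨F, rfl⟩⟩ h
  have hF : F = 0 := by
    refine ModularForm.sturm_bound_Gamma0 N F fun n hn => ?_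
    have h1 := congrFun h ⟨n, Nat.lt_succ_of_le hn⟩
    exact h1
  subst hF
  rfl

instance finiteDimensional_MFun (N : ℕ) [NeZero N] (k : ℤ) : FiniteDimensional ℂ (MFun N k) :=
  FiniteDimensional.of_injective _ (qCoeffLin_injective N k)

/-- Sturm bound for the dimension. -/
lemma finrank_MFun_le (N : ℕ) [NeZero N] (k : ℤ) :
    Module.finrank ℂ (MFun N k) ≤ (k * ((Gamma0 N).index : ℤ)).toNat / 12 + 1 := by
  have h := LinearMap.finrank_le_finrank_of_injective (qCoeffLin_injective N k)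
  rwa [Module.finrank_fin_fun] at h

/-- The combination map `g ↦ ∑ j, g j * c j` on tuples of level one forms. -/
def combLin {κ : Type} [Fintype κ] (w : κ → ℤ) (c : κ → ℍ → ℂ) :
    (∀ j, LFun (w j)) →ₗ[ℂ] (ℍ → ℂ) where
  toFun g := ∑ j, (g j : ℍ → ℂ) * c j
  map_add' g₁ g₂ := by
    simp only [Pi.add_apply, Submodule.coe_add, add_mul, Finset.sum_add_distrib]
  map_smul' a g := by
    simp only [Pi.smul_apply, Submodule.coe_smul, smul_mul_assoc, Finset.smul_sum,
      RingHom.id_apply]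

/-- An injective combination map with values in `MFun N k` bounds the dimensions. -/
lemma sum_finrank_le {N : ℕ} [NeZero N] {κ : Type} [Fintype κ] (w : κ → ℤ) (c : κ → ℍ → ℂ)
    (k : ℤ) (hmem : ∀ j, c j ∈ MFun N (k - w j))
    (hinj : ∀ g : κ → ℍ → ℂ, (∀ j, g j ∈ LFun (w j)) → ∑ j, g j * c j = 0 → ∀ j, g j = 0) :
    ∑ j, Module.finrank ℂ (LFun (w j)) ≤ Module.finrank ℂ (MFun N k) := by
  have hi : Function.Injective (combLin w c) := by
    rw [← LinearMap.ker_eq_bot, LinearMap.ker_eq_bot']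
    intro g hg
    have h1 := hinj (fun j => (g j : ℍ → ℂ)) (fun j => (g j).2) hg
    funext j
    exact Subtype.ext (h1 j)
  have hr : LinearMap.range (combLin w c) ≤ MFun N k := by
    rintro _ ⟨g, rfl⟩
    refine Submodule.sum_mem _ fun j _ => ?_
    exact MFun_cast (by ring) (LFun_mul_mem_MFun (g j).2 (hmem j))
  have h1 := Submodule.finrank_mono hr
  rw [LinearMap.finrank_range_of_inj hi, Module.finrank_pi_fintype] at h1
  exact h1

section Finite

variable {N : ℕ} [NeZero N] {ι : Type} {b : ι → ℍ → ℂ} {kb : ι → ℤ}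

omit [NeZero N] in
lemma basis_ne_zero (B : GM.IsBasisMod (MFun N) (⇑E₄ : ℍ → ℂ) (⇑E₆ : ℍ → ℂ) b kb) (i : ι) :
    b i ≠ 0 := by
  intro h0
  have h2 := B.indep (kb i) {i} (fun _ => 1) (by simp) (by simp [h0])
  exact one_ne_zero (h2 i (Finset.mem_singleton_self i))

omit [NeZero N] in
lemma basis_kb_even (B : GM.IsBasisMod (MFun N) (⇑E₄ : ℍ → ℂ) (⇑E₆ : ℍ → ℂ) b kb) (i : ι) :
    Even (kb i) := by
  by_contra hodd
  rw [Int.not_even_iff_odd] at hodd
  have h1 := B.mem i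
  rw [MFun_odd hodd] at h1
  exact basis_ne_zero B i ((Submodule.mem_bot ℂ).mp h1)

/-- uniqueness of representations, in terms of `LFun`. -/
lemma basis_uniq (B : GM.IsBasisMod (MFun N) (⇑E₄ : ℍ → ℂ) (⇑E₆ : ℍ → ℂ) b kb) (k : ℤ)
    (s : Finset ι) (g : s → ℍ → ℂ) (hg : ∀ j : s, g j ∈ LFun (k - kb (j : ι)))
    (hsum : ∑ j : s, g j * b (j : ι) = 0) : ∀ j : s, g j = 0 := by
  classical
  let g' : ι → ℍ → ℂ := fun i => if h : i ∈ s then g ⟨i, h⟩ else 0
  have hg'j : ∀ j : s, g' j = g j := fun j => by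
    simp only [g', dif_pos j.2]
  have h1 : ∀ i ∈ s, g' i ∈ GM.Amon (⇑E₄ : ℍ → ℂ) (⇑E₆ : ℍ → ℂ) (k - kb i) := by
    intro i hi
    rw [← LFun_eq_Amon]
    have := hg ⟨i, hi⟩
    rwa [← hg'j ⟨i, hi⟩] at this
  have h2 : ∑ i ∈ s, g' i * b i = 0 := by
    rw [← Finset.sum_attach, ← Finset.univ_eq_attach, ← hsum]
    exact Finset.sum_congr rfl fun j _ => by rw [hg'j]
  have h3 := B.uniq (hyp_MFun N) k s g' h1 h2
  intro j
  rw [← hg'j j]
  exact h3 j j.2

/-- Sturm bound: a family lifting a basis modulo `(E₄, E₆)` has at most `index` elements. -/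
lemma basis_card_le (B : GM.IsBasisMod (MFun N) (⇑E₄ : ℍ → ℂ) (⇑E₆ : ℍ → ℂ) b kb)
    (s : Finset ι) : s.card ≤ (Gamma0 N).index := by
  classical
  by_contra hlt
  push Not at hlt
  set μ : ℕ := (Gamma0 N).index with hμ
  set C : ℕ := ∑ i ∈ s, (kb i).toNat with hC
  have hkb : ∀ i ∈ s, (kb i).toNat ≤ C := fun i hi =>
    Finset.single_le_sum (f := fun i => (kb i).toNat) (fun _ _ => Nat.zero_le _) hi
  set K : ℕ := C * μ + C + 2 with hK
  have h1 := sum_finrank_le (N := N) (κ := s) (fun j => 12 * (K : ℤ) - kb j) (fun j => b j)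
    (12 * (K : ℤ)) (fun j => MFun_cast (by ring) (B.mem j))
    (fun g hg hsum => basis_uniq B (12 * (K : ℤ)) s g hg hsum)
  have h2 := finrank_MFun_le N (12 * (K : ℤ))
  have h3 : (12 * (K : ℤ) * ((Gamma0 N).index : ℤ)).toNat / 12 + 1 = K * μ + 1 := by
    have : 12 * (K : ℤ) * ((Gamma0 N).index : ℤ) = ((12 * (K * μ) : ℕ) : ℤ) := by
      push_cast
      ring
    rw [this, Int.toNat_natCast]
    omega
  rw [h3] at h2
  have h4 : ∀ j : s, C * μ + 2 ≤ Module.finrank ℂ (LFun (12 * (K : ℤ) - kb j)) := by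
    intro j
    have hnn := B.kb_nonneg (hyp_MFun N) j
    have hev := basis_kb_even B j
    have hle := hkb j j.2
    obtain ⟨t, ht⟩ := Int.eq_ofNat_of_zero_le hnn
    have ht' : (kb j).toNat = t := by rw [ht]; rfl
    rw [ht'] at hle
    have hte : Even t := by
      rw [ht] at hev
      exact_mod_cast hev
    have heq : 12 * (K : ℤ) - kb j = ((12 * K - t : ℕ) : ℤ) := by
      rw [ht]
      have : t ≤ 12 * K := by omega
      push_cast [this]
      ring
    rw [heq]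
    have hev2 : Even (12 * K - t) := by
      obtain ⟨r, hr⟩ := hte
      exact ⟨6 * K - r, by omega⟩
    refine le_trans ?_ (le_finrank_LFun hev2)
    omega
  have h5 : s.card * (C * μ + 2) ≤ K * μ + 1 := by
    have h6 := Finset.card_nsmul_le_sum (Finset.univ : Finset s)
      (fun j => Module.finrank ℂ (LFun (12 * (K : ℤ) - kb j))) (C * μ + 2) (fun j _ => h4 j)
    rw [Finset.card_univ, Fintype.card_coe, smul_eq_mul] at h6
    exact le_trans h6 (le_trans h1 h2)
  have h7 : (μ + 1) * (C * μ + 2) ≤ K * μ + 1 :=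
    le_trans (Nat.mul_le_mul_right _ hlt) h5
  rw [hK] at h7
  nlinarith [h7]

lemma basis_finite (B : GM.IsBasisMod (MFun N) (⇑E₄ : ℍ → ℂ) (⇑E₆ : ℍ → ℂ) b kb) : Finite ι := by
  by_contra hinf
  rw [not_finite_iff_infinite] at hinf
  obtain ⟨s, hs⟩ := Infinite.exists_subset_card_eq ι ((Gamma0 N).index + 1)
  have := basis_card_le B s
  omega

end Finite

section Vandermonde

variable (N : ℕ) [NeZero N]

/-- `N¹¹ Δ(Nτ)` as a function. -/
def sD : ℍ → ℂ := ⇑(Fermat.Agent.S23.scaledDelta N)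

/-- The conjugates of `scaledDelta`. -/
def phi (x : X N) : ℍ → ℂ := cj (Fermat.Agent.S23.scaledDelta N) x

lemma phi_injective : Function.Injective (phi N) := by
  intro x y hxy
  induction x using QuotientGroup.induction_on with
  | H h₁ =>
    induction y using QuotientGroup.induction_on with
    | H h₂ =>
      obtain ⟨γ₁, rfl⟩ := toSL.surjective h₁
      obtain ⟨γ₂, rfl⟩ := toSL.surjective h₂
      rw [phi, phi, cj_toSL, cj_toSL] at hxy
      have h1 : (⇑(Fermat.Agent.S23.scaledDelta N) : ℍ → ℂ) ∣[(12 : ℤ)] (γ₁⁻¹ * γ₂) =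
          ⇑(Fermat.Agent.S23.scaledDelta N) := by
        rw [SlashAction.slash_mul, hxy, ← SlashAction.slash_mul, inv_mul_cancel,
          SlashAction.slash_one]
      have h2 := Fermat.Agent.S23.mem_Gamma0_of_slash_scaledDelta N (γ₁⁻¹ * γ₂) h1
      refine QuotientGroup.eq.mpr ?_
      rw [Subgroup.mem_subgroupOf]
      refine ⟨γ₁⁻¹ * γ₂, h2, ?_⟩
      simp [map_mul, map_inv]

lemma mdiff_phi (x : X N) : MDiff (phi N x) :=
  Fermat.Agent.S23.mdiff_quotientFunc (Fermat.Agent.S23.scaledDelta N) x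

omit [NeZero N] in
lemma slash_pow (f : ℍ → ℂ) (k : ℤ) (γ : SL(2, ℤ)) (n : ℕ) :
    (f ^ n) ∣[k * n] γ = (f ∣[k] γ) ^ n := by
  induction n with
  | zero =>
    simp only [pow_zero, Nat.cast_zero, mul_zero]
    exact ModularForm.is_invariant_one γ
  | succ n ih =>
    rw [pow_succ, pow_succ, ← ih, ← ModularForm.mul_slash_SL2]
    congr 1
    push_cast
    ring

lemma sD_pow_mem (n : ℕ) : sD N ^ n ∈ MFun N (12 * n) := by
  refine ⟨ModularForm.mcast (by ring) ((Fermat.Agent.S23.scaledDelta N).pow n), ?_⟩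
  funext z
  change ((Fermat.Agent.S23.scaledDelta N).pow n) z = _
  rw [ModularForm.coe_pow]
  rfl

omit [NeZero N] in
lemma prod_ne_zero_mdiff {κ : Type} (s : Finset κ) (G : κ → ℍ → ℂ) (hG : ∀ i ∈ s, MDiff (G i))
    (h0 : ∀ i ∈ s, G i ≠ 0) : ∏ i ∈ s, G i ≠ 0 := by
  classical
  induction s using Finset.induction_on with
  | empty =>
    rw [Finset.prod_empty]
    exact one_ne_zero
  | insert a s ha ih =>
    rw [Finset.prod_insert ha]
    intro h
    have h1 := ih (fun i hi => hG i (Finset.mem_insert_of_mem hi))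
      (fun i hi => h0 i (Finset.mem_insert_of_mem hi))
    have hQ : MDiff (∏ i ∈ s, G i) :=
      MDifferentiable.prod fun i hi => hG i (Finset.mem_insert_of_mem hi)
    have h2 : G a = 0 := Fermat.Agent.S23.eq_zero_of_mul_eq_zero_mdiff
      (hG a (Finset.mem_insert_self a s)) hQ h1 (fun z => congrFun h z)
    exact h0 a (Finset.mem_insert_self a s) h2

/-- At some point the conjugates of `scaledDelta` take pairwise distinct values. -/
lemma exists_phi_injective : ∃ τ : ℍ, Function.Injective fun x : X N => phi N x τ := by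
  classical
  have hne : ∏ p ∈ (Finset.univ : Finset (X N)).offDiag, (phi N p.1 - phi N p.2) ≠ 0 := by
    refine prod_ne_zero_mdiff _ _ (fun p _ => (mdiff_phi N p.1).sub (mdiff_phi N p.2)) ?_
    intro p hp h
    have hpne : p.1 ≠ p.2 := (Finset.mem_offDiag.mp hp).2.2
    exact hpne (phi_injective N (sub_eq_zero.mp h))
  by_contra hcon
  push Not at hcon
  apply hne
  funext τ
  rw [Finset.prod_apply]
  have h1 := hcon τ
  rw [Function.Injective] at h1
  push Not at h1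
  obtain ⟨x, y, hxy, hne'⟩ := h1
  refine Finset.prod_eq_zero (i := (x, y)) ?_ ?_
  · simp only [Finset.mem_offDiag, Finset.mem_univ, true_and]
    exact hne'
  · simp only [Pi.sub_apply]
    exact sub_eq_zero.mpr hxy

/-- Conjugating a representation of a power of `scaledDelta`. -/
lemma pow_phi_eq {ι : Type} [Fintype ι] {kb : ι → ℤ} (Fm : ∀ i, ModularForm (Gamma0 N) (kb i))
    (n : ℕ) (g : ι → ℍ → ℂ) (hg : ∀ i, g i ∈ LFun (12 * n - kb i))
    (hsum : sD N ^ n = ∑ i, g i * ⇑(Fm i)) (x : X N) :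
    phi N x ^ n = ∑ i, g i * cj (Fm i) x := by
  induction x using QuotientGroup.induction_on with
  | H h₁ =>
    obtain ⟨γ, rfl⟩ := toSL.surjective h₁
    rw [phi, cj_toSL]
    have h1 : (sD N ^ n) ∣[(12 : ℤ) * n] γ⁻¹ = (sD N ∣[(12 : ℤ)] γ⁻¹) ^ n := slash_pow _ _ _ _
    rw [sD] at h1
    rw [← h1, ← sD, hsum, SlashAction.sum_slash]
    refine Finset.sum_congr rfl fun i _ => ?_
    rw [cj_toSL]
    have h3 := ModularForm.mul_slash_SL2 (12 * n - kb i) (kb i) γ⁻¹ (g i) ⇑(Fm i)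
    rw [show 12 * (n : ℤ) - kb i + kb i = 12 * n by ring, LFun_slash (hg i)] at h3
    exact h3

lemma index_Gamma0_eq : (Gamma0 N).index = Fintype.card (X N) := by
  rw [Subgroup.index, Nat.card_congr (xEquiv N), Nat.card_eq_fintype_card]

end Vandermonde

section Rank

variable {N : ℕ} [NeZero N] {ι : Type} [Fintype ι] {b : ι → ℍ → ℂ} {kb : ι → ℤ}

/-- existence of representations, in terms of `LFun`. -/
lemma basis_repr (B : GM.IsBasisMod (MFun N) (⇑E₄ : ℍ → ℂ) (⇑E₆ : ℍ → ℂ) b kb) (k : ℤ)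
    (f : ℍ → ℂ) (hf : f ∈ MFun N k) :
    ∃ g : ι → ℍ → ℂ, (∀ i, g i ∈ LFun (k - kb i)) ∧ f = ∑ i, g i * b i := by
  have h1 := B.gen (hyp_MFun N) k hf
  rw [Submodule.mem_iSup_iff_exists_finsupp] at h1
  obtain ⟨φ, hφ, hsum⟩ := h1
  have h2 : ∀ i, ∃ a ∈ LFun (k - kb i), a * b i = φ i := by
    intro i
    obtain ⟨a, ha, hab⟩ := hφ i
    exact ⟨a, by rw [LFun_eq_Amon]; exact ha, hab⟩
  choose g hg hgb using h2
  refine ⟨g, hg, ?_⟩
  rw [← hsum, Finsupp.sum_fintype _ _ (fun _ => rfl)]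
  exact Finset.sum_congr rfl fun i _ => (hgb i).symm

/-- Vandermonde: a generating family has at least `|X N|` elements. -/
lemma card_X_le (B : GM.IsBasisMod (MFun N) (⇑E₄ : ℍ → ℂ) (⇑E₆ : ℍ → ℂ) b kb) :
    Fintype.card (X N) ≤ Fintype.card ι := by
  classical
  choose Fm hFm using B.mem
  obtain ⟨τ, hτ⟩ := exists_phi_injective N
  let U : ι → X N → ℂ := fun i x => cj (Fm i) x τ
  have hpow : ∀ n : ℕ, (fun x : X N => phi N x τ ^ n) ∈ Submodule.span ℂ (Set.range U) := by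
    intro n
    obtain ⟨g, hg, hsum⟩ := basis_repr B (12 * n) (sD N ^ n) (sD_pow_mem N n)
    have hsum' : sD N ^ n = ∑ i, g i * ⇑(Fm i) := by
      rw [hsum]
      exact Finset.sum_congr rfl fun i _ => by rw [hFm i]
    have h4 : (fun x : X N => phi N x τ ^ n) = ∑ i, g i τ • U i := by
      funext x
      have h5 := congrFun (pow_phi_eq N Fm n g hg hsum' x) τ
      simp only [Pi.pow_apply, Finset.sum_apply, Pi.mul_apply] at h5
      rw [h5]
      simp only [Finset.sum_apply, Pi.smul_apply, smul_eq_mul, U]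
    rw [h4]
    exact Submodule.sum_mem _ fun i _ =>
      Submodule.smul_mem _ _ (Submodule.subset_span ⟨i, rfl⟩)
  have htop : Submodule.span ℂ (Set.range U) = ⊤ := by
    refine Submodule.eq_top_iff'.mpr fun w => ?_
    let v : X N → ℂ := fun x => phi N x τ
    let p : Polynomial ℂ := Lagrange.interpolate Finset.univ v w
    have h1 : w = ∑ n ∈ Finset.range (p.natDegree + 1),
        p.coeff n • fun x : X N => phi N x τ ^ n := by
      funext x
      have h2 : Polynomial.eval (v x) p = w x :=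
        Lagrange.eval_interpolate_at_node w (fun a _ b _ hab => hτ hab) (Finset.mem_univ x)
      rw [← h2, Polynomial.eval_eq_sum_range]
      simp only [Finset.sum_apply, Pi.smul_apply, smul_eq_mul, v]
    rw [h1]
    exact Submodule.sum_mem _ fun n _ => Submodule.smul_mem _ _ (hpow n)
  have h1 := finrank_range_le_card (R := ℂ) U
  rw [Set.finrank, htop, finrank_top, Module.finrank_fintype_fun_eq_card] at h1
  exact h1

end Rank


lemma combLin_injective {κ : Type} [Fintype κ] (w : κ → ℤ) (c : κ → ℍ → ℂ)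
    (hinj : ∀ g : κ → ℍ → ℂ, (∀ j, g j ∈ LFun (w j)) → ∑ j, g j * c j = 0 → ∀ j, g j = 0) :
    Function.Injective (combLin w c) := by
  rw [← LinearMap.ker_eq_bot, LinearMap.ker_eq_bot']
  intro g hg
  have h1 := hinj (fun j => (g j : ℍ → ℂ)) (fun j => (g j).2) hg
  funext j
  exact Subtype.ext (h1 j)

lemma MFun_eq_range (N : ℕ) (k : ℤ) : MFun N k = LinearMap.range (coeLin (Gamma0 N) k) := by
  ext g
  exact Iff.rfl

lemma finrank_MFun (N : ℕ) (k : ℤ) :
    Module.finrank ℂ (MFun N k) = Module.finrank ℂ (ModularForm (Gamma0 N) k) := by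
  rw [MFun_eq_range]
  exact LinearMap.finrank_range_of_inj (coeLin_injective _ _)

lemma finrank_LFun_two_sub (n : ℕ) :
    Module.finrank ℂ (LFun (2 - (n : ℤ))) = if n = 2 then 1 else 0 := by
  rcases Nat.lt_or_ge 2 n with h | h
  · rw [if_neg (by omega), finrank_LFun]
    exact Module.finrank_eq_of_rank_eq (n := 0)
      (by simpa using ModularForm.levelOne_neg_weight_rank_zero (k := 2 - (n : ℤ)) (by omega))
  · interval_cases n
    · have h0 : (2 : ℤ) - ((0 : ℕ) : ℤ) = ((2 : ℕ) : ℤ) := by norm_num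
      rw [h0, finrank_LFun_even (by decide)]
      decide
    · have h1 : (2 : ℤ) - ((1 : ℕ) : ℤ) = 1 := by norm_num
      rw [h1, finrank_LFun]
      simp only [show (1 : ℕ) ≠ 2 by decide, if_false]
      exact Module.finrank_eq_of_rank_eq (n := 0)
        (by simpa using ModularForm.levelOne_odd_weight_rank_zero (k := 1) (by decide))
    · have h2 : (2 : ℤ) - ((2 : ℕ) : ℤ) = ((0 : ℕ) : ℤ) := by norm_num
      rw [h2, finrank_LFun_even (by decide)]
      decide


end GM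

open GM in
/-- **(GM)** `M_*(Γ₀(N))` has a homogeneous basis over the level one forms indexed by `X N`. -/
theorem exists_gmBasis (N : ℕ) [NeZero N] : Nonempty (GMBasis N) := by
  classical
  obtain ⟨ι, b, kb, B⟩ := GM.exists_isBasisMod (MFun N) (⇑E₄ : ℍ → ℂ) (⇑E₆ : ℍ → ℂ)
  have : Finite ι := basis_finite B
  let _ : Fintype ι := Fintype.ofFinite ι
  have hcard : Fintype.card ι = Fintype.card (X N) := by
    refine le_antisymm ?_ (card_X_le B)
    have h := basis_card_le B (Finset.univ : Finset ι)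
    rwa [Finset.card_univ, index_Gamma0_eq] at h
  let e : X N ≃ ι := (Fintype.equivOfCardEq hcard).symm
  have hnn : ∀ i, 0 ≤ kb i := B.kb_nonneg (hyp_MFun N)
  have hmem : ∀ x : X N, ∃ F : ModularForm (Gamma0 N) (((kb (e x)).toNat : ℕ) : ℤ),
      ⇑F = b (e x) := by
    intro x
    have h := B.mem (e x)
    exact MFun_cast (Int.toNat_of_nonneg (hnn (e x))).symm h
  choose F hF using hmem
  refine ⟨{ wt := fun x => (kb (e x)).toNat
            F := F
            exists_repr := ?_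
            unique_repr := ?_ }⟩
  · intro k f hf
    obtain ⟨g, hg, hsum⟩ := basis_repr B k f hf
    refine ⟨fun x => g (e x), fun x => ?_, ?_⟩
    · exact LFun_cast (by rw [Int.toNat_of_nonneg (hnn (e x))]) (hg (e x))
    · rw [hsum, ← Equiv.sum_comp e]
      exact Finset.sum_congr rfl fun x _ => by rw [hF x]
  · intro k g hg hsum
    have h1 := B.uniq (hyp_MFun N) k Finset.univ (fun i => g (e.symm i)) (fun i _ => by
      rw [← LFun_eq_Amon]
      have h2 := hg (e.symm i)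
      simp only [Equiv.apply_symm_apply] at h2
      exact LFun_cast (by rw [Int.toNat_of_nonneg (hnn i)]) h2) (by
      rw [← hsum, ← Equiv.sum_comp e]
      exact Finset.sum_congr rfl fun x _ => by rw [Equiv.symm_apply_apply, hF x])
    intro x
    have h3 := h1 (e x) (Finset.mem_univ _)
    simpa using h3

theorem GMBasis.F_ne_zero {N : ℕ} [NeZero N] (B : GMBasis N) (x : X N) : B.F x ≠ 0 := by
  classical
  intro h0
  have h1 := B.unique_repr (B.wt x) (fun y => if y = x then 1 else 0) (fun y => by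
    by_cases hy : y = x
    · subst hy
      simp only [if_true, sub_self]
      exact GM.one_mem_LFun
    · simp only [if_neg hy]
      exact Submodule.zero_mem _) (by
    refine Finset.sum_eq_zero fun y _ => ?_
    by_cases hy : y = x
    · subst hy
      rw [h0]
      simp only [if_true, one_mul]
      rfl
    · simp only [if_neg hy, zero_mul]) x
  simp only [if_true] at h1
  exact one_ne_zero h1

theorem GMBasis.wt_even {N : ℕ} [NeZero N] (B : GMBasis N) (x : X N) : Even (B.wt x) := by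
  by_contra hodd
  rw [Nat.not_even_iff_odd] at hodd
  have h1 : (⇑(B.F x) : ℍ → ℂ) ∈ MFun N (B.wt x) := ⟨B.F x, rfl⟩
  rw [GM.MFun_odd (by exact_mod_cast hodd)] at h1
  exact B.F_ne_zero x (DFunLike.coe_injective ((Submodule.mem_bot ℂ).mp h1))

open GM in
theorem GMBasis.finrank_weight_two {N : ℕ} [NeZero N] (B : GMBasis N) :
    Module.finrank ℂ (ModularForm (Gamma0 N) 2) =
      (Finset.univ.filter fun x => B.wt x = 2).card := by
  classical
  have hi : Function.Injective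
      (combLin (fun x : X N => (2 : ℤ) - B.wt x) (fun x => (⇑(B.F x) : ℍ → ℂ))) :=
    combLin_injective _ _ (fun g hg hsum => B.unique_repr 2 g hg hsum)
  have hr : LinearMap.range
      (combLin (fun x : X N => (2 : ℤ) - B.wt x) (fun x => (⇑(B.F x) : ℍ → ℂ))) = MFun N 2 := by
    apply le_antisymm
    · rintro _ ⟨g, rfl⟩
      refine Submodule.sum_mem _ fun x _ => ?_
      exact MFun_cast (by ring) (LFun_mul_mem_MFun (g x).2 ⟨B.F x, rfl⟩)
    · intro f hf
      obtain ⟨g, hg, hsum⟩ := B.exists_repr 2 f hf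
      exact ⟨fun x => ⟨g x, hg x⟩, hsum.symm⟩
  rw [← finrank_MFun, ← hr, LinearMap.finrank_range_of_inj hi, Module.finrank_pi_fintype,
    Finset.card_filter]
  exact Finset.sum_congr rfl fun x _ => finrank_LFun_two_sub (B.wt x)

end

end Fermat.Agent.ES
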