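import Fermat.Agent.ES.Defs

set_option autoImplicit false

/-!
# ES / (L6), part 1: the determinant of the matrix of conjugates

For a family `F x` (`x : X N`) of modular forms on `Γ₀(N)` of weights `wt x`, the determinant
`conjDet wt F τ = det (cj (F i) x τ)_{i,x}` transforms under `SL(2,ℤ)` by a sign and the factor
`denom ^ (∑ wt)`; hence its square is a level-one modular form of weight `2 ∑ wt`.
-/

namespace Fermat.Agent.ES

open UpperHalfPlane hiding I
open Complex Filter ModularForm ModularFormClass SlashInvariantForm CongruenceSubgroup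
open Fermat.Agent.S23
open scoped MatrixGroups ModularForm Topology Manifold

noncomputable section

variable {N : ℕ} [NeZero N]

open Classical in
/-- the matrix of conjugates of a family of forms on `Γ₀(N)` indexed by `X N`. -/
def conjMatrix (wt : X N → ℕ) (F : ∀ x : X N, ModularForm (Gamma0 N) (wt x)) (τ : ℍ) :
    Matrix (X N) (X N) ℂ :=
  Matrix.of fun i x => cj (F i) x τ

open Classical in
/-- the determinant of the matrix of conjugates. -/
def conjDet (wt : X N → ℕ) (F : ∀ x : X N, ModularForm (Gamma0 N) (wt x)) (τ : ℍ) : ℂ :=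
  (conjMatrix wt F τ).det

omit [NeZero N] in
theorem conjMatrix_apply (wt : X N → ℕ) (F : ∀ x : X N, ModularForm (Gamma0 N) (wt x)) (τ : ℍ)
    (i x : X N) : conjMatrix wt F τ i x = cj (F i) x τ := rfl

omit [NeZero N] in
/-- the conjugates at a translated point -/
theorem cj_smul_point {k : ℤ} (f : ModularForm (Gamma0 N) k) (γ : SL(2, ℤ)) (x : X N) (τ : ℍ) :
    cj f x (γ • τ) = denom γ τ ^ k * cj f (γ⁻¹ • x) τ := by
  have h1 := congrFun (cj_slash f γ x) τ
  rw [SL_slash_apply] at h1
  rw [← h1, mul_comm, mul_assoc, ← zpow_add₀ (denom_ne_zero _ _)]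
  simp

open Classical in
/-- transformation of the determinant of conjugates under `SL(2,ℤ)`. -/
theorem conjDet_smul (wt : X N → ℕ) (F : ∀ x : X N, ModularForm (Gamma0 N) (wt x))
    (γ : SL(2, ℤ)) (τ : ℍ) :
    conjDet wt F (γ • τ) = (denom γ τ) ^ (∑ i, wt i) *
      (((Equiv.Perm.sign (MulAction.toPerm γ⁻¹ : Equiv.Perm (X N)) : ℤˣ) : ℤ) : ℂ) *
        conjDet wt F τ := by
  unfold conjDet
  have h : conjMatrix wt F (γ • τ) = Matrix.of (fun i x => (denom γ τ) ^ (wt i) *
      ((conjMatrix wt F τ).submatrix id (MulAction.toPerm γ⁻¹ : Equiv.Perm (X N))) i x) := by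
    ext i x
    simp only [conjMatrix, Matrix.of_apply, Matrix.submatrix_apply, id, MulAction.toPerm_apply]
    rw [cj_smul_point, zpow_natCast]
  rw [h, Matrix.det_mul_column, Matrix.det_permute', Finset.prod_pow_eq_pow_sum]
  ring

/-- transformation of the square of the determinant of conjugates under `SL(2,ℤ)`. -/
theorem conjDet_sq_smul (wt : X N → ℕ) (F : ∀ x : X N, ModularForm (Gamma0 N) (wt x))
    (γ : SL(2, ℤ)) (τ : ℍ) :
    conjDet wt F (γ • τ) ^ 2 = (denom γ τ) ^ (2 * ∑ i, wt i) * conjDet wt F τ ^ 2 := by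
  classical
  rw [conjDet_smul]
  have hs : ((((Equiv.Perm.sign (MulAction.toPerm γ⁻¹ : Equiv.Perm (X N)) : ℤˣ) : ℤ) : ℂ)) ^ 2
      = 1 := by
    rcases Int.units_eq_one_or (Equiv.Perm.sign (MulAction.toPerm γ⁻¹ : Equiv.Perm (X N)))
      with h | h <;> simp [h]
  rw [mul_pow, mul_pow, hs, mul_one, ← pow_mul, mul_comm 2]

open Classical in
/-- Leibniz expansion at the level of functions. -/
theorem conjDet_eq_sum (wt : X N → ℕ) (F : ∀ x : X N, ModularForm (Gamma0 N) (wt x)) :
    conjDet wt F = ∑ σ : Equiv.Perm (X N),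
      (((Equiv.Perm.sign σ : ℤˣ) : ℤ) : ℂ) • ∏ i, cj (F (σ i)) i := by
  funext τ
  simp only [conjDet, Matrix.det_apply', conjMatrix, Matrix.of_apply, Finset.sum_apply,
    Pi.smul_apply, Finset.prod_apply, smul_eq_mul]

theorem mdiff_conjDet (wt : X N → ℕ) (F : ∀ x : X N, ModularForm (Gamma0 N) (wt x)) :
    MDiff (conjDet wt F) := by
  classical
  rw [conjDet_eq_sum]
  exact MDifferentiable.sum fun σ _ =>
    (MDifferentiable.prod fun i _ => mdiff_quotientFunc _ _).const_smul _

theorem bdd_conjDet (wt : X N → ℕ) (F : ∀ x : X N, ModularForm (Gamma0 N) (wt x)) :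
    IsBoundedAtImInfty (conjDet wt F) := by
  classical
  rw [conjDet_eq_sum]
  refine bdd_finset_sum _ fun σ _ => ?_
  have h1 : IsBoundedAtImInfty (∏ i, cj (F (σ i)) i) :=
    bdd_finset_prod _ fun i _ => bdd_quotientFunc _ _
  exact (Filter.const_boundedAtFilter atImInfty
    ((((Equiv.Perm.sign σ : ℤˣ) : ℤ) : ℂ))).mul h1

/-- the square of the determinant of conjugates is a level-one modular form. -/
theorem exists_conjDet_sq_form (wt : X N → ℕ) (F : ∀ x : X N, ModularForm (Gamma0 N) (wt x)) :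
    ∃ G : ModularForm 𝒮ℒ (2 * ((∑ i, wt i : ℕ) : ℤ)),
      (⇑G : ℍ → ℂ) = fun τ => conjDet wt F τ ^ 2 := by
  have hmd := mdiff_conjDet wt F
  have hbd := bdd_conjDet wt F
  have hfun : (fun τ => conjDet wt F τ ^ 2) = conjDet wt F * conjDet wt F := by
    funext τ
    simp [pow_two]
  have hslash : ∀ γ : SL(2, ℤ),
      (fun τ => conjDet wt F τ ^ 2) ∣[(2 * ((∑ i, wt i : ℕ) : ℤ))] γ
        = fun τ => conjDet wt F τ ^ 2 := by
    intro γ
    funext τ
    rw [SL_slash_apply, conjDet_sq_smul, mul_comm, ← mul_assoc, ← zpow_natCast,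
      ← zpow_add₀ (denom_ne_zero _ _)]
    simp
  refine ⟨{ toFun := fun τ => conjDet wt F τ ^ 2
            slash_action_eq' := ?_
            holo' := ?_
            bdd_at_cusps' := ?_ }, rfl⟩
  · rintro g ⟨γ, rfl⟩
    exact hslash γ
  · exact hmd.pow 2
  · intro c hc
    rw [Subgroup.IsArithmetic.isCusp_iff_isCusp_SL2Z] at hc
    rw [OnePoint.isBoundedAt_iff_forall_SL2Z hc]
    intro γ _
    have h2 : IsBoundedAtImInfty ((fun τ => conjDet wt F τ ^ 2) ∣[(2 * ((∑ i, wt i : ℕ) : ℤ))] γ) := by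
      rw [hslash γ, hfun]
      exact hbd.mul hbd
    exact h2

end

end Fermat.Agent.ES
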