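import Mathlib

set_option autoImplicit false

namespace Fermat.Agent.ES

open UpperHalfPlane ModularForm EisensteinSeries MatrixGroups Filter Topology

noncomputable section

/-- The period pair `(c z, c)` attached to a point of the upper half plane and a scalar. -/
def jinjPair (z : ℍ) (c : ℂ) (hc : c ≠ 0) : PeriodPair where
  ω₁ := c * z
  ω₂ := c
  indep := by
    rw [LinearIndependent.pair_iff]
    intro s t h
    have h1 : c * ((s : ℂ) * z + t) = 0 := by
      simp only [Complex.real_smul] at h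
      linear_combination h
    have h2 : (s : ℂ) * z + t = 0 := (mul_eq_zero.mp h1).resolve_left hc
    have h3 := congrArg Complex.im h2
    simp at h3
    have hs : s = 0 := by
      rcases h3 with h3 | h3
      · exact h3
      · exact absurd h3 z.im_pos.ne'
    subst hs
    simp at h2
    exact ⟨rfl, by exact_mod_cast h2⟩

@[simp] lemma jinjPair_ω₁ (z : ℍ) (c : ℂ) (hc : c ≠ 0) : (jinjPair z c hc).ω₁ = c * z := rfl
@[simp] lemma jinjPair_ω₂ (z : ℍ) (c : ℂ) (hc : c ≠ 0) : (jinjPair z c hc).ω₂ = c := rfl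

theorem jinj_G_eq_tsum_prod (L : PeriodPair) (k : ℕ) :
    L.G k = ∑' x : ℤ × ℤ, (((x.1 : ℂ) * L.ω₁ + x.2 * L.ω₂) ^ k)⁻¹ := by
  rw [PeriodPair.G, ← L.latticeEquivProd.symm.toEquiv.tsum_eq]
  congr 1 with x
  rw [LinearEquiv.coe_toEquiv, L.latticeEquiv_symm_apply]

theorem jinj_G_pair (z : ℍ) (c : ℂ) (hc : c ≠ 0) {k : ℕ} (hk : 3 ≤ k) :
    (jinjPair z c hc).G k = (c ^ k)⁻¹ * (2 * riemannZeta k * E hk z) := by
  have h1 := tsum_eisSummand_eq_riemannZeta_mul_eisensteinSeries hk z
  have h2 : E hk z = (1 / 2 : ℂ) * eisensteinSeries (N := 1) 0 k z := rfl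
  rw [jinj_G_eq_tsum_prod, h2]
  have h3 : ∑' x : ℤ × ℤ, ((((x.1 : ℂ) * (jinjPair z c hc).ω₁ + x.2 * (jinjPair z c hc).ω₂) ^ k)⁻¹)
      = (c ^ k)⁻¹ * ∑' v : Fin 2 → ℤ, eisSummand k v z := by
    rw [← tsum_mul_left, ← (finTwoArrowEquiv ℤ).symm.tsum_eq]
    congr 1 with x
    simp only [jinjPair_ω₁, jinjPair_ω₂, eisSummand, finTwoArrowEquiv_symm_apply, zpow_neg,
      zpow_natCast]
    rw [← mul_inv, ← mul_pow]
    congr 2
    simp
    ring
  rw [h3, h1]
  ring


open PeriodPair in
/-- If all lattice sums of two period lattices agree, the `℘`-functions (with the polar term at `0`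
removed) agree near `0`. -/
theorem jinj_weierstrassPExcept_eventuallyEq (L L' : PeriodPair)
    (h : ∀ k, 3 ≤ k → L.G k = L'.G k) :
    L.weierstrassPExcept 0 =ᶠ[𝓝 0] L'.weierstrassPExcept 0 := by
  have h1 := (L.hasFPowerSeriesAt_weierstrassPExcept 0).eventually_hasSum_sub
  have h2 := (L'.hasFPowerSeriesAt_weierstrassPExcept 0).eventually_hasSum_sub
  have hs : (FormalMultilinearSeries.ofScalars (𝕜 := ℂ) ℂ fun i : ℕ =>
        if i = 0 then L.weierstrassPExcept 0 0 else ((i : ℂ) + 1) * L.sumInvPow 0 (i + 2))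
      = (FormalMultilinearSeries.ofScalars (𝕜 := ℂ) ℂ fun i : ℕ =>
        if i = 0 then L'.weierstrassPExcept 0 0 else ((i : ℂ) + 1) * L'.sumInvPow 0 (i + 2)) := by
    congr 1
    funext i
    by_cases hi : i = 0
    · simp [hi]
    · simp [hi, h (i + 2) (by omega)]
  rw [hs] at h1
  filter_upwards [h1, h2] with z hz1 hz2
  exact hz1.unique hz2

open PeriodPair in
/-- If all lattice sums of two period lattices agree, then `℘[L] = ℘[L']` near `0`. -/
theorem jinj_weierstrassP_eventuallyEq (L L' : PeriodPair)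
    (h : ∀ k, 3 ≤ k → L.G k = L'.G k) :
    L.weierstrassP =ᶠ[𝓝 0] L'.weierstrassP := by
  filter_upwards [jinj_weierstrassPExcept_eventuallyEq L L' h] with z hz
  have e1 := L.weierstrassPExcept_add 0 z
  have e2 := L'.weierstrassPExcept_add 0 z
  simp only [ZeroMemClass.coe_zero] at e1 e2
  rw [← e1, ← e2, hz]

open PeriodPair in
theorem jinj_lattice_le_of_G_eq (L L' : PeriodPair)
    (h : ∀ k, 3 ≤ k → L.G k = L'.G k) : L.lattice ≤ L'.lattice := by
  -- the common domain of analyticity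
  set U : Set ℂ := ((L.lattice : Set ℂ) ∪ (L'.lattice : Set ℂ))ᶜ with hU
  have hUopen : IsOpen U := (L.isClosed_lattice.union L'.isClosed_lattice).isOpen_compl
  have hcount : ((L.lattice : Set ℂ) ∪ (L'.lattice : Set ℂ)).Countable :=
    Set.Countable.union (s := (L.lattice : Set ℂ)) (t := (L'.lattice : Set ℂ))
      (countable_of_Lindelof_of_discrete (X := L.lattice))
      (countable_of_Lindelof_of_discrete (X := L'.lattice))
  have hUconn : IsPreconnected U :=
    (Set.Countable.isConnected_compl_of_one_lt_rank (by simp) hcount).isPreconnected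
  have hanL : AnalyticOnNhd ℂ L.weierstrassP U :=
    L.analyticOnNhd_weierstrassP.mono (Set.compl_subset_compl.mpr Set.subset_union_left)
  have hanL' : AnalyticOnNhd ℂ L'.weierstrassP U :=
    L'.analyticOnNhd_weierstrassP.mono (Set.compl_subset_compl.mpr Set.subset_union_right)
  -- a point of `U` near `0` where the two functions agree on a neighbourhood
  have hev := jinj_weierstrassP_eventuallyEq L L' h
  have hevU : ∀ᶠ z in 𝓝[≠] (0 : ℂ), z ∈ U := by
    have h1 : ∀ᶠ z in 𝓝 (0 : ℂ), z ∈ ((L.lattice : Set ℂ) \ {0})ᶜ :=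
      L.compl_lattice_sdiff_singleton_mem_nhds 0
    have h2 : ∀ᶠ z in 𝓝 (0 : ℂ), z ∈ ((L'.lattice : Set ℂ) \ {0})ᶜ :=
      L'.compl_lattice_sdiff_singleton_mem_nhds 0
    filter_upwards [h1.filter_mono nhdsWithin_le_nhds, h2.filter_mono nhdsWithin_le_nhds,
      self_mem_nhdsWithin] with z hz1 hz2 hz0
    simp only [hU, Set.mem_compl_iff, Set.mem_union, Set.mem_sdiff, Set.mem_singleton_iff,
      not_and, not_not, not_or] at hz1 hz2 ⊢
    exact ⟨fun hz => hz0 (hz1 hz), fun hz => hz0 (hz2 hz)⟩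
  have hev2 : ∀ᶠ z in 𝓝[≠] (0 : ℂ), L.weierstrassP =ᶠ[𝓝 z] L'.weierstrassP :=
    (eventually_eventually_nhds.mpr hev).filter_mono nhdsWithin_le_nhds
  obtain ⟨z₁, hz₁U, hz₁⟩ := (hevU.and hev2).exists
  have hEq : Set.EqOn L.weierstrassP L'.weierstrassP U :=
    hanL.eqOn_of_preconnected_of_eventuallyEq hanL' hUconn hz₁U hz₁
  -- compare poles
  intro l hl
  by_contra hl'
  have hord := L.order_weierstrassP l hl
  have han' : AnalyticAt ℂ L'.weierstrassP l := L'.analyticOnNhd_weierstrassP l hl'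
  have hcongr : L.weierstrassP =ᶠ[𝓝[≠] l] L'.weierstrassP := by
    have h1 : ∀ᶠ z in 𝓝 l, z ∈ ((L.lattice : Set ℂ) \ {l})ᶜ :=
      L.compl_lattice_sdiff_singleton_mem_nhds l
    have h2 : ∀ᶠ z in 𝓝 l, z ∈ (L'.lattice : Set ℂ)ᶜ :=
      L'.isClosed_lattice.isOpen_compl.mem_nhds hl'
    filter_upwards [h1.filter_mono nhdsWithin_le_nhds, h2.filter_mono nhdsWithin_le_nhds,
      self_mem_nhdsWithin] with z hz1 hz2 hz0
    apply hEq
    simp only [hU, Set.mem_compl_iff, Set.mem_union, Set.mem_sdiff, Set.mem_singleton_iff,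
      not_and, not_not, not_or] at hz1 hz2 ⊢
    exact ⟨fun hz => hz0 (hz1 hz), hz2⟩
  have h3 := meromorphicOrderAt_congr hcongr
  rw [hord] at h3
  have h4 := han'.meromorphicOrderAt_nonneg
  rw [← h3] at h4
  exact absurd h4 (by decide)

theorem jinj_lattice_eq_of_G_eq (L L' : PeriodPair)
    (h : ∀ k, 3 ≤ k → L.G k = L'.G k) : L.lattice = L'.lattice :=
  le_antisymm (jinj_lattice_le_of_G_eq L L' h) (jinj_lattice_le_of_G_eq L' L fun k hk => (h k hk).symm)


theorem jinj_int_lin (z : ℍ) (m n : ℤ) (h : (m : ℂ) * z + n = 0) : m = 0 ∧ n = 0 := by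
  have h3 := congrArg Complex.im h
  simp at h3
  have hm : m = 0 := by
    rcases h3 with h3 | h3
    · exact h3
    · exact absurd h3 z.im_pos.ne'
  subst hm
  simp at h
  exact ⟨rfl, h⟩

/-- Two points of the upper half plane whose lattices `ℤ z0 + ℤ` and `c (ℤ z1 + ℤ)` coincide are
`SL(2, ℤ)`-equivalent. -/
theorem jinj_exists_SL2 (z0 z1 : ℍ) (c : ℂ)
    (h1 : ∃ a b : ℤ, (z0 : ℂ) = c * (a * z1 + b))
    (h2 : ∃ p q : ℤ, (1 : ℂ) = c * (p * z1 + q))
    (h3 : ∃ a' b' : ℤ, c * z1 = a' * z0 + b')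
    (h4 : ∃ p' q' : ℤ, c = p' * z0 + q') :
    ∃ g : SL(2, ℤ), g • z0 = z1 := by
  obtain ⟨a, b, h1⟩ := h1
  obtain ⟨p, q, h2⟩ := h2
  obtain ⟨a', b', h3⟩ := h3
  obtain ⟨p', q', h4⟩ := h4
  have hc : c ≠ 0 := by
    rintro rfl
    simp at h2
  -- the two matrices are mutually inverse
  have e1 : ((a * a' + b * p' - 1 : ℤ) : ℂ) * z0 + ((a * b' + b * q' : ℤ) : ℂ) = 0 := by
    push_cast
    linear_combination (-1 : ℂ) * h1 - (a : ℂ) * h3 - (b : ℂ) * h4
  have e2 : ((p * a' + q * p' : ℤ) : ℂ) * z0 + ((p * b' + q * q' - 1 : ℤ) : ℂ) = 0 := by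
    push_cast
    linear_combination (-1 : ℂ) * h2 - (p : ℂ) * h3 - (q : ℂ) * h4
  obtain ⟨e11, e12⟩ := jinj_int_lin z0 _ _ e1
  obtain ⟨e21, e22⟩ := jinj_int_lin z0 _ _ e2
  have hdet : (a * q - b * p) * (a' * q' - b' * p') = 1 := by
    linear_combination (p * b' + q * q') * e11 + e22 - (p * a' + q * p') * e12
  -- positivity of the determinant
  set w : ℂ := p * z1 + q with hw
  have hw0 : w ≠ 0 := by
    intro h0
    rw [h0, mul_zero] at h2
    exact one_ne_zero h2
  have h5 : w * z0 = a * z1 + b := by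
    have : c * (w * z0) = c * (a * z1 + b) := by
      rw [← h1]
      calc c * (w * z0) = (c * w) * z0 := by ring
        _ = z0 := by rw [← h2, one_mul]
    exact mul_left_cancel₀ hc this
  have hRe := congrArg Complex.re h5
  have hIm := congrArg Complex.im h5
  simp only [hw, Complex.mul_re, Complex.mul_im, Complex.add_re, Complex.add_im,
    Complex.intCast_re, Complex.intCast_im, UpperHalfPlane.coe_re, UpperHalfPlane.coe_im,
    zero_mul, sub_zero, add_zero] at hRe hIm
  have h6 : (((p : ℝ) * z1.re + q) ^ 2 + ((p : ℝ) * z1.im) ^ 2) * z0.im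
      = ((a * q - b * p : ℤ) : ℝ) * z1.im := by
    push_cast
    linear_combination ((p : ℝ) * z1.re + q) * hIm - ((p : ℝ) * z1.im) * hRe
  have hnorm : 0 < ((p : ℝ) * z1.re + q) ^ 2 + ((p : ℝ) * z1.im) ^ 2 := by
    have h7 := Complex.normSq_pos.mpr hw0
    rw [Complex.normSq_apply] at h7
    simp only [hw, Complex.mul_re, Complex.mul_im, Complex.add_re, Complex.add_im,
      Complex.intCast_re, Complex.intCast_im, UpperHalfPlane.coe_re, UpperHalfPlane.coe_im,
      zero_mul, sub_zero, add_zero] at h7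
    nlinarith [h7]
  have hpos : (0 : ℝ) < ((a * q - b * p : ℤ) : ℝ) := by
    have hl : 0 < (((p : ℝ) * z1.re + q) ^ 2 + ((p : ℝ) * z1.im) ^ 2) * z0.im :=
      mul_pos hnorm z0.im_pos
    rw [h6] at hl
    exact (pos_iff_pos_of_mul_pos hl).mpr z1.im_pos
  have hpos' : 0 < a * q - b * p := by exact_mod_cast hpos
  have hdet1 : a * q - b * p = 1 := by
    rcases Int.eq_one_or_neg_one_of_mul_eq_one hdet with h | h
    · exact h
    · omega
  -- the matrix
  let γ : SL(2, ℤ) := ⟨!![a, b; p, q], by rw [Matrix.det_fin_two_of]; exact hdet1⟩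
  have hγ : γ • z1 = z0 := by
    apply UpperHalfPlane.ext
    rw [UpperHalfPlane.coe_specialLinearGroup_apply]
    simp only [γ, Matrix.of_apply, Matrix.cons_val_zero,
      Matrix.cons_val_one, Matrix.cons_val', Matrix.cons_val_fin_one]
    rw [div_eq_iff (by simpa [hw] using hw0)]
    simp only [algebraMap_int_eq, Int.coe_castRingHom, Complex.ofReal_intCast]
    rw [← hw]
    linear_combination -h5
  exact ⟨γ⁻¹, by rw [← hγ, inv_smul_smul]⟩


/-- Algebra: equal `j`-invariants means `(E₄, E₆)` differ by a weighted scaling. -/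
theorem jinj_exists_scalar (a b a' b' : ℂ) (h : a ^ 3 * b' ^ 2 = a' ^ 3 * b ^ 2)
    (h0 : a ^ 3 ≠ b ^ 2) (h1 : a' ^ 3 ≠ b' ^ 2) :
    ∃ c : ℂ, c ≠ 0 ∧ a' = c ^ 4 * a ∧ b' = c ^ 6 * b := by
  -- first find `t` with `a' = t² a`, `b' = t³ b`
  obtain ⟨t, ht0, hta, htb⟩ : ∃ t : ℂ, t ≠ 0 ∧ a' = t ^ 2 * a ∧ b' = t ^ 3 * b := by
    by_cases ha : a = 0
    · subst ha
      have hb : b ≠ 0 := by
        rintro rfl
        exact h0 (by simp)
      have ha' : a' = 0 := by
        have : a' ^ 3 * b ^ 2 = 0 := by rw [← h]; simp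
        rcases mul_eq_zero.mp this with h' | h'
        · exact pow_eq_zero_iff (by norm_num) |>.mp h'
        · exact absurd (pow_eq_zero_iff (by norm_num) |>.mp h') hb
      subst ha'
      have hb' : b' ≠ 0 := by
        rintro rfl
        exact h1 (by simp)
      obtain ⟨t, ht⟩ := IsAlgClosed.exists_pow_nat_eq (b' / b) (n := 3) (by norm_num)
      refine ⟨t, ?_, by simp, ?_⟩
      · intro ht0
        rw [ht0] at ht
        have h' : b' / b = 0 := by rw [← ht]; norm_num
        exact div_ne_zero hb' hb h'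
      · rw [ht]; field_simp
    · by_cases hb : b = 0
      · subst hb
        have hb' : b' = 0 := by
          have : a ^ 3 * b' ^ 2 = 0 := by rw [h]; simp
          rcases mul_eq_zero.mp this with h' | h'
          · exact absurd (pow_eq_zero_iff (by norm_num) |>.mp h') ha
          · exact pow_eq_zero_iff (by norm_num) |>.mp h'
        subst hb'
        have ha' : a' ≠ 0 := by
          rintro rfl
          exact h1 (by simp)
        obtain ⟨t, ht⟩ := IsAlgClosed.exists_pow_nat_eq (a' / a) (n := 2) (by norm_num)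
        refine ⟨t, ?_, ?_, by simp⟩
        · intro ht0
          rw [ht0] at ht
          have h' : a' / a = 0 := by rw [← ht]; norm_num
          exact div_ne_zero ha' ha h'
        · rw [ht]; field_simp
      · have ha' : a' ≠ 0 := by
          rintro rfl
          have : a ^ 3 * b' ^ 2 = 0 := by rw [h]; simp
          rcases mul_eq_zero.mp this with h' | h'
          · exact ha (pow_eq_zero_iff (by norm_num) |>.mp h')
          · have hb'0 : b' = 0 := pow_eq_zero_iff (by norm_num) |>.mp h'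
            exact h1 (by rw [hb'0]; simp)
        have hb' : b' ≠ 0 := by
          rintro rfl
          have : a' ^ 3 * b ^ 2 = 0 := by rw [← h]; simp
          rcases mul_eq_zero.mp this with h' | h'
          · exact ha' (pow_eq_zero_iff (by norm_num) |>.mp h')
          · exact hb (pow_eq_zero_iff (by norm_num) |>.mp h')
        refine ⟨b' * a / (b * a'), by positivity, ?_, ?_⟩
        · field_simp
          linear_combination (-1 : ℂ) * h
        · field_simp
          linear_combination (-1 : ℂ) * h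
  obtain ⟨c, hc⟩ := IsAlgClosed.exists_pow_nat_eq t (n := 2) (by norm_num)
  refine ⟨c, ?_, ?_, ?_⟩
  · rintro rfl
    apply ht0
    rw [← hc]
    simp
  · rw [hta, ← hc]; ring
  · rw [htb, ← hc]; ring

/-- Level-one modular forms are isobaric in `(E₄, E₆)`: if `(E₄, E₆)` at `z1` is the weighted
scaling by `c` of `(E₄, E₆)` at `z0`, then every level-one form of weight `k` scales by `c ^ k`. -/
theorem jinj_scaling (z0 z1 : ℍ) (c : ℂ) (hc : c ≠ 0) (h4 : E₄ z1 = c ^ 4 * E₄ z0)
    (h6 : E₆ z1 = c ^ 6 * E₆ z0) :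
    ∀ n : ℕ, ∀ k : ℤ, k < n → ∀ f : ModularForm 𝒮ℒ k, f z1 = c ^ k * f z0 := by
  have hΔ : discriminant z1 = c ^ 12 * discriminant z0 := by
    rw [discriminant_eq_E₄_cube_sub_E₆_sq, discriminant_eq_E₄_cube_sub_E₆_sq, h4, h6]
    ring
  intro n
  induction n with
  | zero =>
    intro k hk f
    have hf := ModularFormClass.levelOne_neg_weight_eq_zero (by exact_mod_cast hk) f
    simp [hf]
  | succ n ih =>
    intro k hk f
    by_cases hk0 : k < 0
    · have hf := ModularFormClass.levelOne_neg_weight_eq_zero hk0 f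
      simp [hf]
    by_cases hodd : Odd k
    · have hf := ModularForm.levelOne_odd_weight_eq_zero hodd f
      simp [hf]
    have heven : Even k := Int.not_odd_iff_even.mp hodd
    by_cases hk00 : k = 0
    · subst hk00
      obtain ⟨c₀, hc₀⟩ := ModularFormClass.levelOne_weight_zero_const f
      simp [hc₀]
    by_cases hk2 : k = 2
    · subst hk2
      have hf : f = 0 := rank_zero_iff_forall_zero.mp ModularForm.levelOne_weight_two_rank_zero f
      simp [hf]
    -- now `k ≥ 4` is even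
    obtain ⟨j, hj⟩ := heven
    have hj2 : 2 ≤ j := by omega
    obtain ⟨a₀, b₀, hab⟩ : ∃ a₀ b₀ : ℕ, (a₀ : ℤ) * 4 + (b₀ : ℤ) * 6 = k := by
      rcases Int.emod_two_eq_zero_or_one j with hj' | hj'
      · exact ⟨(j / 2).toNat, 0, by omega⟩
      · exact ⟨((j - 3) / 2).toNat, 1, by omega⟩
    let m : ModularForm 𝒮ℒ k := ModularForm.mcast hab ((E₄.pow a₀).mul (E₆.pow b₀))
    have hm : ∀ z : ℍ, m z = E₄ z ^ a₀ * E₆ z ^ b₀ := by
      intro z
      simp [m]
    have hm0 : (qExpansion 1 m).coeff 0 = 1 := by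
      simp only [m, ModularForm.qExpansion_mcast,
        ModularForm.qExpansion_mul one_pos one_mem_strictPeriods_SL,
        ModularForm.qExpansion_pow one_pos one_mem_strictPeriods_SL]
      have h4' : PowerSeries.constantCoeff (qExpansion 1 ⇑E₄) = 1 := by
        rw [← PowerSeries.coeff_zero_eq_constantCoeff_apply]
        exact E_qExpansion_coeff_zero _ ⟨2, rfl⟩
      have h6' : PowerSeries.constantCoeff (qExpansion 1 ⇑E₆) = 1 := by
        rw [← PowerSeries.coeff_zero_eq_constantCoeff_apply]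
        exact E_qExpansion_coeff_zero _ ⟨3, rfl⟩
      rw [PowerSeries.coeff_zero_eq_constantCoeff_apply, map_mul, map_pow, map_pow, h4', h6',
        one_pow, one_pow, one_mul]
    obtain ⟨G, hG⟩ := ModularForm.sub_smul_isCuspForm f m hm0
    set c₀ := (qExpansion 1 f).coeff 0 with hc₀
    have hGz : ∀ z : ℍ, G z = f z - c₀ * m z := by
      intro z
      have := congrArg (fun F : ModularForm 𝒮ℒ k => F z) hG
      simpa using this
    let hh : ModularForm 𝒮ℒ (k - 12) := CuspForm.discriminantEquiv G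
    have hhz : ∀ z : ℍ, discriminant z * hh z = f z - c₀ * m z := by
      intro z
      rw [← hGz z]
      exact ModularForm.discriminant_mul_discriminantEquiv_apply G z
    have hIH : hh z1 = c ^ (k - 12) * hh z0 := ih (k - 12) (by omega) hh
    have hmz : m z1 = c ^ k * m z0 := by
      rw [hm, hm, h4, h6, ← hab]
      rw [zpow_add₀ hc, zpow_mul, zpow_mul]
      simp only [zpow_natCast]
      norm_cast
      ring
    have e1 := hhz z1
    have e0 := hhz z0
    rw [hΔ, hIH, hmz] at e1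
    have hck : c ^ k = c ^ 12 * c ^ (k - 12) := by
      rw [← zpow_natCast c 12, ← zpow_add₀ hc]
      congr 1
      ring
    rw [hck] at e1 ⊢
    generalize c ^ (k - 12) = w at e1 ⊢
    linear_combination (-1 : ℂ) * e1 + c ^ 12 * w * e0

/-- **Injectivity of the `j`-invariant on `SL(2, ℤ) \ ℍ`**, stated in cross-multiplied form:
if `E₄(z₀)³ Δ(z₁) = E₄(z₁)³ Δ(z₀)` then `z₁` is an `SL(2, ℤ)`-translate of `z₀`. -/
theorem j_injective
    (z0 z1 : ℍ) (h : E₄ z0 ^ 3 * discriminant z1 = E₄ z1 ^ 3 * discriminant z0) :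
    ∃ g : SL(2, ℤ), g • z0 = z1 := by
  have hΔ0 := discriminant_ne_zero z0
  have hΔ1 := discriminant_ne_zero z1
  have hd0 := discriminant_eq_E₄_cube_sub_E₆_sq z0
  have hd1 := discriminant_eq_E₄_cube_sub_E₆_sq z1
  have hne0 : E₄ z0 ^ 3 ≠ E₆ z0 ^ 2 := by
    intro h'
    apply hΔ0
    rw [hd0, h', sub_self, zero_div]
  have hne1 : E₄ z1 ^ 3 ≠ E₆ z1 ^ 2 := by
    intro h'
    apply hΔ1
    rw [hd1, h', sub_self, zero_div]
  have hrel : E₄ z0 ^ 3 * E₆ z1 ^ 2 = E₄ z1 ^ 3 * E₆ z0 ^ 2 := by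
    rw [hd0, hd1] at h
    linear_combination (-1728 : ℂ) * h
  obtain ⟨c, hc0, hc4, hc6⟩ := jinj_exists_scalar _ _ _ _ hrel hne0 hne1
  -- the two lattices have the same lattice sums
  have hG : ∀ k, 3 ≤ k → (jinjPair z0 1 one_ne_zero).G k = (jinjPair z1 c hc0).G k := by
    intro k hk
    rw [jinj_G_pair z0 1 one_ne_zero hk, jinj_G_pair z1 c hc0 hk]
    have hE : E hk z1 = c ^ k * E hk z0 := by
      have := jinj_scaling z0 z1 c hc0 hc4 hc6 (k + 1) (k : ℤ) (by push_cast; omega) (E hk)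
      simpa only [zpow_natCast] using this
    rw [hE, one_pow]
    have hck : c ^ k ≠ 0 := pow_ne_zero k hc0
    field_simp
  have hlat := jinj_lattice_eq_of_G_eq _ _ hG
  -- unpack the lattice equality
  have m1 : (z0 : ℂ) ∈ (jinjPair z1 c hc0).lattice := by
    rw [← hlat]
    have := (jinjPair z0 1 one_ne_zero).ω₁_mem_lattice
    simpa using this
  have m2 : (1 : ℂ) ∈ (jinjPair z1 c hc0).lattice := by
    rw [← hlat]
    have := (jinjPair z0 1 one_ne_zero).ω₂_mem_lattice
    simpa using this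
  have m3 : c * (z1 : ℂ) ∈ (jinjPair z0 1 one_ne_zero).lattice := by
    rw [hlat]
    have := (jinjPair z1 c hc0).ω₁_mem_lattice
    simpa using this
  have m4 : c ∈ (jinjPair z0 1 one_ne_zero).lattice := by
    rw [hlat]
    have := (jinjPair z1 c hc0).ω₂_mem_lattice
    simpa using this
  rw [PeriodPair.mem_lattice] at m1 m2 m3 m4
  obtain ⟨a, b, e1⟩ := m1
  obtain ⟨p, q, e2⟩ := m2
  obtain ⟨a', b', e3⟩ := m3
  obtain ⟨p', q', e4⟩ := m4
  simp only [jinjPair_ω₁, jinjPair_ω₂, one_mul, mul_one] at e1 e2 e3 e4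
  exact jinj_exists_SL2 z0 z1 c ⟨a, b, by rw [← e1]; ring⟩ ⟨p, q, by rw [← e2]; ring⟩
    ⟨a', b', e3.symm⟩ ⟨p', q', e4.symm⟩

end

end Fermat.Agent.ES
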