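import Fermat.Agent.ES.LCore
import Fermat.Agent.ES.GM
import Fermat.Agent.ES.J.Zeros
import Fermat.Agent.S23.Division

set_option autoImplicit false

/-!
# ES / (L1): division on `Γ₀(N)` and the key property of a GM-basis at every point
-/

namespace Fermat.Agent.ES

open UpperHalfPlane hiding I
open Complex Filter ModularForm ModularFormClass SlashInvariantForm CongruenceSubgroup
open scoped MatrixGroups ModularForm Topology Manifold

noncomputable section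

/-- product rule for the slash action with a level-one factor -/
theorem lkey_levelOne_mul_slash {w k' k : ℤ} (G : ModularForm 𝒮ℒ w) (f : ℍ → ℂ)
    (hk : k = w + k') (γ : SL(2, ℤ)) :
    ((⇑G : ℍ → ℂ) * f) ∣[k] γ = (⇑G : ℍ → ℂ) * (f ∣[k'] γ) := by
  subst hk
  rw [ModularForm.mul_slash_SL2, levelOne_slash_eq]

/-- (L1) division on `Γ₀(N)`: if `F = h · v` with `F` a form on `Γ₀(N)`, `h` of level one with
nonzero limit at `i∞` and `v` holomorphic, then `v` is a modular form on `Γ₀(N)`. -/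
theorem lkey_div_mem_MFun {N : ℕ} [NeZero N] {k w : ℤ} (Fm : ModularForm (Gamma0 N) k)
    (h : ModularForm 𝒮ℒ w) (hl : ∃ l : ℂ, l ≠ 0 ∧ Tendsto h atImInfty (𝓝 l)) (v : ℍ → ℂ)
    (hv : MDiff v) (hFv : ∀ z, Fm z = h z * v z) : v ∈ MFun N (k - w) := by
  obtain ⟨l, hl0, hlim⟩ := hl
  have hfun : (⇑Fm : ℍ → ℂ) = ⇑h * v := funext hFv
  have hh0 : (⇑h : ℍ → ℂ) ≠ 0 := by
    intro h0
    have h1 : Tendsto (fun _ : ℍ => (0 : ℂ)) atImInfty (𝓝 l) := by
      have h2 : (fun _ : ℍ => (0 : ℂ)) = ⇑h := h0.symm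
      rw [h2]
      exact hlim
    exact hl0 (tendsto_nhds_unique h1 tendsto_const_nhds)
  have hslash : ∀ γ : SL(2, ℤ), (⇑Fm : ℍ → ℂ) ∣[k] γ = ⇑h * (v ∣[k - w] γ) := fun γ => by
    rw [hfun]
    exact lkey_levelOne_mul_slash h v (by ring) γ
  refine ⟨{ toFun := v, slash_action_eq' := ?_, holo' := hv, bdd_at_cusps' := ?_ }, rfl⟩
  · rintro g ⟨γ, hγ, rfl⟩
    have h1 : (⇑Fm : ℍ → ℂ) ∣[k] γ = ⇑Fm := slash_action_eqn Fm _ ⟨γ, hγ, rfl⟩
    have h2 := hslash γ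
    rw [h1, hfun] at h2
    have h3 : (v ∣[k - w] γ) - v = 0 := by
      apply Fermat.Agent.S23.eq_zero_of_mul_eq_zero_mdiff (Q := ⇑h) ((hv.slash _ _).sub hv)
        h.holo' hh0
      intro z
      have h4 := congrFun h2 z
      simp only [Pi.mul_apply, Pi.sub_apply] at h4 ⊢
      linear_combination -h4
    exact sub_eq_zero.mp h3
  · intro c hc
    rw [Subgroup.IsArithmetic.isCusp_iff_isCusp_SL2Z] at hc
    rw [OnePoint.isBoundedAt_iff_forall_SL2Z hc]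
    intro γ _
    have h1 : IsBoundedAtImInfty ((⇑Fm : ℍ → ℂ) ∣[k] γ) :=
      ModularFormClass.bdd_at_infty_slash Fm γ
    have h2 : IsBoundedAtImInfty (fun z => (h z)⁻¹) := (hlim.inv₀ hl0).isBigO_one ℝ
    have h3 : ∀ᶠ z in atImInfty, h z ≠ 0 := hlim.eventually_ne hl0
    have h4 : IsBoundedAtImInfty (((⇑Fm : ℍ → ℂ) ∣[k] γ) * fun z => (h z)⁻¹) := h1.mul h2
    refine Asymptotics.IsBigO.congr' h4 ?_ EventuallyEq.rfl
    filter_upwards [h3] with z hz
    rw [hslash γ]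
    simp only [Pi.mul_apply]
    field_simp

/-- conjugates of a combination with level-one coefficients -/
theorem lkey_cj_sum {N : ℕ} [NeZero N] {k : ℤ} (wt : X N → ℕ)
    (F : ∀ x : X N, ModularForm (Gamma0 N) (wt x)) (g : X N → ℍ → ℂ)
    (hg : ∀ i, g i ∈ LFun (k - wt i)) (Fm : ModularForm (Gamma0 N) k)
    (hFm : (⇑Fm : ℍ → ℂ) = ∑ i, g i * ⇑(F i)) (x : X N) :
    cj Fm x = ∑ i, g i * cj (F i) x := by
  induction x using QuotientGroup.induction_on with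
  | H a =>
    obtain ⟨γ, rfl⟩ := toSL.surjective a
    rw [cj_toSL, hFm, SlashAction.sum_slash]
    refine Finset.sum_congr rfl fun i _ => ?_
    obtain ⟨G, hG⟩ := hg i
    rw [cj_toSL, ← hG]
    exact lkey_levelOne_mul_slash G _ (by ring) γ⁻¹

/-- (L1 + GM) the key property of a GM-basis at every point `z0`. -/
theorem keyAt {N : ℕ} [NeZero N] (B : GMBasis N) (z0 : ℍ) (m : ℕ) (g : X N → ℍ → ℂ)
    (hg : ∀ i, g i ∈ LFun (2 * (m : ℤ) - B.wt i))
    (hz : ∀ x, ∑ i, g i z0 * cj (B.F i) x z0 = 0) : ∀ i, g i z0 = 0 := by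
  have hmem : (∑ i, g i * ⇑(B.F i)) ∈ MFun N (2 * (m : ℤ)) := by
    refine Submodule.sum_mem _ fun i _ => ?_
    have h1 := LFun_mul_mem_MFun (hg i) (⟨B.F i, rfl⟩ : (⇑(B.F i) : ℍ → ℂ) ∈ MFun N (B.wt i))
    rwa [sub_add_cancel] at h1
  obtain ⟨Fm, hFm⟩ := hmem
  have hcj := lkey_cj_sum B.wt B.F g hg Fm hFm
  have hvan : ∀ γ : SL(2, ℤ), Fm (γ • z0) = 0 := by
    intro γ
    have h1 : cj Fm (QuotientGroup.mk (toSL γ⁻¹) : X N) z0 = 0 := by
      rw [hcj]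
      simp only [Finset.sum_apply, Pi.mul_apply]
      exact hz _
    rw [cj_toSL, inv_inv, SL_slash_apply] at h1
    exact (mul_eq_zero.mp h1).resolve_right (zpow_ne_zero _ (denom_ne_zero _ _))
  obtain ⟨v, hv, hFv⟩ := exists_eq_hForm_mul z0 Fm.holo' hvan
  have hvmem := lkey_div_mem_MFun Fm (hForm z0) (tendsto_hForm z0) v hv hFv
  obtain ⟨g', hg', hvg'⟩ := B.exists_repr _ v hvmem
  have huniq := B.unique_repr (2 * (m : ℤ)) (fun i => g i - ⇑(hForm z0) * g' i) (fun i => by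
    refine Submodule.sub_mem _ (hg i) ?_
    have h1 := LFun_mul_mem (⟨hForm z0, rfl⟩ : (⇑(hForm z0) : ℍ → ℂ) ∈ LFun (hWeight z0)) (hg' i)
    have h2 : (hWeight z0 : ℤ) + (2 * (m : ℤ) - (hWeight z0 : ℤ) - (B.wt i : ℤ))
        = 2 * (m : ℤ) - (B.wt i : ℤ) := by ring
    rwa [h2] at h1) (by
    have h1 : ∑ i, (g i - ⇑(hForm z0) * g' i) * ⇑(B.F i)
        = (∑ i, g i * ⇑(B.F i)) - ⇑(hForm z0) * ∑ i, g' i * ⇑(B.F i) := by
      rw [Finset.mul_sum, ← Finset.sum_sub_distrib]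
      refine Finset.sum_congr rfl fun i _ => ?_
      ring
    rw [h1, ← hFm, ← hvg']
    funext z
    simp only [Pi.sub_apply, Pi.mul_apply, Pi.zero_apply]
    exact sub_eq_zero.mpr (hFv z))
  intro i
  have h1 := congrFun (huniq i) z0
  simp only [Pi.sub_apply, Pi.mul_apply, Pi.zero_apply] at h1
  have h2 : hForm z0 z0 = 0 := (hForm_eq_zero_iff z0 z0).mpr ⟨1, one_smul _ _⟩
  rw [h2, zero_mul, sub_zero] at h1
  exact h1

end

end Fermat.Agent.ES
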