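import Mathlib
import Fermat.Agent.ES.GM
import Fermat.Agent.ES.LDet
import Fermat.Agent.ES.LKey
import Fermat.Agent.ES.CuspCore

/-!
# Project ES, L5: the order of the conjugate determinant at the cusp (canonical interface)

`tendsto_conjDet_sq`: for a graded basis `B : GMBasis N`, the square of the determinant of
conjugates times `exp(-2πi(|X N| - #cusps)τ)` tends to a nonzero limit at `i∞`.
-/

set_option autoImplicit false

namespace Fermat.Agent.ES

open UpperHalfPlane hiding I
open Complex Filter CongruenceSubgroup ModularForm Asymptotics EisensteinSeries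
open scoped MatrixGroups ModularForm Topology Manifold Real

noncomputable section

namespace L5

theorem discriminant_slash (γ : SL(2, ℤ)) :
    (discriminant : ℍ → ℂ) ∣[(12 : ℤ)] γ = discriminant :=
  SlashInvariantForm.slash_action_generators_SL2Z discriminant_S_invariant
    discriminant_T_invariant γ

theorem mdiff_discriminant : MDiff (discriminant : ℍ → ℂ) := CuspForm.discriminant.holo'

theorem discriminant_mem_LFun : (discriminant : ℍ → ℂ) ∈ LFun 12 :=
  ⟨{ toFun := discriminant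
     slash_action_eq' := by
       rintro _ ⟨γ, rfl⟩
       exact discriminant_slash γ
     holo' := mdiff_discriminant
     bdd_at_cusps' := by
       intro c hc
       rw [OnePoint.isBoundedAt_iff_forall_SL2Z hc]
       intro γ _
       rw [discriminant_slash γ]
       exact discriminant_isZeroAtImInfty.isBoundedAtImInfty }, rfl⟩

theorem tendsto_rexp_atImInfty :
    Tendsto (fun τ : ℍ => Real.exp (-2 * π * τ.im)) atImInfty (𝓝 0) := by
  have h1 : Tendsto (fun τ : ℍ => τ.im) atImInfty atTop := tendsto_comap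
  have h2 : Tendsto (fun τ : ℍ => -2 * π * τ.im) atImInfty atBot :=
    h1.const_mul_atTop_of_neg (by have := Real.pi_pos; linarith)
  exact Real.tendsto_exp_atBot.comp h2

/-- a level one form of even weight `≥ 4` with value `1` at the cusp (an Eisenstein series). -/
theorem exists_LFun_tendsto_one {w : ℤ} (hw : 4 ≤ w) (hev : Even w) :
    ∃ G : ℍ → ℂ, G ∈ LFun w ∧ Tendsto G atImInfty (𝓝 1) ∧
      (fun τ => G τ - 1) =O[atImInfty] fun τ : ℍ => Real.exp (-2 * π * τ.im) := by
  obtain ⟨n, rfl⟩ : ∃ n : ℕ, w = n := ⟨w.toNat, by omega⟩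
  have hn3 : 3 ≤ n := by omega
  have hne : Even n := by exact_mod_cast hev
  have hper := SlashInvariantFormClass.periodic_comp_ofComplex (E hn3) one_mem_strictPeriods_SL
  have : Fact (IsCusp OnePoint.infty (𝒮ℒ : Subgroup (GL (Fin 2) ℝ))) :=
    ⟨Subgroup.isCusp_of_mem_strictPeriods one_pos one_mem_strictPeriods_SL⟩
  have hbdd : IsBoundedAtImInfty (E hn3 : ℍ → ℂ) := ModularFormClass.bdd_at_infty (E hn3)
  have hhol : MDiff (E hn3 : ℍ → ℂ) := ModularFormClass.holo (E hn3)
  have hval : valueAtInfty (E hn3 : ℍ → ℂ) = 1 := by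
    have h1 := UpperHalfPlane.qExpansion_coeff_zero one_pos
      (ModularFormClass.analyticAt_cuspFunction_zero (E hn3) one_pos one_mem_strictPeriods_SL) hper
    rw [← h1, E_qExpansion_coeff_zero hn3 hne]
  have hdecay : (fun τ => (E hn3 : ℍ → ℂ) τ - 1) =O[atImInfty]
      fun τ : ℍ => Real.exp (-2 * π * τ.im) := by
    have h2 := exp_decay_sub_atImInfty one_pos hper hhol hbdd
    rw [hval] at h2
    simpa using h2
  refine ⟨E hn3, ⟨E hn3, rfl⟩, ?_, hdecay⟩
  have h3 : Tendsto (fun τ => (E hn3 : ℍ → ℂ) τ - 1) atImInfty (𝓝 0) :=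
    hdecay.trans_tendsto tendsto_rexp_atImInfty
  have h4 := h3.add_const 1
  simpa using h4

theorem slash_T_apply (k : ℤ) (f : ℍ → ℂ) (τ : ℍ) :
    (f ∣[k] ModularGroup.T) τ = f ((1 : ℝ) +ᵥ τ) := by
  rw [SL_slash_apply, modular_T_smul]
  have h1 : denom ModularGroup.T τ = 1 := by simp [denom, ModularGroup.coe_T]
  rw [h1]
  simp

/-- L1, cusp case: a form on `Γ₀(N)` all of whose conjugates are `O(exp(-2π Im τ))` at `i∞`
is divisible by `Δ`. -/
theorem div_discriminant_form {N : ℕ} [NeZero N] {k : ℤ} (Fm : ModularForm (Gamma0 N) k)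
    (hz : ∀ x : X N, cj Fm x =O[atImInfty] fun τ : ℍ => Real.exp (-2 * Real.pi * τ.im)) :
    ∃ F' ∈ MFun N (k - 12), (⇑Fm : ℍ → ℂ) = discriminant * F' := by
  have hFm : (⇑Fm : ℍ → ℂ) ∈ MFun N k := ⟨Fm, rfl⟩
  refine ⟨⇑Fm / discriminant, GM.mem_MFun_of ?_ (fun γ hγ => ?_) (fun g => ?_), ?_⟩
  · exact (GM.MFun_mdiff hFm).div mdiff_discriminant discriminant_ne_zero
  · rw [div_slash_SL2, GM.MFun_slash hFm hγ, discriminant_slash]
  · rw [div_slash_SL2, discriminant_slash]
    have h1 := hz (QuotientGroup.mk (toSL g⁻¹) : X N)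
    rw [cj_toSL, inv_inv] at h1
    exact (div_isBoundedUnder_of_isBigO (h1.trans exp_isBigO_discriminant)).isBigO_one ℝ
  · funext τ
    simp only [Pi.mul_apply, Pi.div_apply]
    rw [mul_div_cancel₀ _ (discriminant_ne_zero τ)]

/-- Nondegeneracy of a graded basis at the cusp. -/
theorem cusp_nondeg {N : ℕ} [NeZero N] (B : GMBasis N) (c : X N → ℂ)
    (hc : ∀ x : X N, (fun τ : ℍ => ∑ i, c i * cj (B.F i) x τ) =O[atImInfty]
      fun τ : ℍ => Real.exp (-2 * π * τ.im)) : c = 0 := by
  classical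
  set K : ℤ := 2 * (∑ j, (B.wt j : ℤ)) + 4 with hK
  have hKi : ∀ i, 4 ≤ K - B.wt i := by
    intro i
    have h1 : (B.wt i : ℤ) ≤ ∑ j, (B.wt j : ℤ) :=
      Finset.single_le_sum (f := fun j => (B.wt j : ℤ)) (fun j _ => by positivity)
        (Finset.mem_univ i)
    have h3 : (0 : ℤ) ≤ (B.wt i : ℤ) := by positivity
    omega
  have hKe : ∀ i, Even (K - B.wt i) := fun i =>
    (Even.add (even_two_mul _) (by decide)).sub (by exact_mod_cast B.wt_even i)
  choose G hG1 hG2 hG3 using fun i => exists_LFun_tendsto_one (hKi i) (hKe i)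
  have hcjb : ∀ i x, IsBoundedAtImInfty (cj (B.F i) x) :=
    fun i x => Fermat.Agent.S23.bdd_quotientFunc (B.F i) x
  have hgm : ∀ i, c i • G i ∈ LFun (K - B.wt i) := fun i => Submodule.smul_mem _ _ (hG1 i)
  have hFmem : (∑ i, (c i • G i) * ⇑(B.F i)) ∈ MFun N K := Submodule.sum_mem _ fun i _ =>
    GM.MFun_cast (sub_add_cancel K (B.wt i)) (LFun_mul_mem_MFun (hgm i) ⟨B.F i, rfl⟩)
  obtain ⟨Fm, hFm⟩ := hFmem
  have hcjF : ∀ x, cj Fm x = ∑ i, (c i • G i) * cj (B.F i) x :=
    lkey_cj_sum B.wt B.F (fun i => c i • G i) hgm Fm hFm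
  have hz : ∀ x : X N, cj Fm x =O[atImInfty] fun τ : ℍ => Real.exp (-2 * Real.pi * τ.im) := by
    intro x
    have h1 : cj Fm x = (fun τ : ℍ => ∑ i, c i * cj (B.F i) x τ) +
        fun τ : ℍ => ∑ i, c i * ((G i τ - 1) * cj (B.F i) x τ) := by
      rw [hcjF x]
      funext τ
      simp only [Finset.sum_apply, Pi.mul_apply, Pi.smul_apply, Pi.add_apply, smul_eq_mul]
      rw [← Finset.sum_add_distrib]
      exact Finset.sum_congr rfl fun i _ => by ring
    rw [h1]
    refine (hc x).add (IsBigO.fun_sum fun i _ => IsBigO.const_mul_left ?_ _)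
    have h2 := (hG3 i).mul (hcjb i x)
    simpa using h2
  obtain ⟨F', hF'mem, hF'⟩ := div_discriminant_form Fm hz
  obtain ⟨g', hg'mem, hg'⟩ := B.exists_repr (K - 12) F' hF'mem
  have hcomb : ∑ i, (c i • G i - discriminant * g' i) * ⇑(B.F i) = 0 := by
    have h1 : ∑ i, (c i • G i - discriminant * g' i) * ⇑(B.F i) =
        (⇑Fm : ℍ → ℂ) - discriminant * F' := by
      rw [hg', Finset.mul_sum, hFm, ← Finset.sum_sub_distrib]
      exact Finset.sum_congr rfl fun i _ => by ring
    rw [h1, ← hF', sub_self]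
  have hmem : ∀ i, c i • G i - discriminant * g' i ∈ LFun (K - B.wt i) := fun i =>
    Submodule.sub_mem _ (hgm i)
      (GM.LFun_cast (by ring) (LFun_mul_mem discriminant_mem_LFun (hg'mem i)))
  have hzero := B.unique_repr K _ hmem hcomb
  funext i
  have h1 : ∀ τ : ℍ, c i * G i τ = discriminant τ * g' i τ := fun τ => by
    have h2 := congrFun (hzero i) τ
    simpa [sub_eq_zero] using h2
  have hl1 : Tendsto (fun τ : ℍ => c i * G i τ) atImInfty (𝓝 (c i * 1)) := (hG2 i).const_mul _
  have hl2 : Tendsto (fun τ : ℍ => discriminant τ * g' i τ) atImInfty (𝓝 0) := by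
    have hb : g' i =O[atImInfty] (fun _ : ℍ => (1 : ℝ)) := GM.LFun_bdd (hg'mem i)
    have h3 : (discriminant : ℍ → ℂ) =o[atImInfty] (fun _ : ℍ => (1 : ℝ)) :=
      (isLittleO_one_iff ℝ).mpr discriminant_isZeroAtImInfty
    have h4 := h3.mul_isBigO hb
    simp only [mul_one] at h4
    exact (isLittleO_one_iff ℝ).mp h4
  have h5 := tendsto_nhds_unique (hl1.congr h1) hl2
  simpa using h5

end L5

/-- **L5**: the order of the determinant of conjugates at the cusp. -/
theorem tendsto_conjDet_sq {N : ℕ} [NeZero N] (B : GMBasis N) : ∃ l : ℂ, l ≠ 0 ∧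
    Tendsto (fun τ : ℍ => conjDet B.wt B.F τ ^ 2 * Complex.exp (-(2 * π * Complex.I *
      ((Nat.card (X N) : ℂ) - (Nat.card (MulAction.orbitRel.Quotient
        (Subgroup.zpowers ModularGroup.T) (X N)) : ℂ)) * τ))) atImInfty (𝓝 l) := by
  classical
  obtain ⟨L, hL, hlim⟩ := L5.cusp_core (G := SL(2, ℤ)) (X := X N) ModularGroup.T
    (Equiv.refl (X N)) (fun i x => cj (B.F i) x)
    (fun i x => Fermat.Agent.S23.mdiff_quotientFunc (B.F i) x)
    (fun i x => Fermat.Agent.S23.bdd_quotientFunc (B.F i) x)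
    (fun i x τ => by
      have h1 := congrFun (cj_slash (B.F i) ModularGroup.T x) τ
      rwa [L5.slash_T_apply] at h1)
    (fun c hc => L5.cusp_nondeg B c hc)
  refine ⟨L, hL, ?_⟩
  refine hlim.congr fun τ => ?_
  congr 2
  rw [show Nat.card (X N) = Fintype.card (X N) from Nat.card_eq_fintype_card]
  ring

end

end Fermat.Agent.ES
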