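import Mathlib

/-!
# ES / L6: the weight of a nowhere vanishing level-one form is determined by its order at `i∞`

If a level-one modular form `G` of weight `k` has no zero on `ℍ` and `G τ * exp (-2πi n τ)` tends
to a nonzero limit at `i∞`, then `k = 12 n` (compare `G` with `Δ ^ n`: the quotient and its
inverse are level-one modular forms of opposite weights).
-/

set_option autoImplicit false

namespace Fermat.Agent.ES

open UpperHalfPlane hiding I
open Real Complex Filter Function
open ModularForm SlashInvariantForm SlashInvariantFormClass ModularFormClass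
open scoped Manifold MatrixGroups ModularForm Topology

/-- A holomorphic `SL(2, ℤ)`-invariant function of negative weight which is bounded at `i∞`
vanishes. -/
theorem lweight_eq_zero_of_neg {w : ℤ} (hw : w < 0) (F : ℍ → ℂ) (hF : MDiff F)
    (hinv : ∀ γ : SL(2, ℤ), F ∣[w] γ = F) (hb : IsBoundedAtImInfty F) : F = 0 := by
  let M : ModularForm 𝒮ℒ w :=
    { toFun := F
      slash_action_eq' := by
        rintro _ ⟨γ, rfl⟩
        have := hinv γ
        rwa [SL_slash] at this
      holo' := hF
      bdd_at_cusps' := by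
        intro c hc
        rw [OnePoint.isBoundedAt_iff_forall_SL2Z hc]
        intro γ _
        rw [hinv γ]
        exact hb }
  exact levelOne_neg_weight_eq_zero hw M

/-- The transformation rule of a level-one form, pointwise. -/
theorem lweight_smul_apply {F : Type*} [FunLike F ℍ ℂ] {k : ℤ} [SlashInvariantFormClass F 𝒮ℒ k]
    (f : F) (γ : SL(2, ℤ)) (z : ℍ) : f (γ • z) = denom γ z ^ k * f z := by
  have hγ : (γ : GL (Fin 2) ℝ) ∈ 𝒮ℒ := ⟨γ, rfl⟩
  have h0 : (f : ℍ → ℂ) ∣[k] γ = f := by
    rw [SL_slash, slash_action_eqn _ _ hγ]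
  have h := congrFun h0 z
  rw [SL_slash_apply] at h
  have hd : denom γ z ≠ 0 := denom_ne_zero γ z
  rw [← h, mul_comm (denom γ z ^ k), mul_assoc, ← zpow_add₀ hd]
  simp

/-- `Δ τ * exp (-2πi τ)` tends to `1` at `i∞`. -/
theorem lweight_tendsto_discriminant :
    Tendsto (fun τ : ℍ => ModularForm.discriminant τ * cexp (-(2 * π * I * τ))) atImInfty
      (𝓝 1) := by
  refine ModularForm.tendsto_atImInfty_tprod_one_sub_eta_q_pow.congr fun τ => ?_
  rw [ModularForm.discriminant_eq_q_prod]
  have h1 : Periodic.qParam 1 (τ : ℂ) * cexp (-(2 * π * I * τ)) = 1 := by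
    rw [Periodic.qParam, ← Complex.exp_add]
    simp
  rw [mul_right_comm, h1, one_mul]

/-- The weight of a nowhere vanishing level-one modular form is `12` times its order at `i∞`. -/
theorem weight_eq_of_tendsto {k : ℤ} (G : ModularForm 𝒮ℒ k) (hG : ∀ τ : ℍ, G τ ≠ 0) (n : ℕ)
    (l : ℂ) (hl : l ≠ 0)
    (hlim : Tendsto (fun τ : ℍ => G τ * Complex.exp (-(2 * π * Complex.I * n * τ))) atImInfty
      (𝓝 l)) : k = 12 * n := by
  have hΔ0 : ∀ τ : ℍ, ModularForm.discriminant τ ≠ 0 := ModularForm.discriminant_ne_zero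
  -- the quotient and its limit
  have hQlim : Tendsto (fun τ : ℍ => G τ / ModularForm.discriminant τ ^ n) atImInfty (𝓝 l) := by
    have h := hlim.div (lweight_tendsto_discriminant.pow n) (by simp)
    rw [one_pow, div_one] at h
    refine h.congr fun τ => ?_
    have he : cexp (-(2 * π * I * τ)) ^ n = cexp (-(2 * π * I * n * τ)) := by
      rw [← Complex.exp_nat_mul]
      congr 1
      ring
    show G τ * cexp (-(2 * π * I * n * τ)) /
      (ModularForm.discriminant τ * cexp (-(2 * π * I * τ))) ^ n = _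
    rw [mul_pow, he]
    have hne : cexp (-(2 * π * I * n * τ)) ≠ 0 := Complex.exp_ne_zero _
    field_simp
  have hRlim : Tendsto (fun τ : ℍ => ModularForm.discriminant τ ^ n / G τ) atImInfty
      (𝓝 l⁻¹) := by
    refine (hQlim.inv₀ hl).congr fun τ => ?_
    rw [inv_div]
  -- holomorphy
  have hGd : DifferentiableOn ℂ ((G : ℍ → ℂ) ∘ ofComplex) upperHalfPlaneSet :=
    UpperHalfPlane.mdifferentiable_iff.mp (ModularFormClass.holo G)
  have hΔd : DifferentiableOn ℂ ((ModularForm.discriminant : ℍ → ℂ) ∘ ofComplex)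
      upperHalfPlaneSet :=
    UpperHalfPlane.mdifferentiable_iff.mp (ModularFormClass.holo CuspForm.discriminant)
  have hQd : MDiff (fun τ : ℍ => G τ / ModularForm.discriminant τ ^ n) := by
    rw [UpperHalfPlane.mdifferentiable_iff]
    refine (hGd.div (hΔd.pow n) fun z hz => ?_).congr fun z hz => ?_
    · exact pow_ne_zero n (hΔ0 _)
    · simp
  have hRd : MDiff (fun τ : ℍ => ModularForm.discriminant τ ^ n / G τ) := by
    rw [UpperHalfPlane.mdifferentiable_iff]
    refine ((hΔd.pow n).div hGd fun z hz => ?_).congr fun z hz => ?_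
    · exact hG _
    · simp
  -- invariance
  have hpow : ∀ (γ : SL(2, ℤ)) (z : ℍ), ModularForm.discriminant (γ • z) ^ n =
      denom γ z ^ (12 * (n : ℤ)) * ModularForm.discriminant z ^ n := by
    intro γ z
    have h := lweight_smul_apply CuspForm.discriminant γ z
    rw [CuspForm.coe_discriminant] at h
    rw [h, mul_pow, ← zpow_natCast, ← zpow_mul]
  have hQinv : ∀ γ : SL(2, ℤ),
      (fun τ : ℍ => G τ / ModularForm.discriminant τ ^ n) ∣[k - 12 * (n : ℤ)] γ =
        fun τ : ℍ => G τ / ModularForm.discriminant τ ^ n := by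
    intro γ
    ext z
    rw [SL_slash_apply, hpow, lweight_smul_apply G γ z]
    have hd : denom γ z ≠ 0 := denom_ne_zero γ z
    have e : denom γ z ^ (-(k - 12 * (n : ℤ))) = denom γ z ^ (12 * (n : ℤ)) / denom γ z ^ k := by
      rw [neg_sub, zpow_sub₀ hd]
    rw [e]
    have h1 : denom γ z ^ k ≠ 0 := zpow_ne_zero _ hd
    have h2 : denom γ z ^ (12 * (n : ℤ)) ≠ 0 := zpow_ne_zero _ hd
    have h3 : ModularForm.discriminant z ^ n ≠ 0 := pow_ne_zero n (hΔ0 z)
    field_simp
  have hRinv : ∀ γ : SL(2, ℤ),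
      (fun τ : ℍ => ModularForm.discriminant τ ^ n / G τ) ∣[12 * (n : ℤ) - k] γ =
        fun τ : ℍ => ModularForm.discriminant τ ^ n / G τ := by
    intro γ
    ext z
    rw [SL_slash_apply, hpow, lweight_smul_apply G γ z]
    have hd : denom γ z ≠ 0 := denom_ne_zero γ z
    have e : denom γ z ^ (-(12 * (n : ℤ) - k)) = denom γ z ^ k / denom γ z ^ (12 * (n : ℤ)) := by
      rw [neg_sub, zpow_sub₀ hd]
    rw [e]
    have h1 : denom γ z ^ k ≠ 0 := zpow_ne_zero _ hd
    have h2 : denom γ z ^ (12 * (n : ℤ)) ≠ 0 := zpow_ne_zero _ hd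
    have h3 : G z ≠ 0 := hG z
    field_simp
  -- conclusion
  rcases lt_trichotomy k (12 * (n : ℤ)) with hlt | heq | hgt
  · exfalso
    have h0 := lweight_eq_zero_of_neg (w := k - 12 * (n : ℤ)) (by omega) _ hQd hQinv
      (hQlim.isBigO_one ℝ)
    have h1 := congrFun h0 UpperHalfPlane.I
    simp only [Pi.zero_apply, div_eq_zero_iff] at h1
    rcases h1 with h1 | h1
    · exact hG _ h1
    · exact pow_ne_zero n (hΔ0 _) h1
  · exact heq
  · exfalso
    have h0 := lweight_eq_zero_of_neg (w := 12 * (n : ℤ) - k) (by omega) _ hRd hRinv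
      (hRlim.isBigO_one ℝ)
    have h1 := congrFun h0 UpperHalfPlane.I
    simp only [Pi.zero_apply, div_eq_zero_iff] at h1
    rcases h1 with h1 | h1
    · exact pow_ne_zero n (hΔ0 _) h1
    · exact hG _ h1

end Fermat.Agent.ES
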