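import Fermat.Agent.ES.LCount
import Fermat.Agent.ES.LDet
import Fermat.Agent.ES.LWeight

set_option autoImplicit false

/-!
# ES / (L): exports of the local analysis

* `two_mul_card_even` (L3), `three_mul_card_mod3` (L4);
* `GMBasis.conjDet_ne_zero` (L2–L4): the determinant of conjugates vanishes nowhere;
* `GMBasis.sum_wt` (L6): `∑ wt = 6 (|X| - #T-orbits)`, given the asymptotics (L5) of the
  determinant at `i∞`.
-/

namespace Fermat.Agent.ES

open UpperHalfPlane hiding I
open Real Complex Filter ModularForm ModularFormClass SlashInvariantForm CongruenceSubgroup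
open scoped MatrixGroups ModularForm Topology Manifold

noncomputable section

variable {N : ℕ} [NeZero N]

/-- (L3) in the shape used by the counting argument. -/
theorem two_mul_card_even (B : GMBasis N) :
    2 * (Finset.univ.filter fun i => (B.wt i / 2) % 2 = 0).card =
      Nat.card (X N) + Nat.card (MulAction.fixedBy (X N) ModularGroup.S) :=
  B.two_mul_card_even

/-- (L4) in the shape used by the counting argument. -/
theorem three_mul_card_mod3 (B : GMBasis N) :
    3 * (Finset.univ.filter fun i => (B.wt i / 2) % 3 = 0).card =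
        Nat.card (X N) + 2 * Nat.card (MulAction.fixedBy (X N) (ModularGroup.S * ModularGroup.T)) ∧
    3 * (Finset.univ.filter fun i => (B.wt i / 2) % 3 = 1).card +
        Nat.card (MulAction.fixedBy (X N) (ModularGroup.S * ModularGroup.T)) = Nat.card (X N) ∧
    3 * (Finset.univ.filter fun i => (B.wt i / 2) % 3 = 2).card +
        Nat.card (MulAction.fixedBy (X N) (ModularGroup.S * ModularGroup.T)) = Nat.card (X N) :=
  B.three_mul_card_mod3

/-- the determinant of conjugates of a GM-basis vanishes nowhere on `ℍ`. -/
theorem GMBasis.conjDet_ne_zero (B : GMBasis N) (τ : ℍ) : conjDet B.wt B.F τ ≠ 0 := by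
  classical
  have h := B.linearIndependent_conj τ
  have h2 : LinearIndependent ℂ (conjMatrix B.wt B.F τ).row := h
  rw [Matrix.linearIndependent_rows_iff_isUnit, Matrix.isUnit_iff_isUnit_det] at h2
  exact h2.ne_zero

omit [NeZero N] in
theorem card_orbits_T_le [NeZero N] :
    Nat.card (MulAction.orbitRel.Quotient (Subgroup.zpowers ModularGroup.T) (X N)) ≤
      Nat.card (X N) :=
  Nat.card_le_card_of_surjective (Quotient.mk _) Quotient.mk_surjective

/-- (L6) the sum of the weights of a GM-basis, given the asymptotics (L5) of the determinant of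
conjugates at `i∞`. -/
theorem GMBasis.sum_wt (B : GMBasis N)
    (hL5 : ∃ l : ℂ, l ≠ 0 ∧ Tendsto (fun τ : ℍ => conjDet B.wt B.F τ ^ 2 *
      Complex.exp (-(2 * π * Complex.I * ((Nat.card (X N) : ℂ) -
        (Nat.card (MulAction.orbitRel.Quotient (Subgroup.zpowers ModularGroup.T) (X N)) : ℂ))
          * τ))) atImInfty (𝓝 l)) :
    ∑ i, (B.wt i : ℤ) = 6 * ((Nat.card (X N) : ℤ) -
      Nat.card (MulAction.orbitRel.Quotient (Subgroup.zpowers ModularGroup.T) (X N))) := by
  obtain ⟨l, hl, hlim⟩ := hL5
  obtain ⟨G, hG⟩ := exists_conjDet_sq_form B.wt B.F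
  have hc : Nat.card (MulAction.orbitRel.Quotient (Subgroup.zpowers ModularGroup.T) (X N)) ≤
      Nat.card (X N) := card_orbits_T_le
  have hk := weight_eq_of_tendsto G (fun τ => by
    rw [hG]
    exact pow_ne_zero 2 (B.conjDet_ne_zero τ))
    (Nat.card (X N) -
      Nat.card (MulAction.orbitRel.Quotient (Subgroup.zpowers ModularGroup.T) (X N))) l hl (by
    refine hlim.congr fun τ => ?_
    rw [hG, Nat.cast_sub hc])
  rw [Nat.cast_sub hc] at hk
  push_cast at hk
  linarith

end

end Fermat.Agent.ES
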