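import Mathlib

/-!
# Core lemmas for the combinatorics of `SL(2, ℤ) ⧸ Γ₀(N)`

A left coset `g Γ₀(N)` is determined by the first column of `g` modulo `N`, up to a unit of
`ZMod N`; every unimodular column modulo `N` occurs.
-/

set_option autoImplicit false

namespace Fermat.Agent.ES

open Matrix MatrixGroups

/-- Two elements of `SL(2, ℤ)` define the same left coset of `Γ₀(N)` iff their first columns are
proportional modulo `N`. -/
theorem xcore_mk_eq_iff (N : ℕ) (g h : SL(2, ℤ)) :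
    (QuotientGroup.mk g : SL(2, ℤ) ⧸ CongruenceSubgroup.Gamma0 N) = QuotientGroup.mk h ↔
      ((g 0 0 : ℤ) : ZMod N) * ((h 1 0 : ℤ) : ZMod N) =
        ((g 1 0 : ℤ) : ZMod N) * ((h 0 0 : ℤ) : ZMod N) := by
  rw [QuotientGroup.eq, CongruenceSubgroup.Gamma0_mem]
  have key : ((g⁻¹ * h : SL(2, ℤ)) 1 0 : ℤ) = g 0 0 * h 1 0 - g 1 0 * h 0 0 := by
    rw [Matrix.SpecialLinearGroup.coe_mul, Matrix.SpecialLinearGroup.SL2_inv_expl,
      Matrix.mul_apply, Fin.sum_univ_two]
    simp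
    ring
  rw [key]
  push_cast
  rw [sub_eq_zero]

/-- Proportional unimodular columns differ by a unit. -/
theorem xcore_exists_unit (N : ℕ) (x y x' y' : ZMod N) (h : ∃ r s : ZMod N, r * x + s * y = 1)
    (h' : ∃ r s : ZMod N, r * x' + s * y' = 1) (hc : x * y' = y * x') :
    ∃ u : (ZMod N)ˣ, x' = u * x ∧ y' = u * y := by
  obtain ⟨r, s, hrs⟩ := h
  obtain ⟨r', s', hrs'⟩ := h'
  obtain ⟨u, hu⟩ : ∃ u : ZMod N, u = r * x' + s * y' := ⟨_, rfl⟩
  obtain ⟨u', hu'⟩ : ∃ u' : ZMod N, u' = r' * x + s' * y := ⟨_, rfl⟩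
  have hux : u * x = x' := by rw [hu]; linear_combination s * hc + x' * hrs
  have huy : u * y = y' := by rw [hu]; linear_combination (-r) * hc + y' * hrs
  have hux' : u' * x' = x := by rw [hu']; linear_combination (-s') * hc + x * hrs'
  have huy' : u' * y' = y := by rw [hu']; linear_combination r' * hc + y * hrs'
  have huu : u * u' = 1 := by
    calc u * u' = u * u' * (r' * x' + s' * y') := by rw [hrs', mul_one]
      _ = r' * (u * (u' * x')) + s' * (u * (u' * y')) := by ring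
      _ = 1 := by rw [hux', huy', hux, huy, hrs']
  exact ⟨⟨u, u', huu, by rw [mul_comm]; exact huu⟩, hux.symm, huy.symm⟩

/-- A residue prime to `gcd c N` has a representative modulo `N` which is prime to `c`. -/
theorem xcore_exists_coprime_lift (x N c : ℕ) (hc : c ≠ 0) (h : Nat.Coprime x (Nat.gcd N c)) :
    ∃ a : ℕ, a ≡ x [MOD N] ∧ Nat.Coprime a c := by
  have : NeZero c := ⟨hc⟩
  have hg : Nat.gcd N c ∣ c := Nat.gcd_dvd_right N c
  obtain ⟨r, hr⟩ := ZMod.unitsMap_surjective hg (ZMod.unitOfCoprime x h)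
  have hr' : (((r : ZMod c).val : ℕ) : ZMod (Nat.gcd N c)) = (x : ZMod (Nat.gcd N c)) := by
    have := congrArg (fun u : (ZMod (Nat.gcd N c))ˣ => (u : ZMod (Nat.gcd N c))) hr
    simp only [ZMod.unitsMap_def, Units.coe_map, MonoidHom.coe_coe, ZMod.coe_unitOfCoprime] at this
    rw [← this, ZMod.natCast_val]
    rfl
  have hmod : x ≡ (r : ZMod c).val [MOD Nat.gcd N c] :=
    ((ZMod.natCast_eq_natCast_iff _ _ _).mp hr').symm
  obtain ⟨a, ha1, ha2⟩ := Nat.chineseRemainder' hmod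
  refine ⟨a, ha1, ?_⟩
  have hcop : Nat.Coprime (r : ZMod c).val c := ZMod.val_coe_unit_coprime r
  rw [Nat.Coprime, ha2.gcd_eq]
  exact hcop

/-- Every unimodular column modulo `N` is the first column of an element of `SL(2, ℤ)`. -/
theorem xcore_exists_col (N : ℕ) [NeZero N] (x y : ZMod N)
    (hxy : ∃ r s : ZMod N, r * x + s * y = 1) :
    ∃ g : SL(2, ℤ), ((g 0 0 : ℤ) : ZMod N) = x ∧ ((g 1 0 : ℤ) : ZMod N) = y := by
  obtain ⟨r, s, hrs⟩ := hxy
  -- a positive representative `c` of `y`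
  obtain ⟨c, hc0, hcy⟩ : ∃ c : ℕ, c ≠ 0 ∧ (c : ZMod N) = y := by
    by_cases hy : y.val = 0
    · refine ⟨N, NeZero.ne N, ?_⟩
      rw [ZMod.natCast_self]
      exact ((ZMod.val_eq_zero y).mp hy).symm
    · exact ⟨y.val, hy, ZMod.natCast_zmod_val y⟩
  have hcop : Nat.Coprime x.val (Nat.gcd N c) := by
    rw [Nat.coprime_iff_gcd_eq_one]
    set p := Nat.gcd x.val (Nat.gcd N c) with hp
    have hpN : p ∣ N := dvd_trans (Nat.gcd_dvd_right _ _) (Nat.gcd_dvd_left _ _)
    have hpc : p ∣ c := dvd_trans (Nat.gcd_dvd_right _ _) (Nat.gcd_dvd_right _ _)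
    have hpx : p ∣ x.val := Nat.gcd_dvd_left _ _
    have hx0 : ZMod.castHom hpN (ZMod p) x = 0 := by
      rw [← ZMod.natCast_zmod_val x, map_natCast]
      exact (ZMod.natCast_eq_zero_iff _ _).mpr hpx
    have hy0 : ZMod.castHom hpN (ZMod p) y = 0 := by
      rw [← hcy, map_natCast]
      exact (ZMod.natCast_eq_zero_iff _ _).mpr hpc
    have h1 := congrArg (ZMod.castHom hpN (ZMod p)) hrs
    rw [map_add, map_mul, map_mul, hx0, hy0, mul_zero, mul_zero, add_zero, map_one] at h1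
    have h1' : ((1 : ℕ) : ZMod p) = 0 := by rw [Nat.cast_one]; exact h1.symm
    exact Nat.dvd_one.mp ((ZMod.natCast_eq_zero_iff _ _).mp h1')
  obtain ⟨a, ha, hac⟩ := xcore_exists_coprime_lift x.val N c hc0 hcop
  have hax : (a : ZMod N) = x := by
    rw [(ZMod.natCast_eq_natCast_iff _ _ _).mpr ha, ZMod.natCast_zmod_val]
  obtain ⟨u, v, huv⟩ := (Nat.isCoprime_iff_coprime.mpr hac)
  refine ⟨⟨!![(a : ℤ), -v; (c : ℤ), u], ?_⟩, ?_, ?_⟩
  · rw [Matrix.det_fin_two_of]
    linear_combination huv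
  · simpa using hax
  · simpa using hcy

end Fermat.Agent.ES
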