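import Mathlib
import Fermat.Prelude.Def_ModularCurve_GenusNumerics
import Fermat.Agent.ES.XCore

/-!
# Counting on `SL(2, ℤ) ⧸ Γ₀(N)`

The number of cosets is `dedekindPsi N`, the number of fixed points of `S` is `nuTwo N` and the
number of fixed points of `S * T` is `nuThree N`.
-/

set_option autoImplicit false

namespace Fermat.Agent.ES

open Matrix MatrixGroups

/-- The first column of an element of `SL(2, ℤ)` is unimodular modulo `N`. -/
theorem xcount_unimod (N : ℕ) (g : SL(2, ℤ)) :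
    ∃ r s : ZMod N, r * ((g 0 0 : ℤ) : ZMod N) + s * ((g 1 0 : ℤ) : ZMod N) = 1 := by
  refine ⟨((g 1 1 : ℤ) : ZMod N), -((g 0 1 : ℤ) : ZMod N), ?_⟩
  have hdet : (g 0 0 : ℤ) * g 1 1 - g 0 1 * g 1 0 = 1 := by
    have := g.det_coe
    rw [Matrix.det_fin_two] at this
    exact this
  have := congrArg (Int.cast : ℤ → ZMod N) hdet
  push_cast at this
  linear_combination this

/-- The fixed-point condition in terms of the first column. -/
theorem xcount_mem_fixedBy_iff (N : ℕ) (h g : SL(2, ℤ)) :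
    (QuotientGroup.mk g : SL(2, ℤ) ⧸ CongruenceSubgroup.Gamma0 N) ∈ MulAction.fixedBy _ h ↔
      (((h 0 0 : ℤ) : ZMod N) * ((g 0 0 : ℤ) : ZMod N) +
          ((h 0 1 : ℤ) : ZMod N) * ((g 1 0 : ℤ) : ZMod N)) * ((g 1 0 : ℤ) : ZMod N) =
        (((h 1 0 : ℤ) : ZMod N) * ((g 0 0 : ℤ) : ZMod N) +
          ((h 1 1 : ℤ) : ZMod N) * ((g 1 0 : ℤ) : ZMod N)) * ((g 0 0 : ℤ) : ZMod N) := by
  rw [MulAction.mem_fixedBy, MulAction.Quotient.smul_mk, smul_eq_mul, xcore_mk_eq_iff]
  have e0 : ((h * g : SL(2, ℤ)) 0 0 : ℤ) = h 0 0 * g 0 0 + h 0 1 * g 1 0 := by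
    rw [Matrix.SpecialLinearGroup.coe_mul, Matrix.mul_apply, Fin.sum_univ_two]
  have e1 : ((h * g : SL(2, ℤ)) 1 0 : ℤ) = h 1 0 * g 0 0 + h 1 1 * g 1 0 := by
    rw [Matrix.SpecialLinearGroup.coe_mul, Matrix.mul_apply, Fin.sum_univ_two]
  rw [e0, e1]
  push_cast
  rfl

/-- Fixed points of an element with lower left entry `1` correspond to the roots of a monic
quadratic polynomial. -/
theorem xcount_fixedBy_aux (N : ℕ) [NeZero N] (h : SL(2, ℤ)) (B C : ZMod N)
    (h10 : ((h 1 0 : ℤ) : ZMod N) = 1)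
    (hB : B = ((h 1 1 : ℤ) : ZMod N) - ((h 0 0 : ℤ) : ZMod N))
    (hC : C = -((h 0 1 : ℤ) : ZMod N)) :
    Nat.card (MulAction.fixedBy (SL(2, ℤ) ⧸ CongruenceSubgroup.Gamma0 N) h) =
      Nat.card {u : ZMod N // u ^ 2 + B * u + C = 0} := by
  symm
  have hex : ∀ u : ZMod N, ∃ g : SL(2, ℤ),
      ((g 0 0 : ℤ) : ZMod N) = u ∧ ((g 1 0 : ℤ) : ZMod N) = 1 :=
    fun u => xcore_exists_col N u 1 ⟨0, 1, by ring⟩
  choose G hG0 hG1 using hex
  have hmem : ∀ u : {u : ZMod N // u ^ 2 + B * u + C = 0},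
      (QuotientGroup.mk (G u) : SL(2, ℤ) ⧸ CongruenceSubgroup.Gamma0 N) ∈
        MulAction.fixedBy _ h := by
    intro u
    rw [xcount_mem_fixedBy_iff, hG0, hG1, h10]
    have hu : (u : ZMod N) ^ 2 + (((h 1 1 : ℤ) : ZMod N) - ((h 0 0 : ℤ) : ZMod N)) * u +
        -((h 0 1 : ℤ) : ZMod N) = 0 := by
      rw [← hB, ← hC]
      exact u.2
    linear_combination -hu
  refine Nat.card_eq_of_bijective (fun u => ⟨QuotientGroup.mk (G u), hmem u⟩) ⟨?_, ?_⟩
  · intro u u' huu
    have h1 := congrArg Subtype.val huu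
    simp only at h1
    rw [xcore_mk_eq_iff, hG0, hG1, hG0, hG1] at h1
    exact Subtype.ext (by simpa using h1)
  · rintro ⟨x, hx⟩
    obtain ⟨g, rfl⟩ := QuotientGroup.mk_surjective x
    obtain ⟨r, s, hrs⟩ := xcount_unimod N g
    rw [xcount_mem_fixedBy_iff, h10] at hx
    obtain ⟨a, ha⟩ : ∃ a : ZMod N, a = ((g 0 0 : ℤ) : ZMod N) := ⟨_, rfl⟩
    obtain ⟨c, hc⟩ : ∃ c : ZMod N, c = ((g 1 0 : ℤ) : ZMod N) := ⟨_, rfl⟩
    rw [← ha, ← hc] at hx hrs
    have hq : a ^ 2 + B * a * c + C * c ^ 2 = 0 := by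
      rw [hB, hC]
      linear_combination -hx
    obtain ⟨ci, hci⟩ : ∃ ci, c * ci = 1 :=
      ⟨-r ^ 2 * B * a - r ^ 2 * C * c + 2 * r * s * a + s ^ 2 * c, by
        linear_combination (r * a + s * c + 1) * hrs - r ^ 2 * hq⟩
    have hu : (a * ci) ^ 2 + B * (a * ci) + C = 0 := by
      linear_combination ci ^ 2 * hq - (B * a * ci + C * (1 + c * ci)) * hci
    refine ⟨⟨a * ci, hu⟩, ?_⟩
    apply Subtype.ext
    simp only
    rw [xcore_mk_eq_iff, hG0, hG1, ← ha, ← hc]
    linear_combination a * hci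

/-- The number of fixed points of `S` on `SL(2, ℤ) ⧸ Γ₀(N)` is `nuTwo N`. -/
theorem xcount_fixedBy_S (N : ℕ) [NeZero N] :
    Nat.card (MulAction.fixedBy (SL(2, ℤ) ⧸ CongruenceSubgroup.Gamma0 N) ModularGroup.S) =
      ModularCurve.nuTwo N := by
  rw [xcount_fixedBy_aux N ModularGroup.S 0 1 (by simp [ModularGroup.S])
    (by simp [ModularGroup.S]) (by simp [ModularGroup.S]), ModularCurve.nuTwo]
  exact Nat.card_congr (Equiv.subtypeEquivRight fun u => by simp)

/-- The number of fixed points of `S * T` on `SL(2, ℤ) ⧸ Γ₀(N)` is `nuThree N`. -/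
theorem xcount_fixedBy_ST (N : ℕ) [NeZero N] :
    Nat.card (MulAction.fixedBy (SL(2, ℤ) ⧸ CongruenceSubgroup.Gamma0 N)
      (ModularGroup.S * ModularGroup.T)) = ModularCurve.nuThree N := by
  have e00 : ((ModularGroup.S * ModularGroup.T : SL(2, ℤ)) 0 0 : ℤ) = 0 := by
    rw [Matrix.SpecialLinearGroup.coe_mul, Matrix.mul_apply, Fin.sum_univ_two]
    simp [ModularGroup.S, ModularGroup.T]
  have e01 : ((ModularGroup.S * ModularGroup.T : SL(2, ℤ)) 0 1 : ℤ) = -1 := by
    rw [Matrix.SpecialLinearGroup.coe_mul, Matrix.mul_apply, Fin.sum_univ_two]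
    simp [ModularGroup.S, ModularGroup.T]
  have e10 : ((ModularGroup.S * ModularGroup.T : SL(2, ℤ)) 1 0 : ℤ) = 1 := by
    rw [Matrix.SpecialLinearGroup.coe_mul, Matrix.mul_apply, Fin.sum_univ_two]
    simp [ModularGroup.S, ModularGroup.T]
  have e11 : ((ModularGroup.S * ModularGroup.T : SL(2, ℤ)) 1 1 : ℤ) = 1 := by
    rw [Matrix.SpecialLinearGroup.coe_mul, Matrix.mul_apply, Fin.sum_univ_two]
    simp [ModularGroup.S, ModularGroup.T]
  rw [xcount_fixedBy_aux N _ 1 1 (by rw [e10]; simp) (by rw [e11, e00]; simp)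
    (by rw [e01]; simp), ModularCurve.nuThree]
  exact Nat.card_congr (Equiv.subtypeEquivRight fun u => by simp)

/-! ### The number of cosets -/

/-- Unimodular pairs over a commutative ring. -/
abbrev XCountPairs (R : Type*) [CommRing R] : Type _ := {v : R × R // IsCoprime v.1 v.2}

/-- Unimodular pairs modulo `N` are the unit multiples of the first columns of a set of coset
representatives. -/
theorem xcount_card_pairs (N : ℕ) [NeZero N] :
    Nat.card (XCountPairs (ZMod N)) =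
      Nat.card (SL(2, ℤ) ⧸ CongruenceSubgroup.Gamma0 N) * Nat.totient N := by
  have hφ : Nat.card (ZMod N)ˣ = Nat.totient N := by
    rw [Nat.card_eq_fintype_card, ZMod.card_units_eq_totient]
  rw [← hφ, ← Nat.card_prod]
  symm
  obtain ⟨a, ha⟩ : ∃ a : (SL(2, ℤ) ⧸ CongruenceSubgroup.Gamma0 N) → ZMod N,
      a = fun x => (((Quotient.out x : SL(2, ℤ)) 0 0 : ℤ) : ZMod N) := ⟨_, rfl⟩
  obtain ⟨c, hc⟩ : ∃ c : (SL(2, ℤ) ⧸ CongruenceSubgroup.Gamma0 N) → ZMod N,
      c = fun x => (((Quotient.out x : SL(2, ℤ)) 1 0 : ℤ) : ZMod N) := ⟨_, rfl⟩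
  have hac : ∀ x, IsCoprime (a x) (c x) := by
    intro x
    rw [ha, hc]
    exact xcount_unimod N (Quotient.out x)
  have hcop : ∀ xu : (SL(2, ℤ) ⧸ CongruenceSubgroup.Gamma0 N) × (ZMod N)ˣ,
      IsCoprime ((xu.2 : ZMod N) * a xu.1) ((xu.2 : ZMod N) * c xu.1) := by
    rintro ⟨x, u⟩
    obtain ⟨r, s, h⟩ := hac x
    have hu : ((u⁻¹ : (ZMod N)ˣ) : ZMod N) * (u : ZMod N) = 1 := Units.inv_mul u
    exact ⟨r * ((u⁻¹ : (ZMod N)ˣ) : ZMod N), s * ((u⁻¹ : (ZMod N)ˣ) : ZMod N), by
      linear_combination (r * a x + s * c x) * hu + h⟩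
  refine Nat.card_eq_of_bijective
    (fun xu => (⟨((xu.2 : ZMod N) * a xu.1, (xu.2 : ZMod N) * c xu.1), hcop xu⟩ :
      XCountPairs (ZMod N))) ⟨?_, ?_⟩
  · rintro ⟨x, u⟩ ⟨x', u'⟩ hxx
    have h0 := congrArg Subtype.val hxx
    simp only [Prod.mk.injEq] at h0
    obtain ⟨h1, h2⟩ := h0
    have hcross : a x * c x' = c x * a x' := by
      have hmul : ((u * u' : (ZMod N)ˣ) : ZMod N) * (a x * c x') =
          ((u * u' : (ZMod N)ˣ) : ZMod N) * (c x * a x') := by
        push_cast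
        linear_combination ((u' : ZMod N) * c x') * h1 - ((u' : ZMod N) * a x') * h2
      exact (u * u').isUnit.mul_left_cancel hmul
    have hx : x = x' := by
      have := (xcore_mk_eq_iff N (Quotient.out x) (Quotient.out x')).mpr (by
        rw [ha, hc] at hcross
        exact hcross)
      rwa [QuotientGroup.out_eq', QuotientGroup.out_eq'] at this
    subst hx
    obtain ⟨r, s, h⟩ := hac x
    have hu : (u : ZMod N) = u' := by
      linear_combination (-(u : ZMod N) + u') * h + r * h1 + s * h2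
    rw [Units.ext hu]
  · rintro ⟨⟨p, q⟩, hpq⟩
    obtain ⟨g, hg0, hg1⟩ := xcore_exists_col N p q hpq
    have hx := (xcore_mk_eq_iff N (Quotient.out (QuotientGroup.mk g : SL(2, ℤ) ⧸
      CongruenceSubgroup.Gamma0 N)) g).mp (QuotientGroup.out_eq' _)
    rw [hg0, hg1] at hx
    obtain ⟨u, hp, hq⟩ := xcore_exists_unit N
      (a (QuotientGroup.mk g)) (c (QuotientGroup.mk g)) p q (hac _) hpq (by
        rw [ha, hc]
        exact hx)
    exact ⟨(QuotientGroup.mk g, u), Subtype.ext (Prod.ext hp.symm hq.symm)⟩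

/-- Unimodular pairs are transported by ring isomorphisms. -/
theorem xcount_card_pairs_congr {R S : Type*} [CommRing R] [CommRing S] (e : R ≃+* S) :
    Nat.card (XCountPairs R) = Nat.card (XCountPairs S) := by
  refine Nat.card_congr (Equiv.subtypeEquiv (Equiv.prodCongr e.toEquiv e.toEquiv) fun v => ?_)
  constructor
  · intro h
    exact h.map e.toRingHom
  · intro h
    have h' := h.map e.symm.toRingHom
    simpa using h'

/-- Coprimality in a product ring is componentwise. -/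
theorem xcount_isCoprime_prod {R S : Type*} [CommRing R] [CommRing S] (a b : R × S) :
    IsCoprime a b ↔ IsCoprime a.1 b.1 ∧ IsCoprime a.2 b.2 := by
  constructor
  · intro h
    exact ⟨h.map (RingHom.fst R S), h.map (RingHom.snd R S)⟩
  · rintro ⟨⟨r1, s1, h1⟩, ⟨r2, s2, h2⟩⟩
    exact ⟨(r1, r2), (s1, s2), Prod.ext h1 h2⟩

/-- Unimodular pairs over a product ring. -/
theorem xcount_card_pairs_prod (R S : Type*) [CommRing R] [CommRing S] :
    Nat.card (XCountPairs (R × S)) = Nat.card (XCountPairs R) * Nat.card (XCountPairs S) := by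
  rw [← Nat.card_prod]
  refine Nat.card_congr ((Equiv.subtypeEquiv (q := fun c : (R × R) × (S × S) =>
    IsCoprime c.1.1 c.1.2 ∧ IsCoprime c.2.1 c.2.2) (Equiv.prodProdProdComm R S R S) fun v => ?_).trans
      (Equiv.subtypeProdEquivProd (p := fun a : R × R => IsCoprime a.1 a.2)
        (q := fun b : S × S => IsCoprime b.1 b.2)))
  exact xcount_isCoprime_prod v.1 v.2

/-- Unimodular pairs modulo a product of coprime numbers. -/
theorem xcount_card_pairs_mul {a b : ℕ} (h : Nat.Coprime a b) :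
    Nat.card (XCountPairs (ZMod (a * b))) =
      Nat.card (XCountPairs (ZMod a)) * Nat.card (XCountPairs (ZMod b)) := by
  rw [xcount_card_pairs_congr (ZMod.chineseRemainder h), xcount_card_pairs_prod]

/-- Modulo a prime power, a pair is unimodular iff one of its entries is a unit. -/
theorem xcount_isCoprime_primePow {p k : ℕ} (hp : p.Prime) (hk : 0 < k) (x y : ZMod (p ^ k)) :
    IsCoprime x y ↔ IsUnit x ∨ IsUnit y := by
  have : NeZero (p ^ k) := ⟨pow_ne_zero k hp.ne_zero⟩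
  have : Fact p.Prime := ⟨hp⟩
  constructor
  · intro h
    by_contra hne
    obtain ⟨hx, hy⟩ := not_or.mp hne
    have hdvd : p ∣ p ^ k := dvd_pow_self p hk.ne'
    have key : ∀ z : ZMod (p ^ k), ¬ IsUnit z → ZMod.castHom hdvd (ZMod p) z = 0 := by
      intro z hz
      rw [← ZMod.natCast_zmod_val z, map_natCast, ZMod.natCast_eq_zero_iff]
      by_contra hnd
      apply hz
      rw [← ZMod.natCast_zmod_val z, ZMod.isUnit_iff_coprime]
      exact Nat.Coprime.pow_right k ((Nat.Prime.coprime_iff_not_dvd hp).mpr hnd).symm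
    have h1 := h.map (ZMod.castHom hdvd (ZMod p))
    rw [key x hx, key y hy] at h1
    exact not_isCoprime_zero_zero h1
  · rintro (h | h)
    · obtain ⟨u, rfl⟩ := h
      exact ⟨((u⁻¹ : (ZMod (p ^ k))ˣ) : ZMod (p ^ k)), 0, by simp⟩
    · obtain ⟨u, rfl⟩ := h
      exact ⟨0, ((u⁻¹ : (ZMod (p ^ k))ˣ) : ZMod (p ^ k)), by simp⟩

/-- The number of unimodular pairs modulo a prime power. -/
theorem xcount_card_pairs_primePow {p k : ℕ} (hp : p.Prime) (hk : 0 < k) :
    Nat.card (XCountPairs (ZMod (p ^ k))) + (p ^ (k - 1)) ^ 2 = (p ^ k) ^ 2 := by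
  classical
  have : NeZero (p ^ k) := ⟨pow_ne_zero k hp.ne_zero⟩
  have hsplit : ∀ (α : Type) [Finite α] (P : α → Prop),
      Nat.card {x : α // P x} + Nat.card {x : α // ¬ P x} = Nat.card α := by
    intro α _ P
    rw [← Nat.card_sum]
    exact Nat.card_congr (Equiv.sumCompl P)
  have hunits : Nat.card {x : ZMod (p ^ k) // IsUnit x} = p ^ (k - 1) * (p - 1) := by
    rw [← Nat.totient_prime_pow hp hk, ← ZMod.card_units_eq_totient, ← Nat.card_eq_fintype_card]
    exact Nat.card_congr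
      ⟨fun x => x.2.unit, fun u => ⟨u, u.isUnit⟩, fun x => Subtype.ext (IsUnit.unit_spec x.2),
        fun u => Units.ext (IsUnit.unit_spec u.isUnit)⟩
  have hnon : Nat.card {x : ZMod (p ^ k) // ¬ IsUnit x} = p ^ (k - 1) := by
    have h1 := hsplit (ZMod (p ^ k)) IsUnit
    rw [hunits, Nat.card_zmod] at h1
    obtain ⟨m, rfl⟩ := Nat.exists_eq_succ_of_ne_zero hk.ne'
    obtain ⟨q, rfl⟩ := Nat.exists_eq_succ_of_ne_zero hp.ne_zero
    simp only [Nat.succ_eq_add_one, Nat.add_sub_cancel] at h1 ⊢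
    have h2 : (q + 1) ^ (m + 1) = (q + 1) ^ m * q + (q + 1) ^ m := by ring
    omega
  have h2 : Nat.card {v : ZMod (p ^ k) × ZMod (p ^ k) // ¬ IsCoprime v.1 v.2} =
      (p ^ (k - 1)) ^ 2 := by
    rw [sq, ← hnon, ← Nat.card_prod]
    exact Nat.card_congr ((Equiv.subtypeEquivRight fun v => by
      rw [xcount_isCoprime_primePow hp hk, not_or]).trans Equiv.subtypeProdEquivProd)
  have h3 := hsplit (ZMod (p ^ k) × ZMod (p ^ k)) (fun v => IsCoprime v.1 v.2)
  rw [h2, Nat.card_prod, Nat.card_zmod] at h3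
  rw [h3, sq]

/-- The value of `dedekindPsi` at a prime power. -/
theorem xcount_psi_primePow {p k : ℕ} (hp : p.Prime) (hk : 0 < k) :
    ModularCurve.dedekindPsi (p ^ k) = p ^ k + p ^ (k - 1) := by
  unfold ModularCurve.dedekindPsi
  have hfilter : (p ^ k).divisors.filter Squarefree = {1, p} := by
    ext d
    simp only [Finset.mem_filter, Nat.mem_divisors, Finset.mem_insert, Finset.mem_singleton]
    constructor
    · rintro ⟨⟨hd, -⟩, hsq⟩
      obtain ⟨i, hi, rfl⟩ := (Nat.dvd_prime_pow hp).mp hd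
      rcases i with _ | _ | i
      · left; simp
      · right; simp
      · exfalso
        have hpp : p * p ∣ p ^ (i + 1 + 1) := ⟨p ^ i, by ring⟩
        exact hp.one_lt.ne' (Nat.isUnit_iff.mp (hsq p hpp))
    · rintro (rfl | rfl)
      · exact ⟨⟨one_dvd _, pow_ne_zero k hp.ne_zero⟩, squarefree_one⟩
      · exact ⟨⟨dvd_pow_self _ hk.ne', pow_ne_zero k hp.ne_zero⟩, hp.prime.squarefree⟩
  rw [hfilter, Finset.sum_pair hp.one_lt.ne, Nat.div_one]
  congr 1
  obtain ⟨m, rfl⟩ := Nat.exists_eq_succ_of_ne_zero hk.ne'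
  rw [Nat.succ_eq_add_one, Nat.add_sub_cancel, pow_succ, Nat.mul_div_cancel _ hp.pos]

/-- `dedekindPsi` as a Dirichlet convolution. -/
theorem xcount_psi_eq (n : ℕ) :
    (ModularCurve.dedekindPsi n : ℤ) =
      ((ArithmeticFunction.moebius.pmul ArithmeticFunction.moebius) *
        ((ArithmeticFunction.id : ArithmeticFunction ℕ) : ArithmeticFunction ℤ)) n := by
  rw [ArithmeticFunction.mul_apply,
    Nat.sum_divisorsAntidiagonal (f := fun d e =>
      (ArithmeticFunction.moebius.pmul ArithmeticFunction.moebius) d *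
        ((ArithmeticFunction.id : ArithmeticFunction ℕ) : ArithmeticFunction ℤ) e)]
  unfold ModularCurve.dedekindPsi
  rw [Nat.cast_sum, Finset.sum_filter]
  refine Finset.sum_congr rfl fun d _ => ?_
  rw [ArithmeticFunction.pmul_apply, ← sq, ArithmeticFunction.moebius_sq,
    ArithmeticFunction.natCoe_apply, ArithmeticFunction.id_apply]
  split_ifs <;> simp

/-- `dedekindPsi` is multiplicative. -/
theorem xcount_psi_mul {a b : ℕ} (h : Nat.Coprime a b) :
    ModularCurve.dedekindPsi (a * b) = ModularCurve.dedekindPsi a * ModularCurve.dedekindPsi b := by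
  have hmul : ((ArithmeticFunction.moebius.pmul ArithmeticFunction.moebius) *
      ((ArithmeticFunction.id : ArithmeticFunction ℕ) : ArithmeticFunction ℤ)).IsMultiplicative :=
    (ArithmeticFunction.isMultiplicative_moebius.pmul
      ArithmeticFunction.isMultiplicative_moebius).mul
        ArithmeticFunction.isMultiplicative_id.natCast
  have := hmul.map_mul_of_coprime h
  rw [← xcount_psi_eq, ← xcount_psi_eq, ← xcount_psi_eq] at this
  exact_mod_cast this

/-- The number of unimodular pairs modulo `N`. -/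
theorem xcount_card_pairs_eq (N : ℕ) (hN : N ≠ 0) :
    Nat.card (XCountPairs (ZMod N)) = Nat.totient N * ModularCurve.dedekindPsi N := by
  induction N using Nat.recOnPosPrimePosCoprime with
  | prime_pow p k hp hk =>
    have h1 := xcount_card_pairs_primePow hp hk
    rw [Nat.totient_prime_pow hp hk, xcount_psi_primePow hp hk]
    obtain ⟨m, rfl⟩ := Nat.exists_eq_succ_of_ne_zero hk.ne'
    obtain ⟨q, rfl⟩ := Nat.exists_eq_succ_of_ne_zero hp.ne_zero
    simp only [Nat.succ_eq_add_one, Nat.add_sub_cancel] at h1 ⊢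
    have h2 : (q + 1) ^ m * q * ((q + 1) ^ (m + 1) + (q + 1) ^ m) + ((q + 1) ^ m) ^ 2 =
        ((q + 1) ^ (m + 1)) ^ 2 := by ring
    omega
  | zero => exact absurd rfl hN
  | one =>
    rw [Nat.totient_one, ModularCurve.dedekindPsi_one]
    have : Unique (XCountPairs (ZMod 1)) :=
      { default := ⟨(0, 0), ⟨1, 1, Subsingleton.elim _ _⟩⟩
        uniq := fun v => Subtype.ext (Subsingleton.elim _ _) }
    simp
  | coprime a b ha hb hab iha ihb =>
    rw [xcount_card_pairs_mul hab, iha (by omega), ihb (by omega), Nat.totient_mul hab,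
      xcount_psi_mul hab]
    ring

/-- The index of `Γ₀(N)` in `SL(2, ℤ)` is `dedekindPsi N`. -/
theorem xcount_card (N : ℕ) [NeZero N] :
    Nat.card (SL(2, ℤ) ⧸ CongruenceSubgroup.Gamma0 N) = ModularCurve.dedekindPsi N := by
  have h1 := xcount_card_pairs N
  rw [xcount_card_pairs_eq N (NeZero.ne N), mul_comm] at h1
  exact (Nat.eq_of_mul_eq_mul_right (Nat.totient_pos.mpr (Nat.pos_of_ne_zero (NeZero.ne N))) h1).symm

end Fermat.Agent.ES
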