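import Mathlib
import Fermat.Prelude.Def_ModularCurve_GenusNumerics

set_option autoImplicit false

namespace Fermat.Agent.ES

open scoped MatrixGroups

/-- `gcd(d, N/d)`. -/
def xcuspG (N d : ℕ) : ℕ := Nat.gcd d (N / d)

/-- Second component of the cusp invariant. -/
noncomputable def xcuspR (N d : ℕ) (a c₁ : ℤ) : ℕ :=
  ((a : ZMod (xcuspG N d)) * ((c₁ : ℤ) : ZMod (xcuspG N d))⁻¹).val

/-- The cusp invariant of a column `(a, c)`. -/
noncomputable def xcuspInv (N : ℕ) (a c : ℤ) : (_ : ℕ) × ℕ :=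
  ⟨Int.gcd c N, xcuspR N (Int.gcd c N) a (c / (Int.gcd c N : ℤ))⟩

theorem xcusp_arith_fwd (d M a a' c₁ c₁' k : ℤ) (hd : d ≠ 0)
    (h : d * M ∣ (a + k * (d * c₁)) * (d * c₁') - (d * c₁) * a') :
    ((Int.gcd d M : ℕ) : ℤ) ∣ a * c₁' - c₁ * a' := by
  have h1 : d * M ∣ d * ((a + k * (d * c₁)) * c₁' - c₁ * a') := by
    have e : d * ((a + k * (d * c₁)) * c₁' - c₁ * a')
        = (a + k * (d * c₁)) * (d * c₁') - (d * c₁) * a' := by ring
    rw [e]; exact h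
  have h2 : M ∣ (a + k * (d * c₁)) * c₁' - c₁ * a' := (mul_dvd_mul_iff_left hd).mp h1
  have hgM : ((Int.gcd d M : ℕ) : ℤ) ∣ M := Int.gcd_dvd_right d M
  have hgd : ((Int.gcd d M : ℕ) : ℤ) ∣ d := Int.gcd_dvd_left d M
  have e : a * c₁' - c₁ * a' = ((a + k * (d * c₁)) * c₁' - c₁ * a') - d * (k * c₁ * c₁') := by ring
  rw [e]
  exact dvd_sub (hgM.trans h2) (Dvd.dvd.mul_right hgd _)

theorem xcusp_arith_bwd (d M a a' c₁ c₁' : ℤ) (h1 : IsCoprime c₁ M) (h1' : IsCoprime c₁' M)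
    (h : ((Int.gcd d M : ℕ) : ℤ) ∣ a * c₁' - c₁ * a') :
    ∃ k : ℤ, d * M ∣ (a + k * (d * c₁)) * (d * c₁') - (d * c₁) * a' := by
  obtain ⟨t, ht⟩ := h
  have hb := Int.gcd_eq_gcd_ab d M
  obtain ⟨w, v, hwv⟩ := (h1.mul_left h1')
  refine ⟨-(Int.gcdA d M * t * w), t * Int.gcdB d M + Int.gcdA d M * t * d * v, ?_⟩
  rw [hb] at ht
  linear_combination d * ht - (d * Int.gcdA d M * t * d) * hwv

theorem xcusp_R_eq_iff (N d : ℕ) [NeZero (xcuspG N d)] (a a' c₁ c₁' : ℤ)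
    (h1 : IsCoprime c₁ (xcuspG N d : ℤ)) (h1' : IsCoprime c₁' (xcuspG N d : ℤ)) :
    xcuspR N d a c₁ = xcuspR N d a' c₁' ↔ ((xcuspG N d : ℕ) : ℤ) ∣ a * c₁' - c₁ * a' := by
  unfold xcuspR
  rw [(ZMod.val_injective _).eq_iff]
  have e1 := ZMod.coe_int_mul_inv_eq_one h1
  have e1' := ZMod.coe_int_mul_inv_eq_one h1'
  rw [← ZMod.intCast_zmod_eq_zero_iff_dvd]
  push_cast
  constructor
  · intro h
    linear_combination ((c₁ : ZMod (xcuspG N d)) * c₁') * h - ((a : ZMod (xcuspG N d)) * c₁') * e1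
      + ((c₁ : ZMod (xcuspG N d)) * a') * e1'
  · intro h
    linear_combination ((c₁ : ZMod (xcuspG N d))⁻¹ * (c₁' : ZMod (xcuspG N d))⁻¹) * h
      + ((a' : ZMod (xcuspG N d)) * (c₁' : ZMod (xcuspG N d))⁻¹) * e1
      - ((a : ZMod (xcuspG N d)) * (c₁ : ZMod (xcuspG N d))⁻¹) * e1'

/-- Basic facts about `d = gcd(c, N)`. -/
theorem xcusp_gcd_facts (N : ℕ) [NeZero N] (c : ℤ) :
    Int.gcd c N ≠ 0 ∧ Int.gcd c N ∣ N ∧ ((Int.gcd c N : ℕ) : ℤ) * (c / (Int.gcd c N : ℤ)) = c ∧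
      ((Int.gcd c N : ℕ) : ℤ) * ((N / Int.gcd c N : ℕ) : ℤ) = N ∧
      IsCoprime (c / (Int.gcd c N : ℤ)) ((N / Int.gcd c N : ℕ) : ℤ) ∧
      NeZero (xcuspG N (Int.gcd c N)) := by
  have hN : (N : ℤ) ≠ 0 := by exact_mod_cast NeZero.ne N
  have hd0 : Int.gcd c N ≠ 0 := by
    intro h0
    rw [Int.gcd_eq_zero_iff] at h0
    exact hN h0.2
  have hdN : Int.gcd c N ∣ N := by
    have := Int.gcd_dvd_right c (N : ℤ)
    exact_mod_cast this
  have hdc : ((Int.gcd c N : ℕ) : ℤ) ∣ c := Int.gcd_dvd_left c (N : ℤ)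
  have hcast : ((N / Int.gcd c N : ℕ) : ℤ) = (N : ℤ) / (Int.gcd c N : ℤ) := by
    push_cast; rfl
  have hcop : IsCoprime (c / (Int.gcd c N : ℤ)) ((N / Int.gcd c N : ℕ) : ℤ) := by
    rw [hcast, Int.isCoprime_iff_gcd_eq_one]
    exact Int.gcd_div_gcd_div_gcd (Nat.pos_of_ne_zero hd0)
  refine ⟨hd0, hdN, Int.mul_ediv_cancel' hdc, ?_, hcop, ?_⟩
  · exact_mod_cast Nat.mul_div_cancel' hdN
  · refine ⟨?_⟩
    unfold xcuspG
    exact Nat.gcd_ne_zero_left hd0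

theorem xcusp_gcd_eq (N : ℕ) [NeZero N] (a c a' c' k : ℤ) (h : IsCoprime a c)
    (h' : IsCoprime a' c') (hk : (N : ℤ) ∣ (a + k * c) * c' - c * a') :
    Int.gcd c N = Int.gcd c' N := by
  have hdc : ((Int.gcd c N : ℕ) : ℤ) ∣ c := Int.gcd_dvd_left c (N : ℤ)
  have hdN : ((Int.gcd c N : ℕ) : ℤ) ∣ N := Int.gcd_dvd_right c (N : ℤ)
  have hdc' : ((Int.gcd c' N : ℕ) : ℤ) ∣ c' := Int.gcd_dvd_left c' (N : ℤ)
  have hdN' : ((Int.gcd c' N : ℕ) : ℤ) ∣ N := Int.gcd_dvd_right c' (N : ℤ)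
  have hcop : IsCoprime (a + k * c) c := by
    have := h.add_mul_right_left k
    simpa [mul_comm] using this
  apply Nat.dvd_antisymm
  · -- d ∣ c'
    have h1 : ((Int.gcd c N : ℕ) : ℤ) ∣ (a + k * c) * c' := by
      have e : (a + k * c) * c' = ((a + k * c) * c' - c * a') + c * a' := by ring
      rw [e]
      exact dvd_add (hdN.trans hk) (Dvd.dvd.mul_right hdc _)
    have h2 : ((Int.gcd c N : ℕ) : ℤ) ∣ c' :=
      (IsCoprime.of_isCoprime_of_dvd_right hcop hdc).symm.dvd_of_dvd_mul_left h1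
    exact Int.natCast_dvd_natCast.mp (Int.dvd_coe_gcd h2 hdN)
  · -- d' ∣ c
    have h1 : ((Int.gcd c' N : ℕ) : ℤ) ∣ a' * c := by
      have e : a' * c = (a + k * c) * c' - ((a + k * c) * c' - c * a') := by ring
      rw [e]
      exact dvd_sub (Dvd.dvd.mul_left hdc' _) (hdN'.trans hk)
    have h2 : ((Int.gcd c' N : ℕ) : ℤ) ∣ c :=
      (IsCoprime.of_isCoprime_of_dvd_right h' hdc').symm.dvd_of_dvd_mul_left h1
    exact Int.natCast_dvd_natCast.mp (Int.dvd_coe_gcd h2 hdN')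

theorem xcusp_inv_eq_iff (N : ℕ) [NeZero N] (a c a' c' : ℤ) (h : IsCoprime a c)
    (h' : IsCoprime a' c') :
    xcuspInv N a c = xcuspInv N a' c' ↔ ∃ k : ℤ, (N : ℤ) ∣ (a + k * c) * c' - c * a' := by
  obtain ⟨hd0, hdN, hc, hN, hcop, hne⟩ := xcusp_gcd_facts N c
  obtain ⟨hd0', hdN', hc', hN', hcop', hne'⟩ := xcusp_gcd_facts N c'
  -- the key equivalence once the gcd's agree
  have key : Int.gcd c' N = Int.gcd c N →
      (xcuspR N (Int.gcd c N) a (c / (Int.gcd c N : ℤ))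
          = xcuspR N (Int.gcd c N) a' (c' / (Int.gcd c N : ℤ)) ↔
        ∃ k : ℤ, (N : ℤ) ∣ (a + k * c) * c' - c * a') := by
    intro hdd
    rw [hdd] at hc' hcop'
    have hgM : ((xcuspG N (Int.gcd c N) : ℕ) : ℤ) ∣ ((N / Int.gcd c N : ℕ) : ℤ) := by
      unfold xcuspG
      exact_mod_cast Nat.gcd_dvd_right _ _
    have hgcd : Int.gcd ((Int.gcd c N : ℕ) : ℤ) ((N / Int.gcd c N : ℕ) : ℤ)
        = xcuspG N (Int.gcd c N) := by
      unfold xcuspG
      exact Int.gcd_natCast_natCast _ _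
    rw [xcusp_R_eq_iff N (Int.gcd c N) a a' _ _
      (IsCoprime.of_isCoprime_of_dvd_right hcop hgM)
      (IsCoprime.of_isCoprime_of_dvd_right hcop' hgM), ← hgcd]
    constructor
    · intro hg
      obtain ⟨k, hk⟩ := xcusp_arith_bwd _ _ a a' _ _ hcop hcop' hg
      refine ⟨k, ?_⟩
      rw [hc, hc', hN] at hk
      exact hk
    · rintro ⟨k, hk⟩
      apply xcusp_arith_fwd _ _ a a' _ _ k (by exact_mod_cast hd0)
      rw [hc, hc', hN]
      exact hk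
  constructor
  · intro hinv
    unfold xcuspInv at hinv
    rw [Sigma.mk.inj_iff] at hinv
    obtain ⟨hdd, hr⟩ := hinv
    rw [← hdd] at hr
    exact (key hdd.symm).mp (eq_of_heq hr)
  · rintro ⟨k, hk⟩
    have hdd := xcusp_gcd_eq N a c a' c' k h h' hk
    unfold xcuspInv
    rw [← hdd, (key hdd.symm).mpr ⟨k, hk⟩]

/-- The target finset of the cusp invariant. -/
def xcuspS (N : ℕ) : Finset ((_ : ℕ) × ℕ) :=
  N.divisors.sigma fun d => (Finset.range (xcuspG N d)).filter (Nat.Coprime (xcuspG N d))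

theorem xcusp_card_S (N : ℕ) : (xcuspS N).card = ModularCurve.cuspCount N := by
  unfold xcuspS ModularCurve.cuspCount
  rw [Finset.card_sigma]
  refine Finset.sum_congr rfl fun d _ => ?_
  rw [Nat.totient_eq_card_coprime]
  rfl

theorem xcusp_inv_mem (N : ℕ) [NeZero N] (a c : ℤ) (h : IsCoprime a c) :
    xcuspInv N a c ∈ xcuspS N := by
  obtain ⟨hd0, hdN, hc, hN, hcop, hne⟩ := xcusp_gcd_facts N c
  unfold xcuspS xcuspInv
  rw [Finset.mem_sigma]
  refine ⟨Nat.mem_divisors.mpr ⟨hdN, NeZero.ne N⟩, ?_⟩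
  rw [Finset.mem_filter, Finset.mem_range]
  have hgM : ((xcuspG N (Int.gcd c N) : ℕ) : ℤ) ∣ ((N / Int.gcd c N : ℕ) : ℤ) := by
    unfold xcuspG
    exact_mod_cast Nat.gcd_dvd_right _ _
  have hgc : ((xcuspG N (Int.gcd c N) : ℕ) : ℤ) ∣ c := by
    have h1 : ((xcuspG N (Int.gcd c N) : ℕ) : ℤ) ∣ ((Int.gcd c N : ℕ) : ℤ) := by
      unfold xcuspG
      exact_mod_cast Nat.gcd_dvd_left _ _
    exact h1.trans (Int.gcd_dvd_left c (N : ℤ))
  have hu1 : IsUnit ((a : ℤ) : ZMod (xcuspG N (Int.gcd c N))) :=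
    (ZMod.coe_int_isUnit_iff_isCoprime a _).mpr
      (IsCoprime.of_isCoprime_of_dvd_right h hgc).symm
  have hu2 : IsUnit (((c / (Int.gcd c N : ℤ) : ℤ) : ZMod (xcuspG N (Int.gcd c N)))⁻¹) :=
    IsUnit.of_mul_eq_one _ (by
      rw [mul_comm]
      exact ZMod.coe_int_mul_inv_eq_one (IsCoprime.of_isCoprime_of_dvd_right hcop hgM))
  have hu := hu1.mul hu2
  refine ⟨ZMod.val_lt _, ?_⟩
  have hcu := ZMod.val_coe_unit_coprime hu.unit
  rw [IsUnit.unit_spec] at hcu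
  exact hcu.symm

theorem xcusp_exists_col (N : ℕ) [NeZero N] (s : (_ : ℕ) × ℕ) (hs : s ∈ xcuspS N) :
    ∃ a c : ℤ, IsCoprime a c ∧ xcuspInv N a c = s := by
  obtain ⟨d, r⟩ := s
  unfold xcuspS at hs
  rw [Finset.mem_sigma, Finset.mem_filter, Finset.mem_range] at hs
  obtain ⟨hd, hr, hcop⟩ := hs
  simp only at hd hr hcop
  have hdN : d ∣ N := Nat.dvd_of_mem_divisors hd
  have hd0 : d ≠ 0 := (Nat.pos_of_mem_divisors hd).ne'
  have : NeZero d := ⟨hd0⟩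
  have hgd : xcuspG N d ∣ d := Nat.gcd_dvd_left _ _
  obtain ⟨u, hu⟩ := ZMod.unitsMap_surjective hgd (ZMod.unitOfCoprime r hcop.symm)
  refine ⟨((u : ZMod d).val : ℤ), (d : ℤ), ?_, ?_⟩
  · have := ZMod.val_coe_unit_coprime u
    exact_mod_cast Nat.isCoprime_iff_coprime.mpr this
  · have hgcd : Int.gcd (d : ℤ) (N : ℤ) = d := by
      rw [Int.gcd_natCast_natCast]
      exact Nat.gcd_eq_left hdN
    have hval : (((u : ZMod d).val : ℕ) : ZMod (xcuspG N d)) = (r : ZMod (xcuspG N d)) := by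
      have h1 := congrArg (fun v : (ZMod (xcuspG N d))ˣ => (v : ZMod (xcuspG N d))) hu
      simp only [ZMod.unitsMap_def, Units.coe_map, MonoidHom.coe_coe, ZMod.castHom_apply,
        ZMod.coe_unitOfCoprime] at h1
      rw [ZMod.natCast_val]
      exact h1
    have hone : ((1 : ℤ) : ZMod (xcuspG N d)) * ((1 : ℤ) : ZMod (xcuspG N d))⁻¹ = 1 :=
      ZMod.coe_int_mul_inv_eq_one isCoprime_one_left
    unfold xcuspInv
    rw [hgcd]
    refine Sigma.ext rfl (heq_of_eq ?_)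
    unfold xcuspR
    rw [Int.ediv_self (by exact_mod_cast hd0)]
    rw [Int.cast_one, one_mul] at hone
    show ((((u : ZMod d).val : ℤ) : ZMod (xcuspG N d))
      * ((1 : ℤ) : ZMod (xcuspG N d))⁻¹).val = r
    rw [Int.cast_one, hone, mul_one, Int.cast_natCast, hval, ZMod.val_natCast_of_lt hr]

theorem xcusp_col_coprime (g : SL(2, ℤ)) : IsCoprime (g 0 0) (g 1 0) := by
  refine ⟨g 1 1, -g 0 1, ?_⟩
  have := g.det_coe
  rw [Matrix.det_fin_two] at this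
  linear_combination this

theorem xcusp_exists_SL (a c : ℤ) (h : IsCoprime a c) :
    ∃ g : SL(2, ℤ), g 0 0 = a ∧ g 1 0 = c := by
  obtain ⟨u, v, huv⟩ := h
  refine ⟨⟨!![a, -v; c, u], ?_⟩, rfl, rfl⟩
  rw [Matrix.det_fin_two_of]
  linear_combination huv

theorem xcusp_mk_eq_iff (N : ℕ) (g h : SL(2, ℤ)) :
    (QuotientGroup.mk g : SL(2, ℤ) ⧸ CongruenceSubgroup.Gamma0 N) = QuotientGroup.mk h ↔
      (N : ℤ) ∣ g 0 0 * h 1 0 - g 1 0 * h 0 0 := by
  rw [QuotientGroup.eq, CongruenceSubgroup.Gamma0_mem, ZMod.intCast_zmod_eq_zero_iff_dvd]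
  have : (g⁻¹ * h) 1 0 = g 0 0 * h 1 0 - g 1 0 * h 0 0 := by
    rw [Matrix.SpecialLinearGroup.coe_mul, Matrix.SpecialLinearGroup.coe_inv,
      Matrix.adjugate_fin_two, Matrix.mul_apply, Fin.sum_univ_two]
    simp
    ring
  rw [this]

/-- The cusp invariant on the coset space. -/
noncomputable def xcuspF (N : ℕ) (x : SL(2, ℤ) ⧸ CongruenceSubgroup.Gamma0 N) : (_ : ℕ) × ℕ :=
  xcuspInv N (x.out 0 0) (x.out 1 0)

theorem xcuspF_mk (N : ℕ) [NeZero N] (g : SL(2, ℤ)) :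
    xcuspF N (QuotientGroup.mk g) = xcuspInv N (g 0 0) (g 1 0) := by
  unfold xcuspF
  rw [xcusp_inv_eq_iff N _ _ _ _ (xcusp_col_coprime _) (xcusp_col_coprime _)]
  refine ⟨0, ?_⟩
  have := (xcusp_mk_eq_iff N
    (QuotientGroup.mk g : SL(2, ℤ) ⧸ CongruenceSubgroup.Gamma0 N).out g).mp
    (QuotientGroup.out_eq' _)
  simpa using this

theorem xcusp_T_zpow_mul (k : ℤ) (g : SL(2, ℤ)) :
    (ModularGroup.T ^ k * g) 0 0 = g 0 0 + k * g 1 0 ∧ (ModularGroup.T ^ k * g) 1 0 = g 1 0 := by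
  rw [Matrix.SpecialLinearGroup.coe_mul, ModularGroup.coe_T_zpow]
  simp [Matrix.mul_apply, Fin.sum_univ_two]

theorem xcuspF_eq_iff (N : ℕ) [NeZero N] (x y : SL(2, ℤ) ⧸ CongruenceSubgroup.Gamma0 N) :
    xcuspF N x = xcuspF N y ↔ x ∈ MulAction.orbit (Subgroup.zpowers ModularGroup.T) y := by
  induction x using QuotientGroup.induction_on with
  | H gx =>
    induction y using QuotientGroup.induction_on with
    | H gy =>
      rw [xcuspF_mk, xcuspF_mk, eq_comm,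
        xcusp_inv_eq_iff N _ _ _ _ (xcusp_col_coprime gy) (xcusp_col_coprime gx),
        MulAction.mem_orbit_iff]
      constructor
      · rintro ⟨k, hk⟩
        refine ⟨⟨ModularGroup.T ^ k, Subgroup.zpow_mem_zpowers _ k⟩, ?_⟩
        change (QuotientGroup.mk (ModularGroup.T ^ k * gy) :
          SL(2, ℤ) ⧸ CongruenceSubgroup.Gamma0 N) = QuotientGroup.mk gx
        rw [xcusp_mk_eq_iff, (xcusp_T_zpow_mul k gy).1, (xcusp_T_zpow_mul k gy).2]
        exact hk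
      · rintro ⟨⟨t, ht⟩, hk⟩
        obtain ⟨k, rfl⟩ := Subgroup.mem_zpowers_iff.mp ht
        refine ⟨k, ?_⟩
        change (QuotientGroup.mk (ModularGroup.T ^ k * gy) :
          SL(2, ℤ) ⧸ CongruenceSubgroup.Gamma0 N) = QuotientGroup.mk gx at hk
        rw [xcusp_mk_eq_iff, (xcusp_T_zpow_mul k gy).1, (xcusp_T_zpow_mul k gy).2] at hk
        exact hk

/-- **(X4)** The number of `T`-orbits on `SL(2, ℤ) ⧸ Γ₀(N)` is the number of cusps
`∑ d ∣ N, φ(gcd(d, N/d))`. -/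
theorem xcusp_card_orbits (N : ℕ) [NeZero N] :
    Nat.card (MulAction.orbitRel.Quotient (Subgroup.zpowers ModularGroup.T)
      (SL(2, ℤ) ⧸ CongruenceSubgroup.Gamma0 N)) = ModularCurve.cuspCount N := by
  let F : MulAction.orbitRel.Quotient (Subgroup.zpowers ModularGroup.T)
      (SL(2, ℤ) ⧸ CongruenceSubgroup.Gamma0 N) → (_ : ℕ) × ℕ :=
    Quotient.lift (xcuspF N) (fun x y hxy =>
      (xcuspF_eq_iff N x y).mpr (MulAction.orbitRel_apply.mp hxy))
  have hinj : Function.Injective F := by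
    intro ω₁ ω₂ h
    induction ω₁ using Quotient.inductionOn with
    | h x =>
      induction ω₂ using Quotient.inductionOn with
      | h y => exact Quotient.sound (MulAction.orbitRel_apply.mpr ((xcuspF_eq_iff N x y).mp h))
  have hrange : Set.range F = ↑(xcuspS N) := by
    ext s
    constructor
    · rintro ⟨ω, rfl⟩
      induction ω using Quotient.inductionOn with
      | h x => exact xcusp_inv_mem N _ _ (xcusp_col_coprime _)
    · intro hs
      obtain ⟨a, c, hac, rfl⟩ := xcusp_exists_col N s hs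
      obtain ⟨g, rfl, rfl⟩ := xcusp_exists_SL a c hac
      exact ⟨Quotient.mk _ (QuotientGroup.mk g), xcuspF_mk N g⟩
  rw [Nat.card_congr (Equiv.ofInjective F hinj), hrange, Nat.card_coe_set_eq,
    Set.ncard_coe_finset, xcusp_card_S]

end Fermat.Agent.ES
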