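import Mathlib
import Fermat.Agent.ES.Defs
import Fermat.Agent.ES.XCount
import Fermat.Agent.ES.XCusp

set_option autoImplicit false

/-!
PROJECT ES: transfer of the four counts from `SL(2,ℤ) ⧸ Γ₀(N)` to `X N`.
-/

namespace Fermat.Agent.ES

open CongruenceSubgroup
open scoped MatrixGroups

noncomputable section

theorem xtransfer_card (N : ℕ) :
    Nat.card (X N) = Nat.card (SL(2, ℤ) ⧸ Gamma0 N) :=
  (Nat.card_congr (xEquiv N)).symm

theorem xtransfer_fixedBy (N : ℕ) (g : SL(2, ℤ)) :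
    Nat.card (MulAction.fixedBy (X N) g) = Nat.card (MulAction.fixedBy (SL(2, ℤ) ⧸ Gamma0 N) g) := by
  symm
  refine Nat.card_congr ((xEquiv N).subtypeEquiv fun x => ?_)
  rw [MulAction.mem_fixedBy, MulAction.mem_fixedBy, ← xEquiv_smul, (xEquiv N).apply_eq_iff_eq]

theorem xtransfer_orbits (N : ℕ) (g : SL(2, ℤ)) :
    Nat.card (MulAction.orbitRel.Quotient (Subgroup.zpowers g) (X N)) =
      Nat.card (MulAction.orbitRel.Quotient (Subgroup.zpowers g) (SL(2, ℤ) ⧸ Gamma0 N)) := by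
  symm
  refine Nat.card_congr (Quotient.congr (xEquiv N) fun a b => ?_)
  change a ∈ MulAction.orbit _ b ↔ xEquiv N a ∈ MulAction.orbit _ (xEquiv N b)
  constructor
  · rintro ⟨h, rfl⟩
    exact ⟨h, (xEquiv_smul N (h : SL(2, ℤ)) b).symm⟩
  · rintro ⟨h, hh⟩
    refine ⟨h, (xEquiv N).injective ?_⟩
    rw [← hh]
    exact xEquiv_smul N (h : SL(2, ℤ)) b

theorem card_X_eq (N : ℕ) [NeZero N] : Nat.card (X N) = ModularCurve.dedekindPsi N := by
  rw [xtransfer_card, xcount_card]

theorem card_fixedBy_S_eq (N : ℕ) [NeZero N] :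
    Nat.card (MulAction.fixedBy (X N) ModularGroup.S) = ModularCurve.nuTwo N := by
  rw [xtransfer_fixedBy, xcount_fixedBy_S]

theorem card_fixedBy_ST_eq (N : ℕ) [NeZero N] :
    Nat.card (MulAction.fixedBy (X N) (ModularGroup.S * ModularGroup.T)) =
      ModularCurve.nuThree N := by
  rw [xtransfer_fixedBy, xcount_fixedBy_ST]

theorem card_orbits_T_eq (N : ℕ) [NeZero N] :
    Nat.card (MulAction.orbitRel.Quotient (Subgroup.zpowers ModularGroup.T) (X N)) =
      ModularCurve.cuspCount N := by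
  rw [xtransfer_orbits, xcusp_card_orbits]

end

end Fermat.Agent.ES
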