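import Mathlib
import Fermat.Agent.ES.Defs
import Fermat.Agent.ES.Counting
import Fermat.Agent.ES.XTransfer
import Fermat.Agent.ES.GM
import Fermat.Agent.ES.LFinal
import Fermat.Agent.ES.ConstTerm
import Fermat.Agent.ES.CuspDet

set_option autoImplicit false

/-!
PROJECT ES, assembly of the lower bound `g ≤ dim S₂(Γ₀(N))`.
-/

namespace Fermat.Agent.ES

open UpperHalfPlane hiding I
open CongruenceSubgroup Module
open scoped MatrixGroups

noncomputable section

/-- The lower bound `g ≤ dim S₂(Γ₀(N))`. -/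
theorem genus_le_finrank_cuspForm (N : ℕ) [NeZero N] :
    ModularCurve.genusFormula N ≤ (finrank ℂ (CuspForm (Gamma0 N) 2) : ℚ) := by
  classical
  obtain ⟨B⟩ := exists_gmBasis N
  have h4 := two_mul_card_even B
  obtain ⟨h60, h62, h64⟩ := three_mul_card_mod3 B
  have hK := B.sum_wt (tendsto_conjDet_sq B)
  have hC := finrank_cuspForm_ge N
  have hM := B.finrank_weight_two
  rw [card_X_eq, card_fixedBy_S_eq] at h4
  rw [card_X_eq, card_fixedBy_ST_eq] at h60 h62 h64
  rw [card_X_eq, card_orbits_T_eq] at hK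
  rw [card_orbits_T_eq] at hC
  -- half weights
  have hj : ∀ x, B.wt x = 2 * (B.wt x / 2) := fun x => by
    obtain ⟨m, hm⟩ := B.wt_even x
    omega
  have hjq : ∀ x, (B.wt x : ℚ) = 2 * ((B.wt x / 2 : ℕ) : ℚ) := fun x => by
    have h := congrArg (Nat.cast : ℕ → ℚ) (hj x)
    rw [Nat.cast_mul, Nat.cast_ofNat] at h
    exact h
  have hKq : (∑ i, (B.wt i : ℚ)) =
      6 * ((ModularCurve.dedekindPsi N : ℚ) - (ModularCurve.cuspCount N : ℚ)) := by
    exact_mod_cast hK
  have hK' : (∑ i, ((B.wt i / 2 : ℕ) : ℚ)) =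
      3 * ((ModularCurve.dedekindPsi N : ℚ) - (ModularCurve.cuspCount N : ℚ)) := by
    have e1 : (∑ i, (B.wt i : ℚ)) = 2 * ∑ i, ((B.wt i / 2 : ℕ) : ℚ) := by
      rw [Finset.mul_sum]
      exact Finset.sum_congr rfl fun i _ => hjq i
    linarith
  have hcount := counting (fun x => B.wt x / 2) (ModularCurve.dedekindPsi N)
    (ModularCurve.nuTwo N) (ModularCurve.nuThree N) (ModularCurve.cuspCount N)
    (by exact_mod_cast h4) (by exact_mod_cast h60)
    (by
      have : (3 * (Finset.univ.filter fun i => (B.wt i / 2) % 3 = 1).card + ModularCurve.nuThree N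
          : ℚ) = ModularCurve.dedekindPsi N := by exact_mod_cast h62
      linarith)
    (by
      have : (3 * (Finset.univ.filter fun i => (B.wt i / 2) % 3 = 2).card + ModularCurve.nuThree N
          : ℚ) = ModularCurve.dedekindPsi N := by exact_mod_cast h64
      linarith)
    hK'
  have hfilter : (Finset.univ.filter fun x => B.wt x / 2 = 1) =
      (Finset.univ.filter fun x => B.wt x = 2) := by
    ext x
    simp only [Finset.mem_filter, Finset.mem_univ, true_and]
    have := hj x
    omega
  rw [hfilter, ← hM] at hcount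
  have hC' : (finrank ℂ (ModularForm (Gamma0 N) 2) : ℚ) + 1 ≤
      (finrank ℂ (CuspForm (Gamma0 N) 2) : ℚ) + (ModularCurve.cuspCount N : ℚ) := by
    exact_mod_cast hC
  rw [ModularCurve.genusFormula]
  linarith

end

end Fermat.Agent.ES
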