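import Mathlib
import Fermat.Agent.S22.Eichler
import Fermat.Prelude.Def_ModularCurve_PeriodHomPair
import Fermat.Prelude.Thm_Subgroup_IsArithmetic_exists_nat_mem_strictPeriods_conj

set_option autoImplicit false

/-!
PROJECT ES, module (E1) `Primitive.lean`: the equivariant primitive of a weight two cusp form on `Γ₀(N)`,
its uniqueness, linearity of the period map, parabolicity of periods and the unfolding of
`ModularCurve.periodHomPair`.
-/

namespace Fermat.Agent.ES

open UpperHalfPlane hiding I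
open Real Complex Filter CongruenceSubgroup
open scoped Manifold MatrixGroups ModularForm Topology Pointwise
open Derivative
open Fermat.Agent.S22 (IsCuspidalPeriodic)
open ModularCurve ModularCurve.Period

noncomputable section

variable {N : ℕ}

theorem exists_prim (f : CuspForm (Gamma0 N) 2) :
    ∃ G : ℍ → ℂ, IsCuspidalPeriodic 1 G ∧ D G = (2 * (π : ℂ) * I)⁻¹ • (⇑f : ℍ → ℂ) :=
  ((Fermat.Agent.S22.isCuspidalPeriodic_cuspForm f).smul _).exists_primitive one_pos

/-- The primitive of `f` vanishing at `i∞`. -/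
def prim (N : ℕ) (f : CuspForm (Gamma0 N) 2) : ℍ → ℂ := (exists_prim f).choose

theorem prim_cuspidal (f : CuspForm (Gamma0 N) 2) : IsCuspidalPeriodic 1 (prim N f) :=
  (exists_prim f).choose_spec.1

theorem D_prim (f : CuspForm (Gamma0 N) 2) :
    D (prim N f) = (2 * (π : ℂ) * I)⁻¹ • (⇑f : ℍ → ℂ) :=
  (exists_prim f).choose_spec.2

theorem prim_mdiff (f : CuspForm (Gamma0 N) 2) : MDiff (prim N f) :=
  (prim_cuspidal f).mdiff one_pos

theorem tendsto_prim (f : CuspForm (Gamma0 N) 2) : Tendsto (prim N f) atImInfty (𝓝 0) :=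
  (prim_cuspidal f).tendsto_atImInfty one_pos

/-- from `D G = (2πi)⁻¹ u` to a genuine derivative. -/
theorem hasDerivAt_of_D_eq {G u : ℍ → ℂ} (hG : MDiff G)
    (hD : D G = (2 * (π : ℂ) * I)⁻¹ • u) (τ : ℍ) :
    HasDerivAt (G ∘ ofComplex) (u τ) ↑τ := by
  have hdiff := UpperHalfPlane.mdifferentiable_iff.mp hG
  have hd : DifferentiableAt ℂ (G ∘ ofComplex) (τ : ℂ) :=
    (hdiff (τ : ℂ) τ.im_pos).differentiableAt (isOpen_upperHalfPlaneSet.mem_nhds τ.im_pos)
  have h1 := congrFun hD τ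
  simp only [normalizedDerivOfComplex, Pi.smul_apply, smul_eq_mul] at h1
  have h2pi : (2 * (π : ℂ) * I)⁻¹ ≠ 0 := inv_ne_zero Complex.two_pi_I_ne_zero
  have h2 : deriv (G ∘ ofComplex) (τ : ℂ) = u τ := mul_left_cancel₀ h2pi h1
  rw [← h2]
  exact hd.hasDerivAt

theorem hasDerivAt_prim (f : CuspForm (Gamma0 N) 2) (τ : ℍ) :
    HasDerivAt (prim N f ∘ ofComplex) (f τ) ↑τ :=
  hasDerivAt_of_D_eq (prim_mdiff f) (D_prim f) τ

theorem slash_zero_apply (F : ℍ → ℂ) (δ : SL(2, ℤ)) (z : ℍ) :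
    (F ∣[(0 : ℤ)] δ) z = F (δ • z) := by
  rw [ModularForm.SL_slash_apply]
  simp

theorem D_slash_zero {F : ℍ → ℂ} (hF : MDiff F) (δ : SL(2, ℤ)) :
    D (F ∣[(0 : ℤ)] δ) = (D F) ∣[(2 : ℤ)] δ := by
  have h := Fermat.Agent.S22.D_slash_SL 0 hF δ
  simpa using h

theorem prim_add (f g : CuspForm (Gamma0 N) 2) : prim N (f + g) = prim N f + prim N g := by
  refine Fermat.Agent.S22.eichler_unique one_pos 1 (prim_cuspidal (f + g))
    ((prim_cuspidal f).add (prim_cuspidal g)) ?_
  have h := Fermat.Agent.S22.iterate_D_add 1 (prim_mdiff f) (prim_mdiff g)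
  simp only [Function.iterate_one] at h ⊢
  rw [h, D_prim, D_prim, D_prim]
  funext τ
  simp [mul_add]

theorem prim_smul (c : ℂ) (f : CuspForm (Gamma0 N) 2) : prim N (c • f) = c • prim N f := by
  refine Fermat.Agent.S22.eichler_unique one_pos 1 (prim_cuspidal (c • f))
    ((prim_cuspidal f).smul c) ?_
  have h := Fermat.Agent.S22.iterate_D_smul 1 c (prim_mdiff f)
  simp only [Function.iterate_one] at h ⊢
  rw [h, D_prim, D_prim]
  funext τ
  simp [mul_left_comm]

/-- equivariance of the primitive. -/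
theorem prim_equivariant (f : CuspForm (Gamma0 N) 2) :
    IsEquivariantPrimitive (Gamma0 N) (prim N f) := by
  intro γ
  have hG := prim_mdiff f
  have hGs : MDiff (prim N f ∣[(0 : ℤ)] (γ : SL(2, ℤ))) :=
    Fermat.Agent.S22.mdiff_SL_slash hG _ _
  have hsub := Fermat.Agent.S22.iterate_D_sub 1 hGs hG
  simp only [Function.iterate_one] at hsub
  have hD0 : D (prim N f ∣[(0 : ℤ)] (γ : SL(2, ℤ)) - prim N f) = 0 := by
    rw [hsub, D_slash_zero hG, D_prim, ModularForm.SL_smul_slash,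
      Fermat.Agent.S22.slash_eq_self_of_mem_Gamma0, sub_self]
  obtain ⟨c, hc⟩ := Fermat.Agent.S22.exists_const_of_D_eq_zero (hGs.sub hG) hD0
  refine ⟨c, fun z => ?_⟩
  have := congrFun hc z
  simpa [slash_zero_apply] using this

/-- expansion of the primitive at an arbitrary cusp. -/
theorem exists_cusp_expansion [NeZero N] (f : CuspForm (Gamma0 N) 2) (δ : SL(2, ℤ)) :
    ∃ (M : ℕ) (E : ℍ → ℂ) (c : ℂ), 0 < M ∧ IsCuspidalPeriodic (M : ℝ) E ∧
      D E = (2 * (π : ℂ) * I)⁻¹ • ((⇑f : ℍ → ℂ) ∣[(2 : ℤ)] δ) ∧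
      ∀ w : ℍ, prim N f (δ • w) = E w + c := by
  obtain ⟨M, hM, hMper⟩ := Subgroup.IsArithmetic.exists_nat_mem_strictPeriods_conj
    (CongruenceSubgroup.Gamma0 N : Subgroup (GL (Fin 2) ℝ))
  have hM' : (0 : ℝ) < (M : ℝ) := by exact_mod_cast hM
  have hper := hMper δ⁻¹
  rw [map_inv] at hper
  set u : CuspForm (ConjAct.toConjAct (Matrix.SpecialLinearGroup.mapGL ℝ δ)⁻¹ •
      (CongruenceSubgroup.Gamma0 N : Subgroup (GL (Fin 2) ℝ))) 2 :=
    CuspForm.translate f (Matrix.SpecialLinearGroup.mapGL ℝ δ) with hu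
  have hu_coe : (⇑u : ℍ → ℂ) = (⇑f) ∣[(2 : ℤ)] δ := rfl
  have : Fact (IsCusp OnePoint.infty (ConjAct.toConjAct (Matrix.SpecialLinearGroup.mapGL ℝ δ)⁻¹ •
      (CongruenceSubgroup.Gamma0 N : Subgroup (GL (Fin 2) ℝ)))) :=
    ⟨Subgroup.isCusp_of_mem_strictPeriods hM' hper⟩
  have hu_cusp : IsCuspidalPeriodic (M : ℝ) (⇑u) :=
    Fermat.Agent.S22.isCuspidalPeriodic_of_periodic hM'
      (SlashInvariantFormClass.periodic_comp_ofComplex u hper)
      (CuspFormClass.holo u) (CuspFormClass.zero_at_infty u)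
  obtain ⟨E, hE, hDE⟩ := (hu_cusp.smul ((2 * (π : ℂ) * I)⁻¹)).exists_primitive hM'
  have hG := prim_mdiff f
  have hGs : MDiff (prim N f ∣[(0 : ℤ)] δ) := Fermat.Agent.S22.mdiff_SL_slash hG _ _
  have hEm : MDiff E := hE.mdiff hM'
  have hsub := Fermat.Agent.S22.iterate_D_sub 1 hGs hEm
  simp only [Function.iterate_one] at hsub
  have hD0 : D (prim N f ∣[(0 : ℤ)] δ - E) = 0 := by
    rw [hsub, D_slash_zero hG, D_prim, ModularForm.SL_smul_slash, hDE, hu_coe, sub_self]
  obtain ⟨c, hc⟩ := Fermat.Agent.S22.exists_const_of_D_eq_zero (hGs.sub hEm) hD0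
  refine ⟨M, E, c, hM, hE, by rw [hDE, hu_coe], fun w => ?_⟩
  have := congrFun hc w
  simp only [Pi.sub_apply, slash_zero_apply] at this
  rw [← this]
  ring

theorem hasEquivariantPrimitive_prim [NeZero N] (f : CuspForm (Gamma0 N) 2) :
    HasEquivariantPrimitive N f (prim N f) := by
  refine ⟨hasDerivAt_prim f, tendsto_prim f, prim_equivariant f, fun δ => ?_⟩
  obtain ⟨M, E, c, hM, hE, -, hw⟩ := exists_cusp_expansion f δ
  have hM' : (0 : ℝ) < (M : ℝ) := by exact_mod_cast hM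
  refine ⟨c, ?_⟩
  have h1 : Tendsto (fun w : ℍ => E w + c) atImInfty (𝓝 (0 + c)) :=
    (hE.tendsto_atImInfty hM').add tendsto_const_nhds
  rw [zero_add] at h1
  exact h1.congr fun w => (hw w).symm

/-- uniqueness of the equivariant primitive. -/
theorem eq_prim_of_hasEquivariantPrimitive {f : CuspForm (Gamma0 N) 2} {F : ℍ → ℂ}
    (hF : HasEquivariantPrimitive N f F) : F = prim N f := by
  have hconv : Convex ℝ {z : ℂ | 0 < z.im} := by
    have : {z : ℂ | 0 < z.im} = Complex.imCLM ⁻¹' Set.Ioi 0 := rfl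
    rw [this]
    exact (convex_Ioi 0).is_linear_preimage Complex.imCLM.toLinearMap.isLinear
  set R : ℂ → ℂ := F ∘ ofComplex - prim N f ∘ ofComplex with hR
  have hRd : ∀ z : ℂ, 0 < z.im → HasDerivAt R 0 z := by
    intro z hz
    have h1 := hF.1 ⟨z, hz⟩
    have h2 := hasDerivAt_prim f ⟨z, hz⟩
    have := h1.sub h2
    rwa [sub_self] at this
  have hdiff : DifferentiableOn ℂ R {z : ℂ | 0 < z.im} := fun z hz =>
    (hRd z hz).differentiableAt.differentiableWithinAt
  have hderiv : Set.EqOn (deriv R) 0 {z : ℂ | 0 < z.im} := fun z hz => (hRd z hz).deriv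
  have key : ∀ τ : ℍ, F τ - prim N f τ = F UpperHalfPlane.I - prim N f UpperHalfPlane.I := by
    intro τ
    have := IsOpen.is_const_of_deriv_eq_zero isOpen_upperHalfPlaneSet
      hconv.isPreconnected hdiff hderiv τ.im_pos UpperHalfPlane.I.im_pos
    simp only [hR, Pi.sub_apply, Function.comp_apply, ofComplex_apply] at this
    exact this
  have hlim : Tendsto (fun τ : ℍ => F τ - prim N f τ) atImInfty (𝓝 (0 - 0)) :=
    hF.2.1.sub (tendsto_prim f)
  rw [sub_zero] at hlim
  have hconst : Tendsto (fun τ : ℍ => F τ - prim N f τ) atImInfty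
      (𝓝 (F UpperHalfPlane.I - prim N f UpperHalfPlane.I)) :=
    tendsto_const_nhds.congr fun τ => (key τ).symm
  have h0 := tendsto_nhds_unique hconst hlim
  funext τ
  have := key τ
  rw [h0, sub_eq_zero] at this
  exact this

/-- the period map in terms of the canonical primitive. -/
theorem periodMap_apply_prim [NeZero N] (f : CuspForm (Gamma0 N) 2) (γ : Gamma0 N) (z : ℍ) :
    periodMap N f (Additive.ofMul γ) = prim N f ((γ : SL(2, ℤ)) • z) - prim N f z := by
  obtain ⟨F₀, h₀, heq⟩ := periodMap_def N f (hasEquivariantPrimitive_prim f)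
  have hF₀ := eq_prim_of_hasEquivariantPrimitive h₀
  subst hF₀
  rw [heq, IsEquivariantPrimitive.periodHom_apply, ← h₀.2.2.1.sub_eq_period γ z]

/-- the period of any equivariant primitive is the period map. -/
theorem period_eq_periodMap [NeZero N] {f : CuspForm (Gamma0 N) 2} {F : ℍ → ℂ}
    (hF : HasEquivariantPrimitive N f F) (γ : Gamma0 N) :
    hF.2.2.1.period γ = periodMap N f (Additive.ofMul γ) := by
  have hF₀ := eq_prim_of_hasEquivariantPrimitive hF
  subst hF₀
  rw [periodMap_apply_prim f γ UpperHalfPlane.I]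
  rfl

/-- E1 (contract form): existence of an equivariant primitive. -/
theorem exists_primitive (N : ℕ) [NeZero N] (f : CuspForm (Gamma0 N) 2) :
    ∃ F : ℍ → ℂ, ModularCurve.HasEquivariantPrimitive N f F :=
  ⟨prim N f, hasEquivariantPrimitive_prim f⟩

/-- E1 (contract form): the period map through any equivariant primitive. -/
theorem periodMap_apply (N : ℕ) [NeZero N] (f : CuspForm (Gamma0 N) 2) {F : ℍ → ℂ}
    (hF : ModularCurve.HasEquivariantPrimitive N f F) (γ : Gamma0 N) :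
    ModularCurve.periodMap N f (Additive.ofMul γ) =
      F ((γ : SL(2, ℤ)) • UpperHalfPlane.I) - F UpperHalfPlane.I := by
  have hF₀ := eq_prim_of_hasEquivariantPrimitive hF
  subst hF₀
  exact periodMap_apply_prim f γ UpperHalfPlane.I

/-- the period map as a linear map. -/
def periodMapLin (N : ℕ) [NeZero N] :
    CuspForm (Gamma0 N) 2 →ₗ[ℂ] (Additive (Gamma0 N) →+ ℂ) where
  toFun f := periodMap N f
  map_add' f g := by
    refine AddMonoidHom.ext fun γ => ?_
    have h1 := periodMap_apply_prim (f + g) (Additive.toMul γ) UpperHalfPlane.I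
    have h2 := periodMap_apply_prim f (Additive.toMul γ) UpperHalfPlane.I
    have h3 := periodMap_apply_prim g (Additive.toMul γ) UpperHalfPlane.I
    simp only [ofMul_toMul] at h1 h2 h3
    rw [AddMonoidHom.add_apply, h1, h2, h3, prim_add]
    simp only [Pi.add_apply]
    ring
  map_smul' c f := by
    refine AddMonoidHom.ext fun γ => ?_
    have h1 := periodMap_apply_prim (c • f) (Additive.toMul γ) UpperHalfPlane.I
    have h2 := periodMap_apply_prim f (Additive.toMul γ) UpperHalfPlane.I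
    simp only [ofMul_toMul] at h1 h2
    rw [RingHom.id_apply, AddMonoidHom.smul_apply, h1, h2, prim_smul]
    simp only [Pi.smul_apply, smul_eq_mul]
    ring

@[simp] theorem periodMapLin_apply [NeZero N] (f : CuspForm (Gamma0 N) 2) :
    periodMapLin N f = periodMap N f := rfl

theorem existsPeriodMapLinear (N : ℕ) [NeZero N] : ExistsPeriodMapLinear N :=
  ⟨periodMapLin N, fun _ => rfl⟩

theorem periodHomPair_eq (N : ℕ) [NeZero N] :
    periodHomPair N = LinearMap.coprod
      ((LinearMap.id + charInvolution N ℂ ℂ) ∘ₗ periodMapLin N)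
      ((LinearMap.id - charInvolution N ℂ ℂ) ∘ₗ periodMapLin N) := by
  obtain ⟨pml, hpml, h⟩ := periodHomPair_def N (existsPeriodMapLinear N)
  have : pml = periodMapLin N := LinearMap.ext fun f => hpml f
  subst this
  exact h

/-- an element of `SL(2, ℤ)` with `trace ^ 2 = 4` fixes a rational cusp. -/
theorem exists_conj_upper (γ : SL(2, ℤ))
    (h : (γ : Matrix (Fin 2) (Fin 2) ℤ).trace ^ 2 = 4) :
    ∃ δ : SL(2, ℤ), (δ⁻¹ * γ * δ) 1 0 = 0 := by
  have hdet := γ.det_coe
  rw [Matrix.det_fin_two] at hdet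
  rw [Matrix.trace_fin_two] at h
  obtain ⟨p, q, hpq, hpoly⟩ : ∃ p q : ℤ, IsCoprime p q ∧
      γ 1 0 * p ^ 2 + (γ 1 1 - γ 0 0) * p * q - γ 0 1 * q ^ 2 = 0 := by
    by_cases hc : γ 1 0 = 0
    · exact ⟨1, 0, isCoprime_one_left, by simp [hc]⟩
    · have hg : 0 < Int.gcd (γ 0 0 - γ 1 1) (2 * γ 1 0) := by
        apply Int.gcd_pos_of_ne_zero_right
        exact mul_ne_zero two_ne_zero hc
      obtain ⟨p, q, hpq, hp, hq⟩ := Int.exists_gcd_one hg
      refine ⟨p, q, Int.isCoprime_iff_gcd_eq_one.mpr hpq, ?_⟩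
      set g : ℤ := (Int.gcd (γ 0 0 - γ 1 1) (2 * γ 1 0) : ℤ) with hgdef
      have hg0 : g ≠ 0 := by
        rw [hgdef]; exact_mod_cast hg.ne'
      have h2 : g ^ 2 * (γ 1 0 * p ^ 2 + (γ 1 1 - γ 0 0) * p * q - γ 0 1 * q ^ 2) = 0 := by
        have e1 : γ 1 0 * (p * g) ^ 2 + (γ 1 1 - γ 0 0) * (p * g) * (q * g)
            - γ 0 1 * (q * g) ^ 2 = 0 := by
          rw [← hp, ← hq]
          linear_combination (-γ 1 0) * h + (4 * γ 1 0) * hdet
        linear_combination e1
      exact (mul_eq_zero.mp h2).resolve_left (pow_ne_zero 2 hg0)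
  obtain ⟨δ, hδ0, hδ1⟩ := hpq.exists_SL2_col 0
  refine ⟨δ, ?_⟩
  have : ((δ⁻¹ * γ * δ : SL(2, ℤ)) : Matrix (Fin 2) (Fin 2) ℤ) 1 0
      = γ 1 0 * p ^ 2 + (γ 1 1 - γ 0 0) * p * q - γ 0 1 * q ^ 2 := by
    simp only [Matrix.SpecialLinearGroup.coe_mul, Matrix.SpecialLinearGroup.coe_inv,
      Matrix.adjugate_fin_two, Matrix.mul_apply, Fin.sum_univ_two, Matrix.of_apply,
      Matrix.cons_val_zero, Matrix.cons_val_one, hδ0, hδ1]
    simp
    ring
  rw [this, hpoly]

theorem tendsto_T_zpow_smul (n : ℤ) :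
    Tendsto (fun w : ℍ => ModularGroup.T ^ n • w) atImInfty atImInfty := by
  rw [atImInfty, tendsto_comap_iff]
  have : (UpperHalfPlane.im ∘ fun w : ℍ => ModularGroup.T ^ n • w) = UpperHalfPlane.im := by
    funext w
    exact ModularGroup.im_T_zpow_smul w n
  rw [this]
  exact tendsto_comap

/-- periods of parabolic (and central) elements vanish. -/
theorem periodMap_mem_parabolicHoms (N : ℕ) [NeZero N] (f : CuspForm (Gamma0 N) 2) :
    ModularCurve.periodMap N f ∈ ModularCurve.Period.parabolicHoms ℂ (Gamma0 N) ℂ := by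
  rw [mem_parabolicHoms_iff]
  intro γ hγ
  obtain ⟨δ, hδ⟩ := exists_conj_upper (γ : SL(2, ℤ)) hγ
  obtain ⟨n, hn⟩ := ModularGroup.exists_eq_T_zpow_of_c_eq_zero hδ
  obtain ⟨L, hL⟩ := (hasEquivariantPrimitive_prim f).2.2.2 δ
  have hper : ∀ w : ℍ, periodMap N f (Additive.ofMul γ)
      = prim N f (δ • (ModularGroup.T ^ n • w)) - prim N f (δ • w) := by
    intro w
    rw [periodMap_apply_prim f γ (δ • w), ← hn w]
    congr 2
    simp only [← mul_smul]
    congr 1
    group
  have h1 : Tendsto (fun w : ℍ => prim N f (δ • (ModularGroup.T ^ n • w)) - prim N f (δ • w))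
      atImInfty (𝓝 (L - L)) :=
    (hL.comp (tendsto_T_zpow_smul n)).sub hL
  rw [sub_self] at h1
  have h2 : Tendsto (fun _ : ℍ => periodMap N f (Additive.ofMul γ)) atImInfty (𝓝 0) :=
    h1.congr fun w => (hper w).symm
  exact tendsto_nhds_unique tendsto_const_nhds h2

theorem periodHomPair_apply [NeZero N] (f g : CuspForm (Gamma0 N) 2) :
    periodHomPair N (f, g) = (periodMap N f + charInvolution N ℂ ℂ (periodMap N f))
      + (periodMap N g - charInvolution N ℂ ℂ (periodMap N g)) := by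
  rw [periodHomPair_eq]
  simp [LinearMap.coprod_apply]

theorem range_periodHomPair_le (N : ℕ) [NeZero N] :
    LinearMap.range (periodHomPair N) ≤ parabolicHoms ℂ (Gamma0 N) ℂ := by
  rintro _ ⟨⟨f, g⟩, rfl⟩
  rw [periodHomPair_apply]
  have hf := periodMap_mem_parabolicHoms N f
  have hg := periodMap_mem_parabolicHoms N g
  exact add_mem (add_mem hf (charInvolution_mem_parabolicHoms N ℂ ℂ hf))
    (sub_mem hg (charInvolution_mem_parabolicHoms N ℂ ℂ hg))

end

end Fermat.Agent.ES
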