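import Fermat.Agent.ES.MaxPrincipleCore
import Fermat.Agent.ES.Primitive

/-!
PROJECT ES, module (E2) `MaxPrinciple.lean`: a weight two cusp form on `Γ₀(N)` with real periods
vanishes (maximum principle), and the real structure `f ↦ conj (f (-conj τ))` on periods.
-/

set_option autoImplicit false

namespace Fermat.Agent.ES

open UpperHalfPlane hiding I
open Complex Filter CongruenceSubgroup ModularForm
open scoped MatrixGroups ModularForm Topology Manifold

/-- **(E2a)** Maximum principle: real periods force `f = 0`. -/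
theorem realPeriodsVanish (N : ℕ) [NeZero N] (f : CuspForm (Gamma0 N) 2)
    (h : ∀ γ : Gamma0 N, (ModularCurve.periodMap N f (Additive.ofMul γ)).im = 0) : f = 0 := by
  obtain ⟨F, hF⟩ := exists_primitive N f
  exact maxp_eq_zero_of_primitive N f F hF fun γ => by
    rw [← periodMap_apply N f hF γ]
    exact h γ

/-- **(E2b)** The real structure `f ↦ conj (f (-conj τ))`. -/
theorem hasConjForms (N : ℕ) [NeZero N] (f : CuspForm (Gamma0 N) 2) :
    ∃ fc : CuspForm (Gamma0 N) 2, ∀ γ : Gamma0 N,
      ModularCurve.periodMap N fc (Additive.ofMul (ModularCurve.Period.jConjGamma0 N γ)) =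
        -(starRingEnd ℂ) (ModularCurve.periodMap N f (Additive.ofMul γ)) := by
  obtain ⟨F, hF⟩ := exists_primitive N f
  obtain ⟨fc, Fc, hFc, hrel⟩ := maxp_exists_conjForm N f F hF
  refine ⟨fc, fun γ => ?_⟩
  rw [periodMap_apply N fc hFc, periodMap_apply N f hF, hrel]

end Fermat.Agent.ES
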