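import Mathlib
import Fermat.Prelude.Def_ModularCurve_PeriodMap
import Fermat.Prelude.Def_ModularCurve_GenusNumerics
import Fermat.Prelude.Def_ModularCurve_X0
import Fermat.Agent.ES.Cocycle

set_option autoImplicit false

namespace Fermat.Agent.ES

open Module ModularGroup MatrixGroups ModularCurve.Period

noncomputable section

theorem pb_S_mul_S : (S * S : SL(2, ℤ)) = -1 := by
  apply Subtype.ext
  ext i j
  fin_cases i <;> fin_cases j <;> simp [Matrix.mul_apply, Fin.sum_univ_two]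

theorem pb_ST_cube : ((S * T) * (S * T) * (S * T) : SL(2, ℤ)) = -1 := by
  apply Subtype.ext
  ext i j
  fin_cases i <;> fin_cases j <;> simp [Matrix.mul_apply, Fin.sum_univ_two]

theorem pb_trace_conj (h g : SL(2, ℤ)) :
    (↑(h⁻¹ * (g * h)) : Matrix (Fin 2) (Fin 2) ℤ).trace = (↑g : Matrix (Fin 2) (Fin 2) ℤ).trace := by
  rw [Matrix.SpecialLinearGroup.coe_mul, Matrix.SpecialLinearGroup.coe_mul, Matrix.trace_mul_comm,
    Matrix.mul_assoc, ← Matrix.SpecialLinearGroup.coe_mul, mul_inv_cancel,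
    Matrix.SpecialLinearGroup.coe_one, Matrix.mul_one]

variable (Γ : Subgroup SL(2, ℤ))

theorem pb_phi_conj_eq_zero {φ : Additive Γ →+ ℂ} (hφ : IsParabolicHom Γ φ) (g h : SL(2, ℤ))
    (htr : (↑g : Matrix (Fin 2) (Fin 2) ℤ).trace ^ 2 = 4) (hm : h⁻¹ * (g * h) ∈ Γ) :
    φ (Additive.ofMul ⟨_, hm⟩) = 0 := by
  apply hφ ⟨_, hm⟩
  show (↑(h⁻¹ * (g * h)) : Matrix (Fin 2) (Fin 2) ℤ).trace ^ 2 = 4
  rw [pb_trace_conj, htr]

theorem pb_neg_one_smul (hneg : (-1 : SL(2, ℤ)) ∈ Γ) (x : SL(2, ℤ) ⧸ Γ) :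
    (-1 : SL(2, ℤ)) • x = x := by
  induction x using QuotientGroup.induction_on with
  | H h =>
    rw [MulAction.Quotient.smul_mk, smul_eq_mul, neg_one_mul, ← mul_neg_one]
    exact QuotientGroup.mk_mul_of_mem h hneg

theorem pb_toPerm_neg_one (hneg : (-1 : SL(2, ℤ)) ∈ Γ) :
    (MulAction.toPerm (-1 : SL(2, ℤ)) : Equiv.Perm (SL(2, ℤ) ⧸ Γ)) = 1 := by
  ext x
  exact pb_neg_one_smul Γ hneg x

theorem pb_cocZ_neg_one (hneg : (-1 : SL(2, ℤ)) ∈ Γ) {φ : Additive Γ →+ ℂ}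
    (hφ : IsParabolicHom Γ φ) : cocZ Γ φ (-1 : SL(2, ℤ)) = 0 := by
  refine cocZ_eq_zero_of_fix Γ φ _ (pb_neg_one_smul Γ hneg) fun h hm => ?_
  exact pb_phi_conj_eq_zero Γ hφ _ h (by simp) hm

theorem pb_closure : Subgroup.closure ({S, S * T} : Set SL(2, ℤ)) = ⊤ := by
  rw [eq_top_iff, ← SpecialLinearGroup.SL2Z_generators, Subgroup.closure_le]
  rintro g (rfl | rfl)
  · exact Subgroup.subset_closure (Set.mem_insert _ _)
  · have h1 : S ∈ Subgroup.closure ({S, S * T} : Set SL(2, ℤ)) :=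
      Subgroup.subset_closure (Set.mem_insert _ _)
    have h2 : S * T ∈ Subgroup.closure ({S, S * T} : Set SL(2, ℤ)) :=
      Subgroup.subset_closure (Set.mem_insert_of_mem _ rfl)
    have h3 := Subgroup.mul_mem _ (Subgroup.inv_mem _ h1) h2
    rwa [inv_mul_cancel_left] at h3

/-- **Main estimate** (`dim H¹_par ≤ 2g` in combinatorial form), for a finite index subgroup
containing `-1`. -/
theorem six_mul_finrank_parabolicHoms_le [Γ.FiniteIndex] (hneg : (-1 : SL(2, ℤ)) ∈ Γ) :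
    Module.Finite ℂ (parabolicHoms ℂ Γ ℂ) ∧
    6 * finrank ℂ (parabolicHoms ℂ Γ ℂ)
      + 6 * Nat.card (MulAction.orbitRel.Quotient (Subgroup.zpowers T) (SL(2, ℤ) ⧸ Γ))
      + 3 * Nat.card (MulAction.fixedBy (SL(2, ℤ) ⧸ Γ) S)
      + 4 * Nat.card (MulAction.fixedBy (SL(2, ℤ) ⧸ Γ) (S * T))
      ≤ Nat.card (SL(2, ℤ) ⧸ Γ) + 12 := by
  classical
  have : Fintype (SL(2, ℤ) ⧸ Γ) := Fintype.ofFinite _
  set s : Equiv.Perm (SL(2, ℤ) ⧸ Γ) := MulAction.toPerm S with hs_def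
  set t : Equiv.Perm (SL(2, ℤ) ⧸ Γ) := MulAction.toPerm T with ht_def
  have hst : (MulAction.toPerm (S * T) : Equiv.Perm (SL(2, ℤ) ⧸ Γ)) = s * t :=
    map_mul (MulAction.toPermHom SL(2, ℤ) (SL(2, ℤ) ⧸ Γ)) S T
  have hs : s * s = 1 := by
    rw [hs_def, ← pb_toPerm_neg_one Γ hneg, ← pb_S_mul_S]
    exact (map_mul (MulAction.toPermHom SL(2, ℤ) (SL(2, ℤ) ⧸ Γ)) S S).symm
  have hu : (s * t) * (s * t) * (s * t) = 1 := by
    rw [← hst, ← pb_toPerm_neg_one Γ hneg, ← pb_ST_cube]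
    have h1 := map_mul (MulAction.toPermHom SL(2, ℤ) (SL(2, ℤ) ⧸ Γ)) ((S * T) * (S * T)) (S * T)
    have h2 := map_mul (MulAction.toPermHom SL(2, ℤ) (SL(2, ℤ) ⧸ Γ)) (S * T) (S * T)
    rw [h2] at h1
    exact h1.symm
  have htrans : ∀ x y : SL(2, ℤ) ⧸ Γ,
      ∃ g ∈ Subgroup.closure ({s, t} : Set (Equiv.Perm (SL(2, ℤ) ⧸ Γ))), g x = y := by
    intro x y
    induction x using QuotientGroup.induction_on with
    | H a =>
    induction y using QuotientGroup.induction_on with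
    | H b =>
    refine ⟨MulAction.toPerm (b * a⁻¹), ?_, ?_⟩
    · have hmem : b * a⁻¹ ∈ Subgroup.closure ({S, T} : Set SL(2, ℤ)) := by
        rw [SpecialLinearGroup.SL2Z_generators]; exact Subgroup.mem_top _
      have := Subgroup.mem_map_of_mem (MulAction.toPermHom SL(2, ℤ) (SL(2, ℤ) ⧸ Γ)) hmem
      rw [MonoidHom.map_closure, Set.image_pair] at this
      exact this
    · rw [MulAction.toPerm_apply, MulAction.Quotient.smul_mk, smul_eq_mul, inv_mul_cancel_right]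
  -- the two linear maps
  set ζS : parabolicHoms ℂ Γ ℂ →ₗ[ℂ] ((SL(2, ℤ) ⧸ Γ) → ℂ) :=
    cocZL Γ S ∘ₗ (parabolicHoms ℂ Γ ℂ).subtype with hζS
  set ζU : parabolicHoms ℂ Γ ℂ →ₗ[ℂ] ((SL(2, ℤ) ⧸ Γ) → ℂ) :=
    cocZL Γ (S * T) ∘ₗ (parabolicHoms ℂ Γ ℂ).subtype with hζU
  have hζS_apply : ∀ φ : parabolicHoms ℂ Γ ℂ, ζS φ = cocZ Γ φ.1 S := fun φ => rfl
  have hζU_apply : ∀ φ : parabolicHoms ℂ Γ ℂ, ζU φ = cocZ Γ φ.1 (S * T) := fun φ => rfl
  have h1 : ∀ φ, ζS φ ∈ antiInv s := by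
    intro φ
    rw [mem_antiInv, hζS_apply]
    have := cocZ_mul Γ φ.1 S S
    rw [pb_S_mul_S, pb_cocZ_neg_one Γ hneg φ.2] at this
    exact this.symm
  have h2 : ∀ φ, ζU φ ∈ cubicKer (s * t) := by
    intro φ
    rw [mem_cubicKer, hζU_apply, ← hst]
    have e1 := cocZ_mul Γ φ.1 (S * T) ((S * T) * (S * T))
    have e2 := cocZ_mul Γ φ.1 (S * T) (S * T)
    rw [← mul_assoc, pb_ST_cube, pb_cocZ_neg_one Γ hneg φ.2, e2, map_add] at e1
    rw [e1]
    abel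
  have h3 : ∀ φ, tAvg t (pOp s⁻¹ (ζU φ - ζS φ)) = 0 := by
    intro φ
    have e1 := cocZ_mul Γ φ.1 S T
    rw [hζU_apply, hζS_apply, e1, add_sub_cancel_left, pOp_inv_pOp, tAvg_apply, ← cocZ_pow]
    have hz : cocZ Γ φ.1 (T ^ orderOf t) = 0 := by
      refine cocZ_eq_zero_of_fix Γ φ.1 _ ?_ fun h hm => ?_
      · intro x
        have := toPerm_pow Γ T (orderOf t)
        rw [← ht_def, pow_orderOf_eq_one] at this
        have h' := congrArg (fun σ : Equiv.Perm (SL(2, ℤ) ⧸ Γ) => σ x) this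
        exact h'.symm
      · refine pb_phi_conj_eq_zero Γ φ.2 _ h ?_ hm
        rw [← zpow_natCast, ← zpow_neg, coe_T_zpow, Matrix.trace_fin_two]
        simp
    rw [hz, smul_zero]
  have h4 : ∀ φ (m : (SL(2, ℤ) ⧸ Γ) → ℂ), ζS φ = pOp s m - m → ζU φ = pOp (s * t) m - m →
      φ = 0 := by
    intro φ m e1 e2
    rw [hζS_apply] at e1
    rw [hζU_apply, ← hst] at e2
    have hall : ∀ g : SL(2, ℤ), cocZ Γ φ.1 g = pOp (MulAction.toPerm g) m - m := by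
      intro g
      refine cocZ_eq_coboundary_of_mem_closure Γ φ.1 m {S, S * T} ?_ ?_
      · rintro g (rfl | rfl)
        · exact e1
        · exact e2
      · rw [pb_closure]; exact Subgroup.mem_top _
    exact Subtype.ext (eq_zero_of_cocZ_eq_coboundary Γ φ.1 m hall)
  obtain ⟨hfin, hmain⟩ := parab_main s t hs hu htrans ζS ζU h1 h2 h3 h4
  refine ⟨hfin, ?_⟩
  have ha := two_mul_finrank_antiInv s hs
  have hb := three_mul_finrank_cubicKer (s * t) hu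
  -- conversions of the counts
  have hcard : Fintype.card (SL(2, ℤ) ⧸ Γ) = Nat.card (SL(2, ℤ) ⧸ Γ) :=
    (Nat.card_eq_fintype_card).symm
  have hfixS : (Finset.univ.filter fun x => s x = x).card =
      Nat.card (MulAction.fixedBy (SL(2, ℤ) ⧸ Γ) S) := by
    rw [Nat.card_eq_fintype_card, ← Fintype.card_subtype]
    rfl
  have hfixU : (Finset.univ.filter fun x => (s * t) x = x).card =
      Nat.card (MulAction.fixedBy (SL(2, ℤ) ⧸ Γ) (S * T)) := by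
    rw [Nat.card_eq_fintype_card, ← Fintype.card_subtype, ← hst]
    rfl
  have horb : finrank ℂ (invSub t) =
      Nat.card (MulAction.orbitRel.Quotient (Subgroup.zpowers T) (SL(2, ℤ) ⧸ Γ)) := by
    refine finrank_invSub_eq t (MulAction.orbitRel (Subgroup.zpowers T) (SL(2, ℤ) ⧸ Γ)) ?_
    intro x y
    rw [MulAction.orbitRel_apply, MulAction.mem_orbit_iff]
    have hzp : ∀ k : ℤ, t ^ k = MulAction.toPerm (T ^ k) := fun k =>
      (map_zpow (MulAction.toPermHom SL(2, ℤ) (SL(2, ℤ) ⧸ Γ)) T k).symm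
    constructor
    · rintro ⟨⟨g, hg⟩, hgy⟩
      obtain ⟨k, rfl⟩ := Subgroup.mem_zpowers_iff.mp hg
      refine ⟨-k, ?_⟩
      rw [hzp, MulAction.toPerm_apply, ← hgy]
      show T ^ (-k) • (T ^ k • y) = y
      rw [← mul_smul, ← zpow_add, neg_add_cancel, zpow_zero, one_smul]
    · rintro ⟨k, hk⟩
      refine ⟨⟨T ^ (-k), Subgroup.zpow_mem_zpowers T (-k)⟩, ?_⟩
      rw [hzp, MulAction.toPerm_apply] at hk
      show T ^ (-k) • y = x
      rw [← hk, ← mul_smul, ← zpow_add, neg_add_cancel, zpow_zero, one_smul]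
  rw [hfixS] at ha
  rw [hfixU] at hb
  rw [horb] at hmain
  rw [hcard] at ha hb hmain
  omega

theorem pb_neg_one_mem_Gamma0 (N : ℕ) : (-1 : SL(2, ℤ)) ∈ CongruenceSubgroup.Gamma0 N := by
  rw [CongruenceSubgroup.Gamma0_mem]
  simp

/-- E3 for `Γ₀(N)`, combinatorial form. -/
theorem six_mul_finrank_parabolicHoms_Gamma0_le (N : ℕ) [NeZero N] :
    Module.Finite ℂ (parabolicHoms ℂ (CongruenceSubgroup.Gamma0 N) ℂ) ∧
    6 * finrank ℂ (parabolicHoms ℂ (CongruenceSubgroup.Gamma0 N) ℂ)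
      + 6 * Nat.card (MulAction.orbitRel.Quotient (Subgroup.zpowers T)
          (SL(2, ℤ) ⧸ CongruenceSubgroup.Gamma0 N))
      + 3 * Nat.card (MulAction.fixedBy (SL(2, ℤ) ⧸ CongruenceSubgroup.Gamma0 N) S)
      + 4 * Nat.card (MulAction.fixedBy (SL(2, ℤ) ⧸ CongruenceSubgroup.Gamma0 N) (S * T))
      ≤ Nat.card (SL(2, ℤ) ⧸ CongruenceSubgroup.Gamma0 N) + 12 :=
  six_mul_finrank_parabolicHoms_le (CongruenceSubgroup.Gamma0 N) (pb_neg_one_mem_Gamma0 N)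

/-- E3: `dim H¹_par(Γ₀(N), ℂ) ≤ 2 g`, given the four coset-space counts. -/
theorem finrank_parabolicHoms_le_two_genus (N : ℕ) [NeZero N]
    (hX : Nat.card (SL(2, ℤ) ⧸ CongruenceSubgroup.Gamma0 N) = ModularCurve.dedekindPsi N)
    (h2 : Nat.card (MulAction.fixedBy (SL(2, ℤ) ⧸ CongruenceSubgroup.Gamma0 N) S)
      = ModularCurve.nuTwo N)
    (h3 : Nat.card (MulAction.fixedBy (SL(2, ℤ) ⧸ CongruenceSubgroup.Gamma0 N) (S * T))
      = ModularCurve.nuThree N)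
    (hc : Nat.card (MulAction.orbitRel.Quotient (Subgroup.zpowers T)
      (SL(2, ℤ) ⧸ CongruenceSubgroup.Gamma0 N)) = ModularCurve.cuspCount N) :
    (finrank ℂ (parabolicHoms ℂ (CongruenceSubgroup.Gamma0 N) ℂ) : ℚ)
      ≤ 2 * ModularCurve.genusFormula N := by
  have h := (six_mul_finrank_parabolicHoms_Gamma0_le N).2
  rw [hX, h2, h3, hc] at h
  have h' : (6 * finrank ℂ (parabolicHoms ℂ (CongruenceSubgroup.Gamma0 N) ℂ) : ℚ)
      + 6 * (ModularCurve.cuspCount N : ℚ) + 3 * (ModularCurve.nuTwo N : ℚ)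
      + 4 * (ModularCurve.nuThree N : ℚ) ≤ (ModularCurve.dedekindPsi N : ℚ) + 12 := by
    exact_mod_cast h
  rw [ModularCurve.genusFormula]
  linarith

end

end Fermat.Agent.ES
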