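import Mathlib
import Fermat.Agent.ES.Primitive
import Fermat.Agent.ES.ParabolicBound
import Fermat.Agent.ES.XCount
import Fermat.Agent.ES.XCusp

set_option autoImplicit false

/-!
PROJECT ES, assembly of the Eichler–Shimura side: injectivity of `periodHomPair`, the upper bound
`dim S₂(Γ₀(N)) ≤ g`, and `S21` given the dimension formula.
-/

namespace Fermat.Agent.ES

open UpperHalfPlane hiding I
open Complex CongruenceSubgroup Module
open scoped MatrixGroups
open ModularCurve ModularCurve.Period

noncomputable section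

variable {N : ℕ}

/-- The hypothesis delivered by (E2), maximum principle. -/
def RealPeriodsVanish (N : ℕ) : Prop :=
  ∀ f : CuspForm (Gamma0 N) 2,
    (∀ γ : Gamma0 N, (periodMap N f (Additive.ofMul γ)).im = 0) → f = 0

/-- The hypothesis delivered by (E2), real structure. -/
def HasConjForms (N : ℕ) : Prop :=
  ∀ f : CuspForm (Gamma0 N) 2, ∃ fc : CuspForm (Gamma0 N) 2, ∀ γ : Gamma0 N,
    periodMap N fc (Additive.ofMul (jConjGamma0 N γ)) =
      -(starRingEnd ℂ) (periodMap N f (Additive.ofMul γ))

theorem upper_periodMap_add [NeZero N] (f g : CuspForm (Gamma0 N) 2) :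
    periodMap N (f + g) = periodMap N f + periodMap N g :=
  (periodMapLin N).map_add f g

theorem upper_periodMap_sub [NeZero N] (f g : CuspForm (Gamma0 N) 2) :
    periodMap N (f - g) = periodMap N f - periodMap N g :=
  (periodMapLin N).map_sub f g

theorem upper_periodMap_smul [NeZero N] (c : ℂ) (f : CuspForm (Gamma0 N) 2) :
    periodMap N (c • f) = c • periodMap N f :=
  (periodMapLin N).map_smul c f

/-- if `P f + c (P f) = 0` then `f = 0`. -/
theorem upper_eq_zero_of_plus [NeZero N] (h2 : RealPeriodsVanish N) (hc : HasConjForms N)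
    (f : CuspForm (Gamma0 N) 2)
    (h : ∀ γ : Gamma0 N, periodMap N f (Additive.ofMul γ)
      + periodMap N f (Additive.ofMul (jConjGamma0 N γ)) = 0) : f = 0 := by
  obtain ⟨fc, hfc⟩ := hc f
  have hfc' : ∀ γ : Gamma0 N, periodMap N fc (Additive.ofMul γ)
      = (starRingEnd ℂ) (periodMap N f (Additive.ofMul γ)) := by
    intro γ
    have h1 := hfc (jConjGamma0 N γ)
    rw [jConjGamma0_jConjGamma0] at h1
    have h3 : periodMap N f (Additive.ofMul (jConjGamma0 N γ))
        = - periodMap N f (Additive.ofMul γ) := by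
      linear_combination h γ
    rw [h1, h3, map_neg, neg_neg]
  have e1 : f + fc = 0 := by
    apply h2
    intro γ
    rw [upper_periodMap_add, AddMonoidHom.add_apply, hfc' γ]
    simp
  have e2 : (I : ℂ) • (f - fc) = 0 := by
    apply h2
    intro γ
    rw [upper_periodMap_smul, upper_periodMap_sub, AddMonoidHom.smul_apply,
      AddMonoidHom.sub_apply, hfc' γ]
    simp
  have e3 : f - fc = 0 := by
    rcases smul_eq_zero.mp e2 with h0 | h0
    · exact absurd h0 I_ne_zero
    · exact h0
  have e4 : (2 : ℂ) • f = 0 := by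
    have : (2 : ℂ) • f = (f + fc) + (f - fc) := by
      rw [two_smul]; abel
    rw [this, e1, e3, add_zero]
  rcases smul_eq_zero.mp e4 with h0 | h0
  · exact absurd h0 two_ne_zero
  · exact h0

/-- if `P g - c (P g) = 0` then `g = 0`. -/
theorem upper_eq_zero_of_minus [NeZero N] (h2 : RealPeriodsVanish N) (hc : HasConjForms N)
    (g : CuspForm (Gamma0 N) 2)
    (h : ∀ γ : Gamma0 N, periodMap N g (Additive.ofMul γ)
      - periodMap N g (Additive.ofMul (jConjGamma0 N γ)) = 0) : g = 0 := by
  obtain ⟨gc, hgc⟩ := hc g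
  have hgc' : ∀ γ : Gamma0 N, periodMap N gc (Additive.ofMul γ)
      = -(starRingEnd ℂ) (periodMap N g (Additive.ofMul γ)) := by
    intro γ
    have h1 := hgc (jConjGamma0 N γ)
    rw [jConjGamma0_jConjGamma0] at h1
    have h3 : periodMap N g (Additive.ofMul (jConjGamma0 N γ))
        = periodMap N g (Additive.ofMul γ) := by
      linear_combination -(h γ)
    rw [h1, h3]
  have e1 : g - gc = 0 := by
    apply h2
    intro γ
    rw [upper_periodMap_sub, AddMonoidHom.sub_apply, hgc' γ]
    simp
  have e2 : (I : ℂ) • (g + gc) = 0 := by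
    apply h2
    intro γ
    rw [upper_periodMap_smul, upper_periodMap_add, AddMonoidHom.smul_apply,
      AddMonoidHom.add_apply, hgc' γ]
    simp
  have e3 : g + gc = 0 := by
    rcases smul_eq_zero.mp e2 with h0 | h0
    · exact absurd h0 I_ne_zero
    · exact h0
  have e4 : (2 : ℂ) • g = 0 := by
    have : (2 : ℂ) • g = (g + gc) + (g - gc) := by
      rw [two_smul]; abel
    rw [this, e1, e3, add_zero]
  rcases smul_eq_zero.mp e4 with h0 | h0
  · exact absurd h0 two_ne_zero
  · exact h0

theorem periodHomPair_injective [NeZero N] (h2 : RealPeriodsVanish N) (hc : HasConjForms N) :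
    Function.Injective (periodHomPair N) := by
  rw [injective_iff_map_eq_zero]
  rintro ⟨f, g⟩ hfg
  rw [periodHomPair_apply] at hfg
  -- evaluate at `γ` and at `J γ`
  have key : ∀ γ : Gamma0 N,
      (periodMap N f (Additive.ofMul γ) + periodMap N f (Additive.ofMul (jConjGamma0 N γ)))
      + (periodMap N g (Additive.ofMul γ) - periodMap N g (Additive.ofMul (jConjGamma0 N γ)))
        = 0 := by
    intro γ
    have := congrArg (fun φ : Additive (Gamma0 N) →+ ℂ => φ (Additive.ofMul γ)) hfg
    simpa [charInvolution_apply] using this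
  have hplus : ∀ γ : Gamma0 N, periodMap N f (Additive.ofMul γ)
      + periodMap N f (Additive.ofMul (jConjGamma0 N γ)) = 0 := by
    intro γ
    have h1 := key γ
    have h3 := key (jConjGamma0 N γ)
    rw [jConjGamma0_jConjGamma0] at h3
    linear_combination (1 / 2 : ℂ) * h1 + (1 / 2 : ℂ) * h3
  have hminus : ∀ γ : Gamma0 N, periodMap N g (Additive.ofMul γ)
      - periodMap N g (Additive.ofMul (jConjGamma0 N γ)) = 0 := by
    intro γ
    have h1 := key γ
    have h3 := key (jConjGamma0 N γ)
    rw [jConjGamma0_jConjGamma0] at h3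
    linear_combination (1 / 2 : ℂ) * h1 - (1 / 2 : ℂ) * h3
  rw [upper_eq_zero_of_plus h2 hc f hplus, upper_eq_zero_of_minus h2 hc g hminus]
  rfl

/-- E3 with the four counts plugged in. -/
theorem finrank_parabolicHoms_le (N : ℕ) [NeZero N] :
    (finrank ℂ (parabolicHoms ℂ (Gamma0 N) ℂ) : ℚ) ≤ 2 * ModularCurve.genusFormula N :=
  finrank_parabolicHoms_le_two_genus N (xcount_card N) (xcount_fixedBy_S N)
    (xcount_fixedBy_ST N) (xcusp_card_orbits N)

theorem finite_parabolicHoms (N : ℕ) [NeZero N] :
    Module.Finite ℂ (parabolicHoms ℂ (Gamma0 N) ℂ) :=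
  (six_mul_finrank_parabolicHoms_Gamma0_le N).1

/-- the period pair map, with codomain restricted to the parabolic homs. -/
def periodHomPairPar (N : ℕ) [NeZero N] :
    (CuspForm (Gamma0 N) 2 × CuspForm (Gamma0 N) 2) →ₗ[ℂ] parabolicHoms ℂ (Gamma0 N) ℂ :=
  LinearMap.codRestrict _ (periodHomPair N) fun x =>
    range_periodHomPair_le N (LinearMap.mem_range_self _ x)

theorem periodHomPairPar_injective [NeZero N] (h2 : RealPeriodsVanish N) (hc : HasConjForms N) :
    Function.Injective (periodHomPairPar N) := by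
  intro x y hxy
  apply periodHomPair_injective h2 hc
  exact congrArg Subtype.val hxy

theorem finite_cuspForm_prod [NeZero N] (h2 : RealPeriodsVanish N) (hc : HasConjForms N) :
    Module.Finite ℂ (CuspForm (Gamma0 N) 2 × CuspForm (Gamma0 N) 2) := by
  have := finite_parabolicHoms N
  exact Module.Finite.of_injective (periodHomPairPar N) (periodHomPairPar_injective h2 hc)

theorem finite_cuspForm_two [NeZero N] (h2 : RealPeriodsVanish N) (hc : HasConjForms N) :
    Module.Finite ℂ (CuspForm (Gamma0 N) 2) := by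
  have := finite_cuspForm_prod h2 hc
  exact Module.Finite.of_injective (LinearMap.inl ℂ (CuspForm (Gamma0 N) 2) (CuspForm (Gamma0 N) 2))
    LinearMap.inl_injective

/-- The upper bound `dim S₂(Γ₀(N)) ≤ g`. -/
theorem finrank_cuspForm_le [NeZero N] (h2 : RealPeriodsVanish N) (hc : HasConjForms N) :
    (finrank ℂ (CuspForm (Gamma0 N) 2) : ℚ) ≤ ModularCurve.genusFormula N := by
  have := finite_parabolicHoms N
  have := finite_cuspForm_two h2 hc
  have h1 : finrank ℂ (CuspForm (Gamma0 N) 2 × CuspForm (Gamma0 N) 2)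
      ≤ finrank ℂ (parabolicHoms ℂ (Gamma0 N) ℂ) :=
    LinearMap.finrank_le_finrank_of_injective (periodHomPairPar_injective h2 hc)
  rw [Module.finrank_prod] at h1
  have h3 := finrank_parabolicHoms_le N
  have h4 : (2 * finrank ℂ (CuspForm (Gamma0 N) 2) : ℚ)
      ≤ finrank ℂ (parabolicHoms ℂ (Gamma0 N) ℂ) := by
    have : 2 * finrank ℂ (CuspForm (Gamma0 N) 2) ≤ finrank ℂ (parabolicHoms ℂ (Gamma0 N) ℂ) := by
      omega
    exact_mod_cast this
  linarith

/-- `S21`, given (E2) and the dimension formula. -/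
theorem eichlerShimura_of_finrank [NeZero N] (h2 : RealPeriodsVanish N) (hc : HasConjForms N)
    (hdim : (finrank ℂ (CuspForm (Gamma0 N) 2) : ℚ) = ModularCurve.genusFormula N) :
    Function.Injective (periodHomPair N)
      ∧ LinearMap.range (periodHomPair N) = parabolicHoms ℂ (Gamma0 N) ℂ := by
  refine ⟨periodHomPair_injective h2 hc, ?_⟩
  have := finite_parabolicHoms N
  have := finite_cuspForm_two h2 hc
  apply Submodule.eq_of_le_of_finrank_le (range_periodHomPair_le N)
  rw [LinearMap.finrank_range_of_inj (periodHomPair_injective h2 hc), Module.finrank_prod]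
  have h3 := finrank_parabolicHoms_le N
  rw [← hdim] at h3
  have : (finrank ℂ (parabolicHoms ℂ (Gamma0 N) ℂ) : ℚ)
      ≤ ((finrank ℂ (CuspForm (Gamma0 N) 2) + finrank ℂ (CuspForm (Gamma0 N) 2) : ℕ) : ℚ) := by
    push_cast; linarith
  exact_mod_cast this

end

end Fermat.Agent.ES
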