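import Mathlib
import Fermat.Agent.ES.Upper
import Fermat.Agent.ES.Lower
import Fermat.Agent.ES.MaxPrinciple

set_option autoImplicit false

/-!
PROJECT ES: the dimension formula `dim S₂(Γ₀(N)) = g` and the Eichler–Shimura isomorphism.
-/

namespace Fermat.Agent.ES

open CongruenceSubgroup Module
open scoped MatrixGroups

noncomputable section

theorem realPeriodsVanish' (N : ℕ) [NeZero N] : RealPeriodsVanish N :=
  fun f h => realPeriodsVanish N f h

theorem hasConjForms' (N : ℕ) [NeZero N] : HasConjForms N :=
  fun f => hasConjForms N f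

/-- `dim S₂(Γ₀(N)) = g`. -/
theorem finrank_cuspForm_eq_genus (N : ℕ) [NeZero N] :
    (finrank ℂ (CuspForm (Gamma0 N) 2) : ℚ) = ModularCurve.genusFormula N :=
  le_antisymm (finrank_cuspForm_le (realPeriodsVanish' N) (hasConjForms' N))
    (genus_le_finrank_cuspForm N)

/-- Eichler–Shimura. -/
theorem periodHomPair_eichlerShimura (N : ℕ) [NeZero N] :
    Function.Injective (ModularCurve.periodHomPair N)
      ∧ LinearMap.range (ModularCurve.periodHomPair N)
          = ModularCurve.Period.parabolicHoms ℂ (Gamma0 N) ℂ :=
  eichlerShimura_of_finrank (realPeriodsVanish' N) (hasConjForms' N) (finrank_cuspForm_eq_genus N)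

end

end Fermat.Agent.ES
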