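import Fermat.Agent.ES.LLinAlg

set_option autoImplicit false

namespace Fermat.Agent.ES

open UpperHalfPlane ModularForm MatrixGroups
open scoped ModularForm Manifold

noncomputable section

/-- `g` is (the function of) a level-one modular form of weight `w` -/
def IsLevelOneFn (w : ℤ) (g : ℍ → ℂ) : Prop := ∃ G : ModularForm 𝒮ℒ w, ⇑G = g

theorem isLevelOneFn_zero (w : ℤ) : IsLevelOneFn w 0 := ⟨0, rfl⟩

theorem isLevelOneFn_monomial (a b : ℕ) (c : ℂ) (w : ℤ) (hw : w = 4 * (a : ℤ) + 6 * (b : ℤ)) :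
    IsLevelOneFn w (fun z => c * E₄ z ^ a * E₆ z ^ b) := by
  subst hw
  refine ⟨(c • ((E₄.pow a).mul (E₆.pow b))).mcast (by ring), ?_⟩
  funext z
  simp [mul_assoc]

section Abstract

variable {X : Type*} [Fintype X] {ι : Type*} [Fintype ι] (j : ι → ℕ) (Φ : ι → X → ℍ → ℂ)

/-- the key property (division by a level-one form + freeness) at the point `z0` -/
def KeyAt (z0 : ℍ) : Prop :=
  ∀ (m : ℕ) (g : ι → ℍ → ℂ), (∀ i, IsLevelOneFn (2 * (m : ℤ) - 2 * (j i : ℤ)) (g i)) →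
    (∀ x, ∑ i, g i z0 * Φ i x z0 = 0) → ∀ i, g i z0 = 0

variable {j Φ}

omit [Fintype X] in
/-- (L2) at a generic point the conjugate vectors of the basis are linearly independent -/
theorem linearIndependent_of_keyAt_generic {z0 : ℍ} (hkey : KeyAt j Φ z0) (h4 : E₄ z0 ≠ 0)
    (h6 : E₆ z0 ≠ 0) : LinearIndependent ℂ (fun i => fun x => Φ i x z0) := by
  rw [Fintype.linearIndependent_iff]
  intro c hc
  let m : ℕ := (Finset.univ.sup j) + 2
  have hm : ∀ i, j i + 2 ≤ m := fun i =>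
    Nat.add_le_add_right (Finset.le_sup (Finset.mem_univ i)) 2
  let a : ι → ℕ := fun i => if (m - j i) % 2 = 0 then (m - j i) / 2 else (m - j i - 3) / 2
  let b : ι → ℕ := fun i => if (m - j i) % 2 = 0 then 0 else 1
  have hab : ∀ i, (2 * (m : ℤ) - 2 * (j i : ℤ)) = 4 * (a i : ℤ) + 6 * (b i : ℤ) := by
    intro i
    have := hm i
    simp only [a, b]
    split_ifs with h <;> omega
  let g : ι → ℍ → ℂ := fun i z =>
    (c i / (E₄ z0 ^ a i * E₆ z0 ^ b i)) * E₄ z ^ a i * E₆ z ^ b i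
  have hg : ∀ i, g i z0 = c i := by
    intro i
    simp only [g]
    field_simp
  have hkey' := hkey m g (fun i => isLevelOneFn_monomial _ _ _ _ (hab i)) (fun x => by
    simp only [hg]
    have := congrFun hc x
    simpa [Finset.sum_apply] using this)
  intro i
  rw [← hg i]
  exact hkey' i

end Abstract

section Fixed

theorem geom_sum_primitive {θ : ℂ} {r : ℕ} (hθ : IsPrimitiveRoot θ r) (s : ℕ) :
    ∑ t ∈ Finset.range r, (θ ^ s) ^ t = if r ∣ s then (r : ℂ) else 0 := by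
  split_ifs with h
  · have h1 : θ ^ s = 1 := (hθ.pow_eq_one_iff_dvd s).mpr h
    simp [h1]
  · have h1 : θ ^ s ≠ 1 := fun h' => h ((hθ.pow_eq_one_iff_dvd s).mp h')
    have h2 : (θ ^ s) ^ r = 1 := by rw [← pow_mul, mul_comm, pow_mul, hθ.pow_eq_one, one_pow]
    have h3 := geom_sum_mul (θ ^ s) r
    rw [h2, sub_self] at h3
    exact (mul_eq_zero.mp h3).resolve_right (sub_ne_zero.mpr h1)

theorem dvd_add_sub_iff {r a s : ℕ} (ha : a < r) : r ∣ s + (r - a) ↔ s % r = a := by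
  constructor
  · intro h
    have h1 : (s + (r - a) + a) % r = a % r := by
      rw [Nat.add_mod, Nat.mod_eq_zero_of_dvd h, zero_add, Nat.mod_mod]
    rw [show s + (r - a) + a = s + r by omega, Nat.add_mod_right, Nat.mod_eq_of_lt ha] at h1
    exact h1
  · intro h
    have h1 : s + (r - a) = r * (s / r) + r := by
      have := Nat.div_add_mod s r
      omega
    rw [h1]
    exact Dvd.dvd.add (dvd_mul_right _ _) dvd_rfl

variable {X : Type*} [Fintype X] [MulAction SL(2, ℤ) X] {ι : Type*} [Fintype ι] {j : ι → ℕ}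
  {Φ : ι → X → ℍ → ℂ}

omit [Fintype X] [Fintype ι] in
/-- eigen-relation at a fixed point -/
theorem eigen_of_fixed {z0 : ℍ} (γ : SL(2, ℤ)) (hγ : γ • z0 = z0)
    (hΦ : ∀ i x, (Φ i x) ∣[(2 * (j i : ℤ))] γ = Φ i (γ⁻¹ • x)) (i : ι) (x : X) :
    Φ i (γ⁻¹ • x) z0 = ((denom γ z0) ^ (-2 : ℤ)) ^ (j i) * Φ i x z0 := by
  rw [← hΦ i x, SL_slash_apply, hγ, mul_comm]
  congr 1
  rw [← zpow_natCast, ← zpow_mul]
  congr 1

omit [Fintype X] in
/-- (L3/L4) at a point fixed by an elliptic element the conjugate vectors of the basis are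
linearly independent. -/
theorem linearIndependent_of_keyAt_fixed {z0 : ℍ} (hkey : KeyAt j Φ z0) (γ : SL(2, ℤ))
    (hγ : γ • z0 = z0) (hΦ : ∀ i x, (Φ i x) ∣[(2 * (j i : ℤ))] γ = Φ i (γ⁻¹ • x))
    {r : ℕ} (hr : 0 < r) (hprim : IsPrimitiveRoot ((denom γ z0) ^ (-2 : ℤ)) r)
    (E : ModularForm 𝒮ℒ (2 * (r : ℤ))) (hE : E z0 ≠ 0) :
    LinearIndependent ℂ (fun i => fun x => Φ i x z0) := by
  set θ : ℂ := (denom γ z0) ^ (-2 : ℤ) with hθ
  have heig := eigen_of_fixed (Φ := Φ) (j := j) γ hγ hΦ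
  rw [← hθ] at heig
  rw [Fintype.linearIndependent_iff]
  intro c hc
  have hiter : ∀ (t : ℕ) (x : X), ∑ i, c i * (θ ^ (j i)) ^ t * Φ i x z0 = 0 := by
    intro t
    induction t with
    | zero =>
      intro x
      simpa [Finset.sum_apply] using congrFun hc x
    | succ t ih =>
      intro x
      rw [← ih (γ⁻¹ • x)]
      refine Finset.sum_congr rfl fun i _ => ?_
      rw [heig i x]
      ring
  have hclass : ∀ a, a < r → ∀ x, ∑ i, (if j i % r = a then c i else 0) * Φ i x z0 = 0 := by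
    intro a ha x
    have h1 : ∑ t ∈ Finset.range r,
        (θ ^ (r - a)) ^ t * ∑ i, c i * (θ ^ (j i)) ^ t * Φ i x z0 = 0 := by
      simp [hiter]
    simp only [Finset.mul_sum] at h1
    rw [Finset.sum_comm] at h1
    have h2 : ∀ i, ∑ t ∈ Finset.range r, (θ ^ (r - a)) ^ t * (c i * (θ ^ (j i)) ^ t * Φ i x z0)
        = (r : ℂ) * ((if j i % r = a then c i else 0) * Φ i x z0) := by
      intro i
      have h3 : ∀ t, (θ ^ (r - a)) ^ t * (c i * (θ ^ (j i)) ^ t * Φ i x z0)
          = c i * Φ i x z0 * (θ ^ (j i + (r - a))) ^ t := by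
        intro t
        rw [pow_add, mul_pow]
        ring
      simp_rw [h3]
      rw [← Finset.mul_sum, geom_sum_primitive hprim]
      by_cases h : j i % r = a
      · rw [if_pos ((dvd_add_sub_iff ha).mpr h), if_pos h]
        ring
      · rw [if_neg (mt (dvd_add_sub_iff ha).mp h), if_neg h]
        ring
    rw [Finset.sum_congr rfl (fun i _ => h2 i), ← Finset.mul_sum] at h1
    exact (mul_eq_zero.mp h1).resolve_left (Nat.cast_ne_zero.mpr hr.ne')
  intro i₀
  set a := j i₀ % r with ha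
  have har : a < r := Nat.mod_lt _ hr
  let M : ℕ := Finset.univ.sup j
  let m : ℕ := a + r * M
  have hjm : ∀ i, j i ≤ m := fun i => by
    have h1 : j i ≤ M := Finset.le_sup (Finset.mem_univ i)
    have h2 : M ≤ r * M := Nat.le_mul_of_pos_left M hr
    omega
  have hdvd : ∀ i, j i % r = a → r ∣ m - j i := fun i hi => by
    rw [← Nat.modEq_iff_dvd' (hjm i)]
    change j i % r = m % r
    rw [hi, Nat.add_mul_mod_self_left, Nat.mod_eq_of_lt har]
  let b : ι → ℕ := fun i => (m - j i) / r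
  have hb : ∀ i, j i % r = a → ((b i : ℕ) : ℤ) * (2 * (r : ℤ)) = 2 * (m : ℤ) - 2 * (j i : ℤ) := by
    intro i hi
    have h1 : r * b i = m - j i := Nat.mul_div_cancel' (hdvd i hi)
    have h2 := hjm i
    have h3 : (r : ℤ) * (b i : ℤ) = (m : ℤ) - (j i : ℤ) := by
      rw [← Nat.cast_mul, h1, Nat.cast_sub h2]
    linear_combination 2 * h3
  let g : ι → ℍ → ℂ := fun i z => if j i % r = a then (c i / E z0 ^ b i) * E z ^ b i else 0
  have hg : ∀ i, IsLevelOneFn (2 * (m : ℤ) - 2 * (j i : ℤ)) (g i) := by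
    intro i
    by_cases hi : j i % r = a
    · refine ⟨((c i / E z0 ^ b i) • (E.pow (b i))).mcast (hb i hi), ?_⟩
      funext z
      simp only [g, if_pos hi]
      change (c i / E z0 ^ b i) • (E.pow (b i)) z = _
      rw [ModularForm.coe_pow]
      rfl
    · have : g i = 0 := by
        funext z
        simp only [g, if_neg hi]
        rfl
      rw [this]
      exact isLevelOneFn_zero _
  have hgz : ∀ i, g i z0 = if j i % r = a then c i else 0 := by
    intro i
    simp only [g]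
    split_ifs
    · field_simp
    · rfl
  have hkey' := hkey m g hg (fun x => by
    simp only [hgz]
    exact hclass a har x)
  have := hkey' i₀
  rw [hgz, if_pos ha.symm] at this
  exact this

/-- (L3/L4) counting: the sum of the eigenvalues is the number of fixed points. -/
theorem sum_pow_eq_card_fixedPoints [DecidableEq X] [DecidableEq ι] {z0 : ℍ}
    (hkey : KeyAt j Φ z0) (γ : SL(2, ℤ))
    (hγ : γ • z0 = z0) (hΦ : ∀ i x, (Φ i x) ∣[(2 * (j i : ℤ))] γ = Φ i (γ⁻¹ • x))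
    {r : ℕ} (hr : 0 < r) (hprim : IsPrimitiveRoot ((denom γ z0) ^ (-2 : ℤ)) r)
    (E : ModularForm 𝒮ℒ (2 * (r : ℤ))) (hE : E z0 ≠ 0)
    (hcard : Fintype.card ι = Fintype.card X) :
    ∑ i, ((denom γ z0) ^ (-2 : ℤ)) ^ (j i) =
      (Fintype.card (Function.fixedPoints (MulAction.toPerm γ⁻¹ : Equiv.Perm X)) : ℂ) :=
  sum_eigenvalues_eq_card_fixedPoints (MulAction.toPerm γ⁻¹) (fun i => fun x => Φ i x z0)
    (fun i => ((denom γ z0) ^ (-2 : ℤ)) ^ (j i))
    (linearIndependent_of_keyAt_fixed hkey γ hγ hΦ hr hprim E hE) hcard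
    (fun i x => eigen_of_fixed γ hγ hΦ i x)

/-- (L3/L4) counting, instance-free form. -/
theorem sum_pow_eq_card_fixedBy {z0 : ℍ}
    (hkey : KeyAt j Φ z0) (γ : SL(2, ℤ))
    (hγ : γ • z0 = z0) (hΦ : ∀ i x, (Φ i x) ∣[(2 * (j i : ℤ))] γ = Φ i (γ⁻¹ • x))
    {r : ℕ} (hr : 0 < r) (hprim : IsPrimitiveRoot ((denom γ z0) ^ (-2 : ℤ)) r)
    (E : ModularForm 𝒮ℒ (2 * (r : ℤ))) (hE : E z0 ≠ 0)
    (hcard : Fintype.card ι = Fintype.card X) :
    ∑ i, ((denom γ z0) ^ (-2 : ℤ)) ^ (j i) = (Nat.card (MulAction.fixedBy X γ) : ℂ) := by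
  classical
  rw [sum_pow_eq_card_fixedPoints hkey γ hγ hΦ hr hprim E hE hcard]
  congr 1
  rw [← Nat.card_eq_fintype_card]
  refine Nat.card_congr (Equiv.setCongr ?_)
  ext x
  simp only [Function.mem_fixedPoints, Function.IsFixedPt, MulAction.toPerm_apply,
    MulAction.mem_fixedBy, inv_smul_eq_iff]
  exact eq_comm

end Fixed

end

end Fermat.Agent.ES
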