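import Fermat.Agent.ES.LKey

set_option autoImplicit false

/-!
# ES / (L2)–(L4): independence of the conjugate vectors at every point, and the counts of the
half-weights modulo `2` and modulo `3`
-/

namespace Fermat.Agent.ES

open UpperHalfPlane hiding I
open Complex Filter ModularForm ModularFormClass SlashInvariantForm CongruenceSubgroup
open scoped MatrixGroups ModularForm Topology Manifold

noncomputable section

variable {N : ℕ} [NeZero N]

/-- half-weights of a GM-basis -/
def GMBasis.hw (B : GMBasis N) (i : X N) : ℕ := B.wt i / 2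

theorem GMBasis.two_mul_hw (B : GMBasis N) (i : X N) : 2 * B.hw i = B.wt i :=
  Nat.two_mul_div_two_of_even (B.wt_even i)

theorem GMBasis.two_mul_hw_int (B : GMBasis N) (i : X N) : 2 * (B.hw i : ℤ) = (B.wt i : ℤ) := by
  exact_mod_cast B.two_mul_hw i

/-- the matrix of conjugates of a GM-basis -/
def GMBasis.Φ (B : GMBasis N) (i : X N) (x : X N) : ℍ → ℂ := cj (B.F i) x

theorem GMBasis.keyAt_abs (B : GMBasis N) (z0 : ℍ) : KeyAt B.hw B.Φ z0 := by
  intro m g hg hz
  refine keyAt B z0 m g (fun i => ?_) hz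
  have h1 := hg i
  rw [B.two_mul_hw_int i] at h1
  exact h1

theorem GMBasis.Φ_slash (B : GMBasis N) (γ : SL(2, ℤ)) (i : X N) (x : X N) :
    (B.Φ i x) ∣[(2 * (B.hw i : ℤ))] γ = B.Φ i (γ⁻¹ • x) := by
  rw [B.two_mul_hw_int i]
  exact cj_slash (B.F i) γ x

theorem theta_I : (denom ModularGroup.S UpperHalfPlane.I) ^ (-2 : ℤ) = -1 := by
  rw [ModularGroup.denom_S, UpperHalfPlane.coe_I, zpow_neg, zpow_ofNat, Complex.I_sq]
  norm_num

theorem GMBasis.linearIndependent_I (B : GMBasis N) :
    LinearIndependent ℂ (fun i => fun x => B.Φ i x UpperHalfPlane.I) :=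
  linearIndependent_of_keyAt_fixed (B.keyAt_abs _) ModularGroup.S S_smul_I (B.Φ_slash _)
    (r := 2) (by norm_num) (by rw [theta_I]; exact IsPrimitiveRoot.neg_one 0 (by norm_num))
    (ModularForm.mcast (by norm_num) E₄) (by rw [mcast_apply]; exact (E₄_ne_zero_of_E₆_eq_zero E₆_I))

theorem GMBasis.sum_neg_one_pow_hw (B : GMBasis N) :
    ∑ i, (-1 : ℂ) ^ (B.hw i) = (Nat.card (MulAction.fixedBy (X N) ModularGroup.S) : ℂ) := by
  have h := sum_pow_eq_card_fixedBy (B.keyAt_abs _) ModularGroup.S S_smul_I (B.Φ_slash _)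
    (r := 2) (by norm_num) (by rw [theta_I]; exact IsPrimitiveRoot.neg_one 0 (by norm_num))
    (ModularForm.mcast (by norm_num) E₄) (by rw [mcast_apply]; exact (E₄_ne_zero_of_E₆_eq_zero E₆_I)) rfl
  rw [theta_I] at h
  exact h

/-- (L3) the number of basis elements of weight `≡ 0 mod 4`. -/
theorem GMBasis.two_mul_card_even (B : GMBasis N) :
    2 * (Finset.univ.filter fun i => B.hw i % 2 = 0).card =
      Nat.card (X N) + Nat.card (MulAction.fixedBy (X N) ModularGroup.S) := by
  have h := B.sum_neg_one_pow_hw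
  have h1 : ∀ i, (-1 : ℂ) ^ (B.hw i) = 2 * (if B.hw i % 2 = 0 then 1 else 0) - 1 := by
    intro i
    split_ifs with hi
    · rw [Even.neg_one_pow (Nat.even_iff.mpr hi)]
      norm_num
    · rw [Odd.neg_one_pow (Nat.odd_iff.mpr (by omega))]
      norm_num
  simp only [h1, Finset.sum_sub_distrib, ← Finset.mul_sum, Finset.sum_boole, Finset.sum_const,
    Finset.card_univ, nsmul_eq_mul, mul_one] at h
  rw [Nat.card_eq_fintype_card]
  have h2 : ((2 * (Finset.univ.filter fun i => B.hw i % 2 = 0).card : ℕ) : ℂ) =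
      ((Fintype.card (X N) + Nat.card (MulAction.fixedBy (X N) ModularGroup.S) : ℕ) : ℂ) := by
    push_cast
    linear_combination h
  exact_mod_cast h2

/-- a fixed point of `S * T` is a primitive cube root of unity -/
theorem sq_add_of_ST_smul (z : ℍ) (hz : (ModularGroup.S * ModularGroup.T : SL(2, ℤ)) • z = z) :
    (z : ℂ) ^ 2 + z + 1 = 0 := by
  rw [mul_smul, UpperHalfPlane.modular_T_smul, UpperHalfPlane.modular_S_smul] at hz
  have h1 := congrArg (fun w : ℍ => (w : ℂ)) hz
  simp only [UpperHalfPlane.coe_vadd] at h1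
  have h2 : ((1 : ℝ) : ℂ) + (z : ℂ) ≠ 0 := by
    intro h0
    have h3 := congrArg Complex.im h0
    simp at h3
    exact z.im_ne_zero h3
  have h4 : -(((1 : ℝ) : ℂ) + (z : ℂ)) ≠ 0 := neg_ne_zero.mpr h2
  have h5 : (z : ℂ) * (-(((1 : ℝ) : ℂ) + (z : ℂ))) = 1 := by
    nth_rewrite 1 [← h1]
    exact inv_mul_cancel₀ h4
  push_cast at h5
  linear_combination -h5

theorem theta_ST (z : ℍ) (hz : (ModularGroup.S * ModularGroup.T : SL(2, ℤ)) • z = z) :
    (denom ((ModularGroup.S * ModularGroup.T : SL(2, ℤ)) : GL (Fin 2) ℝ) z) ^ (-2 : ℤ)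
      = -1 - (z : ℂ) := by
  have h := sq_add_of_ST_smul z hz
  rw [denom_ST, zpow_neg, zpow_ofNat]
  apply inv_eq_of_mul_eq_one_right
  linear_combination (-((z : ℂ) + 2)) * h

theorem isPrimitiveRoot_three {u : ℂ} (h : u ^ 2 + u + 1 = 0) : IsPrimitiveRoot u 3 := by
  have h3 : u ^ 3 = 1 := by linear_combination (u - 1) * h
  refine IsPrimitiveRoot.mk_of_lt u (by norm_num) h3 (fun l hl0 hl3 => ?_)
  interval_cases l
  · intro h1
    rw [pow_one] at h1
    rw [h1] at h
    norm_num at h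
  · intro h1
    have h2 : u = -2 := by linear_combination h - h1
    rw [h2] at h
    norm_num at h

theorem eta_ρ : (-1 - (ρ : ℂ)) ^ 2 + (-1 - (ρ : ℂ)) + 1 = 0 := by
  linear_combination sq_add_of_ST_smul ρ ST_smul_ρ

theorem GMBasis.linearIndependent_ρ (B : GMBasis N) :
    LinearIndependent ℂ (fun i => fun x => B.Φ i x ρ) :=
  linearIndependent_of_keyAt_fixed (B.keyAt_abs _) (ModularGroup.S * ModularGroup.T) ST_smul_ρ
    (B.Φ_slash _) (r := 3) (by norm_num)
    (by rw [theta_ST ρ ST_smul_ρ]; exact isPrimitiveRoot_three eta_ρ)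
    (ModularForm.mcast (by norm_num) E₆) (by rw [mcast_apply]; exact (E₆_ne_zero_of_E₄_eq_zero E₄_ρ))

theorem GMBasis.sum_eta_pow_hw (B : GMBasis N) :
    ∑ i, (-1 - (ρ : ℂ)) ^ (B.hw i) =
      (Nat.card (MulAction.fixedBy (X N) (ModularGroup.S * ModularGroup.T)) : ℂ) := by
  have h := sum_pow_eq_card_fixedBy (B.keyAt_abs _) (ModularGroup.S * ModularGroup.T) ST_smul_ρ
    (B.Φ_slash _) (r := 3) (by norm_num)
    (by rw [theta_ST ρ ST_smul_ρ]; exact isPrimitiveRoot_three eta_ρ)
    (ModularForm.mcast (by norm_num) E₆) (by rw [mcast_apply]; exact (E₆_ne_zero_of_E₄_eq_zero E₄_ρ)) rfl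
  rw [theta_ST ρ ST_smul_ρ] at h
  exact h

/-- (L4) the numbers of basis elements of weight `≡ 0, 2, 4 mod 6`. -/
theorem GMBasis.three_mul_card_mod3 (B : GMBasis N) :
    3 * (Finset.univ.filter fun i => B.hw i % 3 = 0).card =
        Nat.card (X N) + 2 * Nat.card (MulAction.fixedBy (X N) (ModularGroup.S * ModularGroup.T)) ∧
    3 * (Finset.univ.filter fun i => B.hw i % 3 = 1).card +
        Nat.card (MulAction.fixedBy (X N) (ModularGroup.S * ModularGroup.T)) = Nat.card (X N) ∧
    3 * (Finset.univ.filter fun i => B.hw i % 3 = 2).card +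
        Nat.card (MulAction.fixedBy (X N) (ModularGroup.S * ModularGroup.T)) = Nat.card (X N) := by
  set u : ℂ := -1 - (ρ : ℂ) with hu
  have hu2 : u ^ 2 + u + 1 = 0 := eta_ρ
  have hu3 : u ^ 3 = 1 := by linear_combination (u - 1) * hu2
  have him : u.im ≠ 0 := by
    have h1 : u.im = -ρ.im := by
      simp [hu]
    rw [h1]
    exact neg_ne_zero.mpr ρ.im_ne_zero
  have h := B.sum_eta_pow_hw
  rw [← hu] at h
  set n0 := (Finset.univ.filter fun i => B.hw i % 3 = 0).card with hn0
  set n1 := (Finset.univ.filter fun i => B.hw i % 3 = 1).card with hn1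
  set n2 := (Finset.univ.filter fun i => B.hw i % 3 = 2).card with hn2
  set ν := Nat.card (MulAction.fixedBy (X N) (ModularGroup.S * ModularGroup.T)) with hν
  have h1 : ∀ i, u ^ (B.hw i) = (if B.hw i % 3 = 0 then 1 else 0)
      + (if B.hw i % 3 = 1 then 1 else 0) * u + (if B.hw i % 3 = 2 then 1 else 0) * u ^ 2 := by
    intro i
    rw [pow_eq_pow_mod (B.hw i) hu3]
    have h2 : B.hw i % 3 < 3 := Nat.mod_lt _ (by norm_num)
    interval_cases B.hw i % 3 <;> simp
  simp only [h1, Finset.sum_add_distrib, ← Finset.sum_mul, Finset.sum_boole] at h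
  rw [← hn0, ← hn1, ← hn2] at h
  have hsum : n0 + n1 + n2 = Fintype.card (X N) := by
    have h2 : ∀ i : X N, (1 : ℕ) = (if B.hw i % 3 = 0 then 1 else 0)
        + (if B.hw i % 3 = 1 then 1 else 0) + (if B.hw i % 3 = 2 then 1 else 0) := by
      intro i
      have h3 : B.hw i % 3 < 3 := Nat.mod_lt _ (by norm_num)
      interval_cases B.hw i % 3 <;> simp
    have h4 : Fintype.card (X N) = ∑ _i : X N, 1 := by simp
    rw [h4, Finset.sum_congr rfl (fun i _ => h2 i)]
    simp only [Finset.sum_add_distrib, Finset.sum_boole, Nat.cast_id]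
    rfl
  have h5 : ((n0 : ℂ) - n2) + ((n1 : ℂ) - n2) * u = (ν : ℂ) := by
    linear_combination h - (n2 : ℂ) * hu2
  have h6 := congrArg Complex.im h5
  have h7 := congrArg Complex.re h5
  simp only [Complex.add_im, Complex.sub_im, Complex.natCast_im, Complex.mul_im, Complex.sub_re,
    Complex.natCast_re, sub_self, zero_mul, add_zero, zero_add, Complex.add_re,
    Complex.mul_re, sub_zero] at h6 h7
  have h8 : (n1 : ℝ) = n2 := by
    have := (mul_eq_zero.mp h6).resolve_right him
    linarith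
  rw [h8, sub_self, zero_mul, add_zero] at h7
  have h9 : n1 = n2 := by exact_mod_cast h8
  have h10 : n0 = n2 + ν := by
    have : (n0 : ℝ) = n2 + ν := by linarith
    exact_mod_cast this
  rw [Nat.card_eq_fintype_card]
  refine ⟨?_, ?_, ?_⟩ <;> omega

/-- values of the conjugates at a translated point -/
theorem GMBasis.Φ_smul (B : GMBasis N) (g : SL(2, ℤ)) (z : ℍ) (i x : X N) :
    B.Φ i x (g • z) = (denom g z) ^ (B.wt i) * B.Φ i (g⁻¹ • x) z := by
  have h1 := congrFun (B.Φ_slash g i x) z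
  rw [SL_slash_apply, B.two_mul_hw_int i] at h1
  rw [← h1, mul_comm, mul_assoc, ← zpow_natCast, ← zpow_add₀ (denom_ne_zero _ _)]
  simp

/-- independence of the conjugate vectors is invariant under `SL(2,ℤ)`. -/
theorem GMBasis.linearIndependent_smul (B : GMBasis N) (g : SL(2, ℤ)) (z : ℍ)
    (h : LinearIndependent ℂ (fun i => fun x => B.Φ i x z)) :
    LinearIndependent ℂ (fun i => fun x => B.Φ i x (g • z)) := by
  let L : (X N → ℂ) →ₗ[ℂ] (X N → ℂ) := LinearMap.funLeft ℂ ℂ (fun x => g⁻¹ • x)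
  have hL : Function.Injective L :=
    LinearMap.funLeft_injective_of_surjective ℂ ℂ _ (MulAction.surjective g⁻¹)
  have h1 : LinearIndependent ℂ (L ∘ (fun i => fun x => B.Φ i x z)) :=
    h.map' L (LinearMap.ker_eq_bot.mpr hL)
  let w : X N → ℂˣ := fun i =>
    Units.mk0 ((denom g z) ^ (B.wt i)) (pow_ne_zero _ (denom_ne_zero _ _))
  have h2 := h1.units_smul w
  convert h2 using 1
  funext i x
  rw [B.Φ_smul g z i x]
  simp [w, L, LinearMap.funLeft_apply, Units.smul_def]

/-- (L2)–(L4) + (J2): the conjugate vectors of a GM-basis are linearly independent at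
EVERY point of `ℍ`. -/
theorem GMBasis.linearIndependent_conj (B : GMBasis N) (z0 : ℍ) :
    LinearIndependent ℂ (fun i => fun x => B.Φ i x z0) := by
  by_cases h6 : E₆ z0 = 0
  · obtain ⟨g, hg⟩ := j_injective UpperHalfPlane.I z0 (by
      have h1 := discriminant_eq_E₄_cube_sub_E₆_sq UpperHalfPlane.I
      have h2 := discriminant_eq_E₄_cube_sub_E₆_sq z0
      rw [E₆_I] at h1
      rw [h6] at h2
      rw [h1, h2]
      ring)
    rw [← hg]
    exact B.linearIndependent_smul g _ B.linearIndependent_I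
  by_cases h4 : E₄ z0 = 0
  · obtain ⟨g, hg⟩ := j_injective ρ z0 (by
      rw [E₄_ρ, h4]
      ring)
    rw [← hg]
    exact B.linearIndependent_smul g _ B.linearIndependent_ρ
  · exact linearIndependent_of_keyAt_generic (B.keyAt_abs z0) h4 h6

end

end Fermat.Agent.ES
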