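import Mathlib

set_option autoImplicit false

namespace Fermat.Agent.ES

noncomputable section

/-- If a basis of `ℂ^X` consists of eigenvectors of a permutation operator, the sum of the
eigenvalues is the number of fixed points. -/
theorem sum_eigenvalues_eq_card_fixedPoints {X ι : Type*} [Fintype X] [DecidableEq X]
    [Fintype ι] [DecidableEq ι] (π : Equiv.Perm X) (v : ι → X → ℂ) (lam : ι → ℂ)
    (hli : LinearIndependent ℂ v) (hcard : Fintype.card ι = Fintype.card X)
    (heig : ∀ i x, v i (π x) = lam i * v i x) :
    ∑ i, lam i = (Fintype.card (Function.fixedPoints π) : ℂ) := by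
  rcases isEmpty_or_nonempty ι with hι | hι
  · have hX : IsEmpty X := by
      rw [← Fintype.card_eq_zero_iff, ← hcard, Fintype.card_eq_zero_iff]
      exact hι
    simp
  let b : Module.Basis ι ℂ (X → ℂ) := basisOfLinearIndependentOfCardEqFinrank hli
    (by rw [hcard, Module.finrank_fintype_fun_eq_card])
  have hb : ∀ i, b i = v i := fun i => by
    simp [b]
  let f : (X → ℂ) →ₗ[ℂ] (X → ℂ) := LinearMap.funLeft ℂ ℂ π
  have hf : ∀ i, f (b i) = lam i • b i := by
    intro i
    funext x
    simp only [f, LinearMap.funLeft_apply, hb, Pi.smul_apply, smul_eq_mul]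
    exact heig i x
  have h1 : LinearMap.trace ℂ (X → ℂ) f = ∑ i, lam i := by
    rw [LinearMap.trace_eq_matrix_trace ℂ b f, Matrix.trace]
    refine Finset.sum_congr rfl fun i _ => ?_
    rw [Matrix.diag_apply, LinearMap.toMatrix_apply, hf, map_smul, Module.Basis.repr_self]
    simp
  have h2 : LinearMap.trace ℂ (X → ℂ) f = (Fintype.card (Function.fixedPoints π) : ℂ) := by
    rw [LinearMap.trace_eq_matrix_trace ℂ (Pi.basisFun ℂ X) f, Matrix.trace]
    have hd : ∀ x, (LinearMap.toMatrix (Pi.basisFun ℂ X) (Pi.basisFun ℂ X) f).diag x =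
        if π x = x then 1 else 0 := by
      intro x
      rw [Matrix.diag_apply, LinearMap.toMatrix_apply]
      simp [f, LinearMap.funLeft_apply, Pi.single_apply]
    simp only [hd]
    rw [Finset.sum_ite, Finset.sum_const_zero, add_zero, Finset.sum_const, nsmul_eq_mul, mul_one]
    congr 1
    rw [Fintype.card_subtype]
    rfl
  rw [← h1, h2]

end

end Fermat.Agent.ES
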