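import Mathlib
import Fermat.Prelude.Def_ModularCurve_PeriodHomPair

set_option autoImplicit false

namespace Fermat.Agent.ES

open UpperHalfPlane hiding I
open Complex Filter CongruenceSubgroup ModularForm
open scoped MatrixGroups ModularForm Topology Manifold

noncomputable section

/-- A primitive is holomorphic. -/
theorem maxp_mdiff {F f : ℍ → ℂ} (h : ∀ τ : ℍ, HasDerivAt (F ∘ ofComplex) (f τ) ↑τ) :
    MDiff F := by
  rw [UpperHalfPlane.mdifferentiable_iff]
  intro z hz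
  exact (h ⟨z, hz⟩).differentiableAt.differentiableWithinAt

theorem maxp_isOpen_uhp : IsOpen {z : ℂ | 0 < z.im} :=
  isOpen_lt continuous_const Complex.continuous_im

theorem maxp_norm_exp (w : ℂ) : ‖Complex.exp (-Complex.I * w)‖ = Real.exp w.im := by
  rw [Complex.norm_exp]
  congr 1
  simp

/-- If `exp (-i F)` is constant then `F' = 0`. -/
theorem maxp_deriv_eq_zero_of_exp_const {F f : ℍ → ℂ}
    (h : ∀ τ : ℍ, HasDerivAt (F ∘ ofComplex) (f τ) ↑τ)
    (C : ℂ) (hC : ∀ τ : ℍ, Complex.exp (-Complex.I * F τ) = C) (τ : ℍ) : f τ = 0 := by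
  have h1 : HasDerivAt (fun z : ℂ => Complex.exp (-Complex.I * (F ∘ ofComplex) z))
      (Complex.exp (-Complex.I * (F ∘ ofComplex) ↑τ) * (-Complex.I * f τ)) ↑τ :=
    ((h τ).const_mul (-Complex.I)).cexp
  have h2 : (fun z : ℂ => Complex.exp (-Complex.I * (F ∘ ofComplex) z))
      =ᶠ[𝓝 (τ : ℂ)] fun _ => C := by
    filter_upwards [maxp_isOpen_uhp.mem_nhds τ.im_pos] with z _
    exact hC (ofComplex z)
  have h3 := (h1.congr_of_eventuallyEq h2.symm).unique (hasDerivAt_const _ _)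
  have h4 : Complex.exp (-Complex.I * (F ∘ ofComplex) ↑τ) ≠ 0 := Complex.exp_ne_zero _
  have h5 : -Complex.I * f τ = 0 := by
    rcases mul_eq_zero.mp h3 with h | h
    · exact absurd h h4
    · exact h
  rcases mul_eq_zero.mp h5 with h | h
  · exact absurd h (neg_ne_zero.mpr Complex.I_ne_zero)
  · exact h

/-- Interior maximum: `exp (-i F)` is constant. -/
theorem maxp_exp_const_of_isMax {F : ℍ → ℂ} (hF : MDiff F) (c : ℍ)
    (hc : ∀ τ : ℍ, (F τ).im ≤ (F c).im) :
    ∀ τ : ℍ, Complex.exp (-Complex.I * F τ) = Complex.exp (-Complex.I * F c) := by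
  have hconv : Convex ℝ {z : ℂ | 0 < z.im} := convex_halfSpace_im_gt 0
  have hd : DifferentiableOn ℂ (fun z : ℂ => Complex.exp (-Complex.I * (F ∘ ofComplex) z))
      {z : ℂ | 0 < z.im} :=
    ((UpperHalfPlane.mdifferentiable_iff.mp hF).const_mul _).cexp
  have hm : IsMaxOn (norm ∘ fun z : ℂ => Complex.exp (-Complex.I * (F ∘ ofComplex) z))
      {z : ℂ | 0 < z.im} ↑c := by
    intro z _
    simp only [Function.comp_apply, maxp_norm_exp, ofComplex_apply]
    exact Real.exp_le_exp.mpr (hc _)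
  have := Complex.eqOn_of_isPreconnected_of_isMaxOn_norm hconv.isPreconnected maxp_isOpen_uhp hd
    c.im_pos hm
  intro τ
  have h1 := this τ.im_pos
  simpa using h1

theorem maxp_neBot_comap_im : (comap Complex.im atTop).NeBot :=
  Filter.NeBot.comap_of_surj atTop_neBot (fun y => ⟨⟨0, y⟩, rfl⟩)

theorem maxp_tendsto_vadd (x : ℝ) : Tendsto (fun w : ℍ => x +ᵥ w) atImInfty atImInfty := by
  rw [atImInfty, tendsto_comap_iff]
  have : (UpperHalfPlane.im ∘ fun w : ℍ => x +ᵥ w) = UpperHalfPlane.im := by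
    ext w
    simp
  rw [this]
  exact tendsto_comap

/-- `T ^ N` conjugated by `δ` lies in `Γ₀(N)`. -/
theorem maxp_conj_T_mem (N : ℕ) (δ : SL(2, ℤ)) :
    δ * ModularGroup.T ^ (N : ℤ) * δ⁻¹ ∈ Gamma0 N := by
  have hT : ModularGroup.T ^ (N : ℤ) ∈ CongruenceSubgroup.Gamma N := by
    rw [CongruenceSubgroup.Gamma_mem, ModularGroup.coe_T_zpow]
    simp
  have h := (CongruenceSubgroup.Gamma_normal N).conj_mem _ hT δ
  rw [CongruenceSubgroup.Gamma_mem] at h
  rw [Gamma0_mem]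
  exact h.2.2.1

/-- Cusp maximum: `exp (-i F)` is constant. -/
theorem maxp_exp_const_of_cusp (N : ℕ) [NeZero N] {F : ℍ → ℂ} (hF : MDiff F)
    (heq : ModularCurve.Period.IsEquivariantPrimitive (Gamma0 N) F)
    (δ : SL(2, ℤ)) (L : ℂ) (hL : Tendsto (fun w : ℍ => F (δ • w)) atImInfty (𝓝 L))
    (hmax : ∀ τ : ℍ, (F τ).im ≤ L.im) :
    ∀ τ : ℍ, Complex.exp (-Complex.I * F τ) = Complex.exp (-Complex.I * L) := by
  have hN : (0 : ℝ) < (N : ℝ) := by exact_mod_cast Nat.pos_of_ne_zero (NeZero.ne N)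
  set G : ℍ → ℂ := fun w => F (δ • w) with hG
  have hGslash : G = F ∣[(0 : ℤ)] δ := by
    ext τ
    simp [hG, ModularForm.SL_slash_apply]
  have hGmd : MDiff G := by
    rw [hGslash, ModularForm.SL_slash]
    exact hF.slash 0 _
  -- periodicity on ℍ
  have hGper : ∀ w : ℍ, G ((N : ℝ) +ᵥ w) = G w := by
    obtain ⟨c, hc⟩ := heq ⟨_, maxp_conj_T_mem N δ⟩
    have hc' : ∀ w : ℍ, G ((N : ℝ) +ᵥ w) - G w = c := by
      intro w
      have := hc (δ • w)
      have e : (δ * ModularGroup.T ^ (N : ℤ) * δ⁻¹) • (δ • w) = δ • ((N : ℝ) +ᵥ w) := by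
        rw [← mul_smul, inv_mul_cancel_right, mul_smul, UpperHalfPlane.modular_T_zpow_smul]
        simp
      simp only [hG]
      rw [← e]
      exact this
    have h1 : Tendsto (fun w : ℍ => G ((N : ℝ) +ᵥ w) - G w) atImInfty (𝓝 (L - L)) :=
      (hL.comp (maxp_tendsto_vadd N)).sub hL
    have h2 : Tendsto (fun w : ℍ => G ((N : ℝ) +ᵥ w) - G w) atImInfty (𝓝 c) := by
      simp only [hc']
      exact tendsto_const_nhds
    have hc0 : c = 0 := by
      have := tendsto_nhds_unique h2 h1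
      simpa using this
    intro w
    have := hc' w
    rw [hc0, sub_eq_zero] at this
    exact this
  set g : ℂ → ℂ := G ∘ ofComplex with hg
  have hper : Function.Periodic g (N : ℝ) := by
    intro z
    by_cases hz : 0 < z.im
    · have hz' : 0 < (z + ((N : ℝ) : ℂ)).im := by simpa using hz
      have e : ofComplex (z + ((N : ℝ) : ℂ)) = (N : ℝ) +ᵥ ofComplex z := by
        ext
        rw [ofComplex_apply_of_im_pos hz', UpperHalfPlane.coe_vadd, ofComplex_apply_of_im_pos hz]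
        simp [add_comm]
      simp only [hg, Function.comp_apply, e, hGper]
    · have hz1 : z.im ≤ 0 := not_lt.mp hz
      have hz' : (z + ((N : ℝ) : ℂ)).im ≤ 0 := by simpa using hz1
      simp only [hg, Function.comp_apply]
      rw [ofComplex_apply_of_im_nonpos hz1, ofComplex_apply_of_im_nonpos hz']
  have hdiff : ∀ z : ℂ, 0 < z.im → DifferentiableAt ℂ g z := fun z hz =>
    (UpperHalfPlane.mdifferentiable_iff.mp hGmd).differentiableAt (maxp_isOpen_uhp.mem_nhds hz)
  have hhol : ∀ᶠ z in comap Complex.im atTop, DifferentiableAt ℂ g z := by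
    filter_upwards [tendsto_comap.eventually (eventually_gt_atTop (0 : ℝ))] with z hz
    exact hdiff z hz
  have hLg : Tendsto g (comap Complex.im atTop) (𝓝 L) := hL.comp tendsto_comap_im_ofComplex
  have hbd : BoundedAtFilter (comap Complex.im atTop) g := hLg.isBigO_one ℝ
  have hφ0 : Function.Periodic.cuspFunction (N : ℝ) g 0 = L := by
    have := maxp_neBot_comap_im
    exact tendsto_nhds_unique (Function.Periodic.tendsto_at_I_inf hN hper hhol hbd) hLg
  -- description of the punctured disc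
  have hq : ∀ q : ℂ, q ∈ Metric.ball (0 : ℂ) 1 → q ≠ 0 →
      ∃ z : ℂ, 0 < z.im ∧ Function.Periodic.qParam (N : ℝ) z = q := by
    intro q hq hq0
    refine ⟨Function.Periodic.invQParam (N : ℝ) q, ?_,
      Function.Periodic.qParam_right_inv hN.ne' hq0⟩
    rw [Function.Periodic.im_invQParam]
    have h1 : ‖q‖ < 1 := by simpa using hq
    have h2 : Real.log ‖q‖ < 0 := Real.log_neg (norm_pos_iff.mpr hq0) h1
    have h3 : -(N : ℝ) / (2 * Real.pi) < 0 := by
      apply div_neg_of_neg_of_pos (by linarith) (by positivity)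
    exact mul_pos_of_neg_of_neg h3 h2
  have hd : DifferentiableOn ℂ
      (fun q : ℂ => Complex.exp (-Complex.I * Function.Periodic.cuspFunction (N : ℝ) g q))
      (Metric.ball (0 : ℂ) 1) := by
    intro q hqb
    apply DifferentiableAt.differentiableWithinAt
    apply DifferentiableAt.cexp
    apply DifferentiableAt.const_mul
    by_cases hq0 : q = 0
    · rw [hq0]
      exact Function.Periodic.differentiableAt_cuspFunction_zero hN hper hhol hbd
    · obtain ⟨z, hz, rfl⟩ := hq q hqb hq0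
      exact Function.Periodic.differentiableAt_cuspFunction hN.ne' hper (hdiff z hz)
  have hm : IsMaxOn (norm ∘ fun q : ℂ =>
      Complex.exp (-Complex.I * Function.Periodic.cuspFunction (N : ℝ) g q))
      (Metric.ball (0 : ℂ) 1) 0 := by
    intro q hqb
    simp only [Function.comp_apply, maxp_norm_exp, hφ0]
    apply Real.exp_le_exp.mpr
    by_cases hq0 : q = 0
    · rw [hq0, hφ0]
    · obtain ⟨z, hz, rfl⟩ := hq q hqb hq0
      rw [Function.Periodic.eq_cuspFunction hN.ne' hper]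
      exact hmax _
  have hconst := Complex.eqOn_of_isPreconnected_of_isMaxOn_norm
    (convex_ball (0 : ℂ) 1).isPreconnected Metric.isOpen_ball hd (Metric.mem_ball_self one_pos) hm
  intro τ
  have hqb : Function.Periodic.qParam (N : ℝ) ((δ⁻¹ • τ : ℍ) : ℂ) ∈ Metric.ball (0 : ℂ) 1 := by
    simpa using Function.Periodic.norm_qParam_lt_one hN (δ⁻¹ • τ).im_pos
  have h1 := hconst hqb
  simp only [Function.const_apply, hφ0] at h1
  rw [Function.Periodic.eq_cuspFunction hN.ne' hper] at h1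
  simpa [hg, hG] using h1

/-- The truncated fundamental domain is compact. -/
theorem maxp_isCompact_fd_trunc (A : ℝ) :
    IsCompact {z : ℍ | z ∈ ModularGroup.fd ∧ z.im ≤ A} := by
  rw [isEmbedding_coe.isCompact_iff]
  have himg : UpperHalfPlane.coe '' {z : ℍ | z ∈ ModularGroup.fd ∧ z.im ≤ A}
      = {w : ℂ | 1 ≤ Complex.normSq w ∧ |w.re| ≤ 1 / 2 ∧ 0 ≤ w.im ∧ w.im ≤ A} := by
    ext w
    constructor
    · rintro ⟨z, ⟨hz1, hz2⟩, rfl⟩
      exact ⟨hz1.1, hz1.2, z.im_pos.le, hz2⟩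
    · rintro ⟨h1, h2, h3, h4⟩
      have hpos : 0 < w.im := by
        rcases h3.lt_or_eq with h | h
        · exact h
        · exfalso
          rw [Complex.normSq_apply, ← h] at h1
          have h5 : w.re * w.re ≤ 1 / 4 := by
            have := abs_le.mp h2
            nlinarith [this.1, this.2]
          linarith
      exact ⟨⟨w, hpos⟩, ⟨⟨h1, h2⟩, h4⟩, rfl⟩
  rw [himg]
  apply Metric.isCompact_of_isClosed_isBounded
  · have e : {w : ℂ | 1 ≤ Complex.normSq w ∧ |w.re| ≤ 1 / 2 ∧ 0 ≤ w.im ∧ w.im ≤ A}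
        = {w : ℂ | 1 ≤ Complex.normSq w} ∩ ({w : ℂ | |w.re| ≤ 1 / 2} ∩
          ({w : ℂ | 0 ≤ w.im} ∩ {w : ℂ | w.im ≤ A})) := by
      ext w; simp
    rw [e]
    refine (isClosed_le continuous_const Complex.continuous_normSq).inter
      ((isClosed_le (continuous_abs.comp Complex.continuous_re) continuous_const).inter
        ((isClosed_le continuous_const Complex.continuous_im).inter
          (isClosed_le Complex.continuous_im continuous_const)))
  · rw [isBounded_iff_forall_norm_le]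
    refine ⟨1 / 2 + A, ?_⟩
    rintro w ⟨-, h2, h3, h4⟩
    calc ‖w‖ ≤ |w.re| + |w.im| := Complex.norm_le_abs_re_add_abs_im w
      _ ≤ 1 / 2 + A := by
        rw [abs_of_nonneg h3]
        linarith

/-- Either the cusp value dominates `Im F`, or `Im F ∘ δ` is dominated on the fundamental
domain by a value of `Im F`. -/
theorem maxp_dichotomy {F : ℍ → ℂ} (hFc : Continuous F) (δ : SL(2, ℤ)) (L : ℂ)
    (hL : Tendsto (fun w : ℍ => F (δ • w)) atImInfty (𝓝 L)) :
    (∀ τ : ℍ, (F τ).im ≤ L.im) ∨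
      ∃ p : ℍ, ∀ z ∈ ModularGroup.fd, (F (δ • z)).im ≤ (F p).im := by
  by_cases h : ∀ τ : ℍ, (F τ).im ≤ L.im
  · exact Or.inl h
  · right
    push Not at h
    obtain ⟨τ₀, hτ₀⟩ := h
    have hL' : Tendsto (fun w : ℍ => (F (δ • w)).im) atImInfty (𝓝 L.im) :=
      (Complex.continuous_im.tendsto L).comp hL
    have hev : ∀ᶠ w in atImInfty, (F (δ • w)).im < (F τ₀).im :=
      hL'.eventually (gt_mem_nhds hτ₀)
    obtain ⟨A, hA⟩ := (atImInfty_mem _).mp hev
    have hsm : Continuous fun z : ℍ => δ • z :=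
      continuous_const_smul (Matrix.SpecialLinearGroup.mapGL ℝ δ)
    have hcont : Continuous fun z : ℍ => (F (δ • z)).im :=
      Complex.continuous_im.comp (hFc.comp hsm)
    by_cases hK : {z : ℍ | z ∈ ModularGroup.fd ∧ z.im ≤ A}.Nonempty
    · obtain ⟨κ, hκ, hκmax⟩ := (maxp_isCompact_fd_trunc A).exists_isMaxOn hK hcont.continuousOn
      rcases le_total (F τ₀).im (F (δ • κ)).im with hle | hle
      · refine ⟨δ • κ, fun z hz => ?_⟩
        by_cases hzA : z.im ≤ A
        · exact hκmax ⟨hz, hzA⟩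
        · exact (hA z (not_le.mp hzA).le).le.trans hle
      · refine ⟨τ₀, fun z hz => ?_⟩
        by_cases hzA : z.im ≤ A
        · exact (hκmax ⟨hz, hzA⟩).trans hle
        · exact (hA z (not_le.mp hzA).le).le
    · refine ⟨τ₀, fun z hz => ?_⟩
      by_cases hzA : z.im ≤ A
      · exact absurd ⟨z, hz, hzA⟩ hK
      · exact (hA z (not_le.mp hzA).le).le

/-- **Maximum principle**: a weight two cusp form whose equivariant primitive has real periods
vanishes. -/
theorem maxp_eq_zero_of_primitive (N : ℕ) [NeZero N] (f : CuspForm (Gamma0 N) 2) (F : ℍ → ℂ)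
    (hF : ModularCurve.HasEquivariantPrimitive N f F)
    (him : ∀ γ : Gamma0 N,
      (F ((γ : SL(2, ℤ)) • UpperHalfPlane.I) - F UpperHalfPlane.I).im = 0) : f = 0 := by
  obtain ⟨hder, -, heq, hlim⟩ := hF
  have hMD : MDiff F := maxp_mdiff hder
  have hFc : Continuous F := hMD.continuous
  have hinv : ∀ (γ : Gamma0 N) (z : ℍ), (F ((γ : SL(2, ℤ)) • z)).im = (F z).im := by
    intro γ z
    obtain ⟨c, hc⟩ := heq γ
    have h1 := hc z
    have h2 := him γ
    rw [hc UpperHalfPlane.I] at h2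
    have h3 := congrArg Complex.im h1
    rw [Complex.sub_im, h2] at h3
    linarith
  suffices hconst : ∃ C : ℂ, ∀ τ : ℍ, Complex.exp (-Complex.I * F τ) = C by
    obtain ⟨C, hC⟩ := hconst
    ext τ
    exact maxp_deriv_eq_zero_of_exp_const hder C hC τ
  choose Lx hLx using fun x : SL(2, ℤ) ⧸ Gamma0 N => hlim (x.out)⁻¹
  by_cases hA : ∃ x : SL(2, ℤ) ⧸ Gamma0 N, ∀ τ : ℍ, (F τ).im ≤ (Lx x).im
  · obtain ⟨x, hx⟩ := hA
    exact ⟨_, maxp_exp_const_of_cusp N hMD heq _ _ (hLx x) hx⟩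
  · have hp : ∀ x : SL(2, ℤ) ⧸ Gamma0 N, ∃ p : ℍ, ∀ z ∈ ModularGroup.fd,
        (F ((x.out)⁻¹ • z)).im ≤ (F p).im := fun x =>
      (maxp_dichotomy hFc _ _ (hLx x)).resolve_left (fun h => hA ⟨x, h⟩)
    choose p hp using hp
    obtain ⟨x₀, hx₀⟩ := Finite.exists_max (fun x : SL(2, ℤ) ⧸ Gamma0 N => (F (p x)).im)
    refine ⟨_, maxp_exp_const_of_isMax hMD (p x₀) ?_⟩
    intro τ
    obtain ⟨g, hg⟩ := ModularGroup.exists_smul_mem_fd τ
    have hγ : ((QuotientGroup.mk g : SL(2, ℤ) ⧸ Gamma0 N).out)⁻¹ * g ∈ Gamma0 N :=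
      QuotientGroup.leftRel_apply.mp (Quotient.exact' (QuotientGroup.out_eq' _))
    calc (F τ).im
        = (F ((((QuotientGroup.mk g : SL(2, ℤ) ⧸ Gamma0 N).out)⁻¹ * g) • τ)).im :=
          (hinv ⟨_, hγ⟩ τ).symm
      _ = (F (((QuotientGroup.mk g : SL(2, ℤ) ⧸ Gamma0 N).out)⁻¹ • (g • τ))).im := by
          rw [mul_smul]
      _ ≤ (F (p (QuotientGroup.mk g))).im := hp _ _ hg
      _ ≤ (F (p x₀)).im := hx₀ _

/-! ### The real structure `f ↦ conj (f (-conj τ))` -/

/-- `J * γ = γ* * J` in `GL(2, ℝ)`. -/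
theorem maxp_J_mul (γ : SL(2, ℤ)) :
    UpperHalfPlane.J * (Matrix.SpecialLinearGroup.mapGL ℝ γ)
      = Matrix.SpecialLinearGroup.mapGL ℝ (ModularCurve.Period.jConjSL γ) * UpperHalfPlane.J := by
  ext i j
  fin_cases i <;> fin_cases j <;>
    simp [Matrix.mul_apply, Fin.sum_univ_two, ModularCurve.Period.jConjMat,
      Matrix.SpecialLinearGroup.mapGL]

theorem maxp_J_smul_smul (γ : SL(2, ℤ)) (z : ℍ) :
    UpperHalfPlane.J • (γ • z) = (ModularCurve.Period.jConjSL γ) • (UpperHalfPlane.J • z) := by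
  show UpperHalfPlane.J • ((Matrix.SpecialLinearGroup.mapGL ℝ γ) • z)
    = (Matrix.SpecialLinearGroup.mapGL ℝ (ModularCurve.Period.jConjSL γ)) • (UpperHalfPlane.J • z)
  rw [← mul_smul, ← mul_smul, maxp_J_mul]

theorem maxp_slash_J_apply (h : ℍ → ℂ) (τ : ℍ) :
    (h ∣[(2 : ℤ)] UpperHalfPlane.J) τ = (starRingEnd ℂ) (h (UpperHalfPlane.J • τ)) := by
  rw [ModularForm.slash_def]
  simp

theorem maxp_slash_J_slash (h : ℍ → ℂ) (γ : SL(2, ℤ)) :
    (h ∣[(2 : ℤ)] UpperHalfPlane.J) ∣[(2 : ℤ)] γ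
      = (h ∣[(2 : ℤ)] (ModularCurve.Period.jConjSL γ)) ∣[(2 : ℤ)] UpperHalfPlane.J := by
  rw [ModularForm.SL_slash, ModularForm.SL_slash, ← SlashAction.slash_mul,
    ← SlashAction.slash_mul]
  exact congrArg (fun g : GL (Fin 2) ℝ => h ∣[(2 : ℤ)] g) (maxp_J_mul γ)

theorem maxp_tendsto_J : Tendsto (fun τ : ℍ => UpperHalfPlane.J • τ) atImInfty atImInfty := by
  rw [atImInfty, tendsto_comap_iff]
  have : (UpperHalfPlane.im ∘ fun τ : ℍ => UpperHalfPlane.J • τ) = UpperHalfPlane.im := by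
    ext τ
    show (UpperHalfPlane.J • τ).im = τ.im
    rw [← UpperHalfPlane.coe_im, UpperHalfPlane.coe_J_smul]
    simp
  rw [this]
  exact tendsto_comap

theorem maxp_isZero_slash_J {h : ℍ → ℂ} (hh : IsZeroAtImInfty h) :
    IsZeroAtImInfty (h ∣[(2 : ℤ)] UpperHalfPlane.J) := by
  have h1 : Tendsto (fun τ : ℍ => (starRingEnd ℂ) (h (UpperHalfPlane.J • τ))) atImInfty
      (𝓝 ((starRingEnd ℂ) 0)) :=
    (Complex.continuous_conj.tendsto 0).comp (hh.comp maxp_tendsto_J)
  rw [map_zero] at h1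
  have e : (h ∣[(2 : ℤ)] UpperHalfPlane.J)
      = fun τ : ℍ => (starRingEnd ℂ) (h (UpperHalfPlane.J • τ)) :=
    funext (maxp_slash_J_apply h)
  rw [e]
  exact h1

/-- The conjugate cusp form `τ ↦ conj (f (-conj τ))`. -/
theorem maxp_exists_conj_cuspForm (N : ℕ) [NeZero N] (f : CuspForm (Gamma0 N) 2) :
    ∃ fc : CuspForm (Gamma0 N) 2,
      ∀ τ : ℍ, fc τ = (starRingEnd ℂ) (f (UpperHalfPlane.J • τ)) := by
  have hinvf : ∀ γ ∈ Gamma0 N, (f : ℍ → ℂ) ∣[(2 : ℤ)] γ = f := fun γ hγ => by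
    rw [SL_slash]
    exact SlashInvariantFormClass.slash_action_eq f _ (Subgroup.mem_map_of_mem _ hγ)
  have hd : MDiff ((f : ℍ → ℂ) ∣[(2 : ℤ)] UpperHalfPlane.J) := (CuspFormClass.holo f).slash 2 _
  have hinv : ∀ γ ∈ Gamma0 N, ((f : ℍ → ℂ) ∣[(2 : ℤ)] UpperHalfPlane.J) ∣[(2 : ℤ)] γ
      = (f : ℍ → ℂ) ∣[(2 : ℤ)] UpperHalfPlane.J := by
    intro γ hγ
    rw [maxp_slash_J_slash, hinvf _ (ModularCurve.Period.jConjSL_mem_Gamma0 hγ)]
  have hz : ∀ g : SL(2, ℤ),
      IsZeroAtImInfty (((f : ℍ → ℂ) ∣[(2 : ℤ)] UpperHalfPlane.J) ∣[(2 : ℤ)] g) := by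
    intro g
    rw [maxp_slash_J_slash]
    exact maxp_isZero_slash_J (CuspFormClass.zero_at_infty_slash f _)
  refine ⟨{ toFun := (f : ℍ → ℂ) ∣[(2 : ℤ)] UpperHalfPlane.J
            slash_action_eq' := ?_
            holo' := hd
            zero_at_cusps' := ?_ }, fun τ => maxp_slash_J_apply f τ⟩
  · rintro _ ⟨γ, hγ, rfl⟩
    have := hinv γ hγ
    rwa [SL_slash] at this
  · intro c hc
    rw [Subgroup.IsArithmetic.isCusp_iff_isCusp_SL2Z] at hc
    rw [OnePoint.isZeroAt_iff_forall_SL2Z hc]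
    exact fun γ _ => hz γ

/-- The primitive of the conjugate form. -/
theorem maxp_conj_primitive (N : ℕ) [NeZero N] (f fc : CuspForm (Gamma0 N) 2)
    (hfc : ∀ τ : ℍ, fc τ = (starRingEnd ℂ) (f (UpperHalfPlane.J • τ))) (F : ℍ → ℂ)
    (hF : ModularCurve.HasEquivariantPrimitive N f F) :
    ModularCurve.HasEquivariantPrimitive N fc
      (fun τ => -(starRingEnd ℂ) (F (UpperHalfPlane.J • τ))) := by
  obtain ⟨hder, h0, heq, hlim⟩ := hF
  refine ⟨?_, ?_, ?_, ?_⟩
  · intro τ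
    have hk := hder (UpperHalfPlane.J • τ)
    rw [UpperHalfPlane.coe_J_smul] at hk
    have hh : HasDerivAt (fun w : ℂ => (F ∘ ofComplex) (-w))
        (f (UpperHalfPlane.J • τ) * (-1)) ((starRingEnd ℂ) (τ : ℂ)) :=
      HasDerivAt.comp ((starRingEnd ℂ) (τ : ℂ)) hk (hasDerivAt_neg _)
    have hc := hh.conj_conj
    rw [Complex.conj_conj] at hc
    have hneg := hc.neg
    have hev : (fun z : ℂ => -(starRingEnd ℂ) (F (UpperHalfPlane.J • ofComplex z)))
        =ᶠ[𝓝 (τ : ℂ)] -((starRingEnd ℂ) ∘ (fun w : ℂ => (F ∘ ofComplex) (-w)) ∘ (starRingEnd ℂ)) := by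
      filter_upwards [maxp_isOpen_uhp.mem_nhds τ.im_pos] with z hz
      have hz' : 0 < (-(starRingEnd ℂ) z).im := by simpa using hz
      have e : UpperHalfPlane.J • ofComplex z = ofComplex (-(starRingEnd ℂ) z) := by
        ext
        rw [UpperHalfPlane.coe_J_smul, ofComplex_apply_of_im_pos hz, ofComplex_apply_of_im_pos hz']
      simp only [Pi.neg_apply, Function.comp_apply, e]
    have := hneg.congr_of_eventuallyEq hev
    refine this.congr_deriv ?_
    rw [hfc τ]
    simp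
  · have h1 : Tendsto (fun τ : ℍ => (starRingEnd ℂ) (F (UpperHalfPlane.J • τ))) atImInfty
        (𝓝 ((starRingEnd ℂ) 0)) :=
      (Complex.continuous_conj.tendsto 0).comp (h0.comp maxp_tendsto_J)
    have h2 := h1.neg
    rw [map_zero, neg_zero] at h2
    exact h2
  · intro γ
    obtain ⟨c, hc⟩ := heq (ModularCurve.Period.jConjGamma0 N γ)
    refine ⟨-(starRingEnd ℂ) c, fun z => ?_⟩
    have := hc (UpperHalfPlane.J • z)
    rw [ModularCurve.Period.jConjGamma0_coe] at this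
    show -(starRingEnd ℂ) (F (UpperHalfPlane.J • ((γ : SL(2, ℤ)) • z)))
      - -(starRingEnd ℂ) (F (UpperHalfPlane.J • z)) = -(starRingEnd ℂ) c
    rw [maxp_J_smul_smul, ← this, map_sub]
    ring
  · intro δ
    obtain ⟨L, hL⟩ := hlim (ModularCurve.Period.jConjSL δ)
    refine ⟨-(starRingEnd ℂ) L, ?_⟩
    have h1 : Tendsto (fun w : ℍ => F ((ModularCurve.Period.jConjSL δ) • (UpperHalfPlane.J • w)))
        atImInfty (𝓝 L) := hL.comp maxp_tendsto_J
    have h2 := ((Complex.continuous_conj.tendsto L).comp h1).neg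
    refine h2.congr fun w => ?_
    simp only [Function.comp_apply]
    rw [maxp_J_smul_smul]

/-- **Real structure**: the conjugate form and the relation between the periods. -/
theorem maxp_exists_conjForm (N : ℕ) [NeZero N] (f : CuspForm (Gamma0 N) 2) (F : ℍ → ℂ)
    (hF : ModularCurve.HasEquivariantPrimitive N f F) :
    ∃ (fc : CuspForm (Gamma0 N) 2) (Fc : ℍ → ℂ), ModularCurve.HasEquivariantPrimitive N fc Fc ∧
      ∀ γ : Gamma0 N,
        Fc (((ModularCurve.Period.jConjGamma0 N γ : Gamma0 N) : SL(2, ℤ)) • UpperHalfPlane.I)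
            - Fc UpperHalfPlane.I
          = -(starRingEnd ℂ) (F ((γ : SL(2, ℤ)) • UpperHalfPlane.I) - F UpperHalfPlane.I) := by
  obtain ⟨fc, hfc⟩ := maxp_exists_conj_cuspForm N f
  refine ⟨fc, _, maxp_conj_primitive N f fc hfc F hF, fun γ => ?_⟩
  have hJI : UpperHalfPlane.J • UpperHalfPlane.I = UpperHalfPlane.I := by
    ext
    rw [UpperHalfPlane.coe_J_smul]
    simp
  show -(starRingEnd ℂ) (F (UpperHalfPlane.J •
      (((ModularCurve.Period.jConjGamma0 N γ : Gamma0 N) : SL(2, ℤ)) • UpperHalfPlane.I)))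
    - -(starRingEnd ℂ) (F (UpperHalfPlane.J • UpperHalfPlane.I)) = _
  rw [maxp_J_smul_smul, hJI, ModularCurve.Period.jConjGamma0_coe,
    ModularCurve.Period.jConjSL_jConjSL, map_sub]
  ring

end

end Fermat.Agent.ES
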